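import Fermat.Agent.TT.Spec
import Fermat.Agent.TT.B2.Prod
import Fermat.Agent.TT.Nodal.Space
import Fermat.Agent.TT.Alpha.Norm
import Fermat.Agent.FF.Core.Transfer
import Fermat.Agent.FF.IntInst.Gal
import Fermat.Agent.FF.Genus
import Fermat.Agent.FF.Core.AllSpare

/-!
# PROGRAM TT (S33), arrow (A): THE ASSEMBLY SPEC  (`TtGeomAll p`)

Owner: helper24 (architect of the assembly).  Namespace `Fermat.Agent.TT`, prefix `ttg`.

The analogue of `FfirModel` (Program FF) for the TWO-VALUATION integral model of `X₀(N)`, `N = M p`,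
`p ∤ M`, at a place `𝔸` over `p`:

* `TtgModel 𝔸 V₁ V₂ red₁ red₂ ρ cls ν₁ ν₂ T₁ T₂ g g₁ g₂` : **the abstract two-valuation model** =
  EXACTLY what the engine side (origin-C5a, bridge, (α), B2 bases, nodal script, junction) consumes
  from G/Red₂ (layers A, B), (NODE), (INTO), (COUNT), (POS).  One field per leaf, owner in the
  doc-string of the field.
* `ttgPush₁`, `ttgPush₂` : the reduction of a divisor to the two components (through the class map
  `cls : Place K F → Option (Place k F₁ ⊕ Place k F₂)`, `none` = bad place).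
* `TtgRed2Spec N p 𝔸` : LEAF (RED2) = the model exists for `F = F_ℚ̄(N)` with the coefficientwise
  inertia action `ffigRho N 𝔸`;
* `TtgAssemblySpec` : LEAF (ASSEMBLY) = abstract model ⟹ connected order on the Kummer subgroup,
  its `I`-stability and (α);
* `ttg_geomAll` : the two leaves give `TtGeomAll p` (proved here, no sorry).
-/

set_option autoImplicit false
set_option linter.unusedSectionVars false
set_option linter.unusedVariables false
set_option linter.style.haveILetI false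

noncomputable section

namespace Fermat.Agent.TT

open AlgebraicCurve IsLocalRing Module Fermat.Agent.G Fermat.Agent.FF

section Push

variable {K : Type*} [Field K] {F : Type*} [Field F] [Algebra K F]
variable {k : Type*} [Field k] {F₁ F₂ : Type*} [Field F₁] [Field F₂] [Algebra k F₁] [Algebra k F₂]

/-- the part of the reduction of a divisor on the first component. -/
def ttgPush₁ (cls : Place K F → Option (Place k F₁ ⊕ Place k F₂)) (D : Divisor K F) :
    Divisor k F₁ :=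
  Finsupp.comapDomain (fun Q : Place k F₁ => (some (Sum.inl Q) : Option (Place k F₁ ⊕ Place k F₂)))
    (Finsupp.mapDomain cls D) (fun _ _ _ _ h => Sum.inl.inj (Option.some.inj h))

/-- the part of the reduction of a divisor on the second component. -/
def ttgPush₂ (cls : Place K F → Option (Place k F₁ ⊕ Place k F₂)) (D : Divisor K F) :
    Divisor k F₂ :=
  Finsupp.comapDomain (fun Q : Place k F₂ => (some (Sum.inr Q) : Option (Place k F₁ ⊕ Place k F₂)))
    (Finsupp.mapDomain cls D) (fun _ _ _ _ h => Sum.inr.inj (Option.some.inj h))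

end Push

section Model

variable {K : Type*} [Field K] (A : ValuationSubring K) {F : Type*} [Field F] [Algebra K F]
variable {F₁ F₂ : Type*} [Field F₁] [Field F₂] [Algebra (ResidueField A) F₁]
  [Algebra (ResidueField A) F₂]
variable {G : Type*} [Group G] {S : Type*} [Fintype S]

/-- the pair of the two reductions on `O₂ = V₁ ∩ V₂`. -/
def ttgRed {V₁ V₂ : ValuationSubring F} (red₁ : V₁ →+* F₁) (red₂ : V₂ →+* F₂) :
    ↥(V₁.toSubring ⊓ V₂.toSubring) →+* F₁ × F₂ :=
  ttbProdRed (O₁ := V₁.toSubring) (O₂ := V₂.toSubring) red₁ red₂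

/-- **THE ABSTRACT TWO-VALUATION MODEL.**  `A ⊂ K` a valuation ring with residue field `k`; `V₁, V₂`
the two Gauss valuation rings of `F` with reductions `red_j : V_j → F_j` (function fields of the two
components, genera `g₁, g₂`); `ρ` the inertia group acting semilinearly; `cls` the class map
(`none` = bad place, `some (inl Q)` = good place of the first kind reducing to `Q`, `some (inr Q)`
= good place of the second kind); `ν₁ i ~ ν₂ i` the nodes; `T_j` finite sets of closed points over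
which no fixed good lifts are provided (they contain the nodes); `g` the generic genus. -/
structure TtgModel (V₁ V₂ : ValuationSubring F) (red₁ : V₁ →+* F₁) (red₂ : V₂ →+* F₂)
    (ρ : G →* SemilinearAut K F)
    (cls : Place K F → Option (Place (ResidueField A) F₁ ⊕ Place (ResidueField A) F₂))
    (ν₁ : S → Place (ResidueField A) F₁) (ν₂ : S → Place (ResidueField A) F₂)
    (T₁ : Finset (Place (ResidueField A) F₁)) (T₂ : Finset (Place (ResidueField A) F₂))
    (g g₁ g₂ : ℕ) : Prop where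
  /-- RINGS (helper12 (A3)-(A5) + helper26 `ttb_red_prod`): constants, kernel `= 𝔪_A O₂`, scaling. -/
  toRed : TtbRed A (V₁.toSubring ⊓ V₂.toSubring) (ttgRed red₁ red₂)
  /-- RINGS (helper12 (A4)): `ker red₁ = 𝔪_{V₁}`. -/
  ker₁ : ∀ x : V₁, red₁ x = 0 ↔ (x : F) ∈ V₁.nonunits
  /-- RINGS (helper12 (A4)): `ker red₂ = 𝔪_{V₂}`. -/
  ker₂ : ∀ x : V₂, red₂ x = 0 ↔ (x : F) ∈ V₂.nonunits
  /-- RINGS (helper12 (A6)): the two idempotents modulo the radical (input of `ttal_hnorm`). -/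
  idem : TtalIdem A V₁ V₂
  /-- RINGS (helper12 (A4), `e = 1`): every function is a constant times a unit of `V₁`. -/
  sc₁ : ∀ f : F, f ≠ 0 → ∃ c : K, c ≠ 0 ∧ TtalIsU V₁ (algebraMap K F c * f)
  /-- RINGS (helper12 (A4), `e = 1`): every function is a constant times a unit of `V₂`. -/
  sc₂ : ∀ f : F, f ≠ 0 → ∃ c : K, c ≠ 0 ∧ TtalIsU V₂ (algebraMap K F c * f)
  /-- ACTION (helper9 (A7) + main `ffig_base_mem`). -/
  base_mem : ∀ (σ : G) (a : K), a ∈ A → SemilinearAut.baseAut (ρ σ) a ∈ A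
  /-- ACTION (helper9 (A7) + main `ffig_base_res`). -/
  base_res : ∀ (σ : G) (a : A),
    residue A ⟨SemilinearAut.baseAut (ρ σ) (a : K), base_mem σ a a.2⟩ = residue A a
  /-- ACTION (helper9 (A7)): inertia moves `V₁` by `𝔪_{V₁}` (so it stabilises `V₁`, and
  `red₁ (σ x) = red₁ x`). -/
  move₁ : ∀ (σ : G) (x : F), x ∈ V₁ → ρ σ • x - x ∈ V₁.nonunits
  /-- ACTION (helper9 (A7)): inertia moves `V₂` by `𝔪_{V₂}`. -/
  move₂ : ∀ (σ : G) (x : F), x ∈ V₂ → ρ σ • x - x ∈ V₂.nonunits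
  /-- PLACES (helper6 (B3) + main `ffip_exists_fixed_lift` at level `M`): fixed good lifts of the
  first kind, off `T₁`. -/
  lift₁ : ∀ Q : Place (ResidueField A) F₁, Q ∉ T₁ →
    ∃ P : Place K F, cls P = some (Sum.inl Q) ∧ ∀ σ : G, ρ σ • P = P
  /-- PLACES (helper6 (B3)): fixed good lifts of the second kind, off `T₂`. -/
  lift₂ : ∀ Q : Place (ResidueField A) F₂, Q ∉ T₂ →
    ∃ P : Place K F, cls P = some (Sum.inr Q) ∧ ∀ σ : G, ρ σ • P = P
  /-- NODE (helper19): the nodes are distinct points of the first component. -/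
  ν₁_inj : Function.Injective ν₁
  /-- NODE (helper19): the nodes are distinct points of the second component. -/
  ν₂_inj : Function.Injective ν₂
  /-- NODE: no good lifts are asked over the nodes. -/
  ν₁_mem : ∀ i, ν₁ i ∈ T₁
  /-- NODE: no good lifts are asked over the nodes. -/
  ν₂_mem : ∀ i, ν₂ i ∈ T₂
  /-- POS (helper27, via S24 on main) / CONN0 (helper3): the closed fibre is connected. -/
  nodes : Nonempty S
  /-- COUNT (helper5): the HARD half of the genus identity, from `tto_onto` + NODE + nodal RR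
  (`dim_k red(Λ_m) ≤ dim_K L(m D∞)`).  The other half is an OUTPUT of the interpolation. -/
  genus_le : (g : ℤ) ≤ g₁ + g₂ + Fintype.card S - 1
  /-- INTO = (R-in) (helper23 `ttri_into`): for a divisor supported on good places, with
  coefficients `≥ -1` and AT MOST ONE forced (simple) zero in each residue disc, the reduction of
  `L(D) ∩ O₂` lies in the nodal space of the reduced divisor (pole bound at the good points,
  regularity and GLUING at the bad points).  [The two side conditions are those of `ttri_into`;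
  every consumer satisfies them: `i𝔡`, `n D₀`, the three fixed lattices are effective, and
  `𝔡 - D_γ`, `D_γ - P` have reduced negative part with one point per disc.] -/
  into : ∀ D : Divisor K F, (∀ P, D P ≠ 0 → cls P ≠ none) → (∀ P, -1 ≤ D P) →
    (∀ P P' : Place K F, cls P = cls P' → D P < 0 → D P' < 0 → P = P') →
    ∀ (x : F) (h₁ : x ∈ V₁) (h₂ : x ∈ V₂), x ∈ riemannRochSpace D →
      (red₁ ⟨x, h₁⟩, red₂ ⟨x, h₂⟩) ∈ ttnkL ν₁ ν₂ (ttgPush₁ cls D) (ttgPush₂ cls D)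
  /-- VALUES (helper6 (B2) + helper23 (LOC)): value compatibility at a good place of the first kind
  whose residue disc carries no pole. -/
  val₁ : ∀ (P : Place K F) (Q : Place (ResidueField A) F₁), cls P = some (Sum.inl Q) →
    ∀ (x : F) (h₁ : x ∈ V₁) (h₂ : x ∈ V₂),
      (∀ P' : Place K F, cls P' = some (Sum.inl Q) → 0 ≤ P'.ord x) →
      ∃ α : A, GrdVal P x (α : K) ∧ GrdVal Q (red₁ ⟨x, h₁⟩) (residue A α)
  /-- VALUES (helper6 (B2) + helper23 (LOC)): the same for the second kind. -/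
  val₂ : ∀ (P : Place K F) (Q : Place (ResidueField A) F₂), cls P = some (Sum.inr Q) →
    ∀ (x : F) (h₁ : x ∈ V₁) (h₂ : x ∈ V₂),
      (∀ P' : Place K F, cls P' = some (Sum.inr Q) → 0 ≤ P'.ord x) →
      ∃ α : A, GrdVal P x (α : K) ∧ GrdVal Q (red₂ ⟨x, h₂⟩) (residue A α)
  /-- BRIDGE (V)+(D) (helper6/helper23/helper29): a function without poles at the bad places whose
  two reductions are one nonzero constant has no zero at a bad place and degree zero on every good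
  residue class.  [= field `const` of `TtalBridge` with `bad = {cls = none}`.] -/
  const : ∀ (x : F) (h₁ : x ∈ V₁) (h₂ : x ∈ V₂) (c : ResidueField A), c ≠ 0 → x ≠ 0 →
    (∀ v : Place K F, cls v = none → 0 ≤ v.ord x) →
    red₁ ⟨x, h₁⟩ = algebraMap (ResidueField A) F₁ c →
    red₂ ⟨x, h₂⟩ = algebraMap (ResidueField A) F₂ c →
    ∀ Dx : Divisor K F, (∀ v : Place K F, Dx v = v.ord x) →
      (∀ v : Place K F, cls v = none → Dx v = 0) ∧ Finsupp.mapDomain cls Dx = 0

end Model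

/-! ## Transport of the connected order along an equivariant isomorphism -/

/-- **`TtConnOut` is invariant under equivariant isomorphisms.** -/
theorem ttg_connOut_equiv {M M' : Type} [AddCommGroup M] [AddCommGroup M'] (e : M ≃+ M')
    (𝔸 : ValuationSubring FfQb) (act : ↥(ffI 𝔸) → M → M) (act' : ↥(ffI 𝔸) → M' → M')
    (h : ∀ (σ : ↥(ffI 𝔸)) (m : M), e (act σ m) = act' σ (e m)) :
    TtConnOut 𝔸 M act → TtConnOut 𝔸 M' act' := by
  classical
  rintro ⟨Gen, h1, h2, h3, h4, h5⟩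
  let c : (M → FfQb) →ₐ[↥(ffWI 𝔸)] (M' → FfQb) := ffctComap ↥(ffWI 𝔸) (fun m' => e.symm m')
  have hsymm : ∀ (σ : ↥(ffI 𝔸)) (m' : M'), e.symm (act' σ m') = act σ (e.symm m') := by
    intro σ m'
    apply e.injective
    rw [h, e.apply_symm_apply, e.apply_symm_apply]
  have hadj : ∀ a ∈ Algebra.adjoin ↥(ffWI 𝔸) (↑Gen : Set (M → FfQb)),
      c a ∈ Algebra.adjoin ↥(ffWI 𝔸) (↑(Gen.image c) : Set (M' → FfQb)) := by
    intro a ha
    have : c a ∈ (Algebra.adjoin ↥(ffWI 𝔸) (↑Gen : Set (M → FfQb))).map c := ⟨a, ha, rfl⟩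
    rw [AlgHom.map_adjoin] at this
    rwa [Finset.coe_image]
  refine ⟨Gen.image c, ?_, ?_, ?_, ?_, ?_⟩
  · intro φ' hφ' m'
    obtain ⟨φ, hφ, rfl⟩ := Finset.mem_image.mp hφ'
    exact h1 φ hφ _
  · intro φ' hφ' σ m'
    obtain ⟨φ, hφ, rfl⟩ := Finset.mem_image.mp hφ'
    change φ (e.symm (act' σ m')) = (σ : FfGal) (φ (e.symm m'))
    rw [hsymm, h2 φ hφ σ]
  · intro m' m'' hne
    obtain ⟨φ, hφ, hφne⟩ := h3 (e.symm m') (e.symm m'') (fun hh => hne (e.symm.injective hh))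
    exact ⟨c φ, Finset.mem_image_of_mem c hφ, hφne⟩
  · intro φ' hφ'
    obtain ⟨φ, hφ, rfl⟩ := Finset.mem_image.mp hφ'
    obtain ⟨n, a, b, hab⟩ := h4 φ hφ
    refine ⟨n, fun i => ⟨c (a i).1, hadj _ (a i).2⟩, fun i => ⟨c (b i).1, hadj _ (b i).2⟩,
      fun m' m'' => ?_⟩
    change φ (e.symm (m' + m'')) = ∑ i, (a i).1 (e.symm m') * (b i).1 (e.symm m'')
    rw [map_add, hab]
  · intro φ' hφ' m'
    obtain ⟨φ, hφ, rfl⟩ := Finset.mem_image.mp hφ'
    change φ (e.symm m') - φ (e.symm 0) ∈ 𝔸.nonunits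
    rw [map_zero]
    exact h5 φ hφ _

/-! ## The two leaves of arrow (A) -/

open ModularCurve Fermat.Agent.V.RR

/-- **LEAF (RED2)** (helper12 + helper6 + helper17 + helper9 + helper19 + helper23 + helper5 +
helper27): the two-valuation model of `X₀(M p)` at the place `𝔸` over `p ∤ M`, with both components
the reduction of `X₀(M)` (function field `F_k(M)`, genus `g(M)`), the coefficientwise action of
the inertia group, and SOME class map, nodes and exceptional sets. -/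
def TtgRed2Spec (M p : ℕ) [NeZero M] [NeZero (M * p)] (𝔸 : ValuationSubring FfQb) : Prop :=
  ∃ (V₁ V₂ : ValuationSubring ↥(modularFunctionFieldBar (M * p)))
    (red₁ : V₁ →+* ↥(modularFunctionFieldFullC (ResidueField 𝔸) M))
    (red₂ : V₂ →+* ↥(modularFunctionFieldFullC (ResidueField 𝔸) M))
    (cls : Place FfQb ↥(modularFunctionFieldBar (M * p)) →
      Option (Place (ResidueField 𝔸) ↥(modularFunctionFieldFullC (ResidueField 𝔸) M) ⊕
        Place (ResidueField 𝔸) ↥(modularFunctionFieldFullC (ResidueField 𝔸) M)))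
    (S : Type) (_ : Fintype S)
    (ν₁ ν₂ : S → Place (ResidueField 𝔸) ↥(modularFunctionFieldFullC (ResidueField 𝔸) M))
    (T₁ T₂ : Finset (Place (ResidueField 𝔸) ↥(modularFunctionFieldFullC (ResidueField 𝔸) M))),
    TtgModel 𝔸 V₁ V₂ red₁ red₂ (ffigRho (M * p) 𝔸) cls ν₁ ν₂ T₁ T₂
      (genusFF FfQb ↥(modularFunctionFieldBar (M * p)))
      (genusFF FfQb ↥(modularFunctionFieldBar M)) (genusFF FfQb ↥(modularFunctionFieldBar M))

/-- **LEAF (ALPHA)** (helper29, `TT/Alpha/Inst.lean`): for the abstract model, the Kummer subgroup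
`Γ₀ = ttalKum (ttalOne V₁ V₂) (p^j)` is inertia-stable and carries (α). -/
def TtgAlphaSpec : Prop :=
  ∀ (p : ℕ), p.Prime → ∀ (𝔸 : ValuationSubring FfQb), 𝔸.LiesOverPrime p →
  ∀ (F : Type) [Field F] [Algebra FfQb F] (F₁ F₂ : Type) [Field F₁] [Field F₂]
    [Algebra (ResidueField 𝔸) F₁] [Algebra (ResidueField 𝔸) F₂] (g g₁ g₂ : ℕ),
    V27RR FfQb F g → (∀ P : Place FfQb F, P.deg = 1) →
    ∀ (V₁ V₂ : ValuationSubring F) (red₁ : V₁ →+* F₁) (red₂ : V₂ →+* F₂)
      (ρ : ↥(ffI 𝔸) →* SemilinearAut FfQb F),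
      (∀ (σ : ↥(ffI 𝔸)) (a : FfQb), SemilinearAut.baseAut (ρ σ) a = (σ : FfGal) a) →
    ∀ (cls : Place FfQb F → Option (Place (ResidueField 𝔸) F₁ ⊕ Place (ResidueField 𝔸) F₂))
      (S : Type) [Fintype S] (ν₁ : S → Place (ResidueField 𝔸) F₁)
      (ν₂ : S → Place (ResidueField 𝔸) F₂) (T₁ : Finset (Place (ResidueField 𝔸) F₁))
      (T₂ : Finset (Place (ResidueField 𝔸) F₂)),
      TtgModel 𝔸 V₁ V₂ red₁ red₂ ρ cls ν₁ ν₂ T₁ T₂ g g₁ g₂ →
      ∀ j : ℕ,
        (∀ (σ : ↥(ffI 𝔸)) (x : Pic0 FfQb F), x ∈ ttalKum (K := FfQb) (ttalOne V₁ V₂) (p ^ j) →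
          ρ σ • x ∈ ttalKum (K := FfQb) (ttalOne V₁ V₂) (p ^ j)) ∧
        (∀ (σ : ↥(ffI 𝔸)) (x : Pic0 FfQb F), ((p ^ j : ℕ) : ℤ) • x = 0 →
          ρ σ • x - x ∈ ttalKum (K := FfQb) (ttalOne V₁ V₂) (p ^ j))

/-- **LEAF (CONN)** = THE ABSTRACT ASSEMBLY (helper24 + helper10 junction + helper1 C5a/Hyp +
helper13 engine/model + helper25 nodal script + helper26 B2 + helper28 points + helper29 bridge):
for the abstract model, the Kummer subgroup carries a connected `Δ`-closed `W`-order. -/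
def TtgConnSpec : Prop :=
  ∀ (p : ℕ), p.Prime → p ≠ 2 → ∀ (𝔸 : ValuationSubring FfQb), 𝔸.LiesOverPrime p →
  ∀ (F : Type) [Field F] [Algebra FfQb F] (F₁ F₂ : Type) [Field F₁] [Field F₂]
    [Algebra (ResidueField 𝔸) F₁] [Algebra (ResidueField 𝔸) F₂] (g g₁ g₂ : ℕ),
    V27RR FfQb F g → (∀ P : Place FfQb F, P.deg = 1) →
    V27RR (ResidueField 𝔸) F₁ g₁ → V27RR (ResidueField 𝔸) F₂ g₂ →
    (∀ Q : Place (ResidueField 𝔸) F₁, Q.deg = 1) → (∀ Q : Place (ResidueField 𝔸) F₂, Q.deg = 1) →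
    ∀ (V₁ V₂ : ValuationSubring F) (red₁ : V₁ →+* F₁) (red₂ : V₂ →+* F₂)
      (ρ : ↥(ffI 𝔸) →* SemilinearAut FfQb F),
      (∀ (σ : ↥(ffI 𝔸)) (a : FfQb), SemilinearAut.baseAut (ρ σ) a = (σ : FfGal) a) →
    ∀ (cls : Place FfQb F → Option (Place (ResidueField 𝔸) F₁ ⊕ Place (ResidueField 𝔸) F₂))
      (S : Type) [Fintype S] (ν₁ : S → Place (ResidueField 𝔸) F₁)
      (ν₂ : S → Place (ResidueField 𝔸) F₂) (T₁ : Finset (Place (ResidueField 𝔸) F₁))
      (T₂ : Finset (Place (ResidueField 𝔸) F₂)),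
      TtgModel 𝔸 V₁ V₂ red₁ red₂ ρ cls ν₁ ν₂ T₁ T₂ g g₁ g₂ →
      ∀ (j : ℕ) (Γ : AddSubgroup (Pic0 FfQb F)),
        Γ = ttalKum (K := FfQb) (ttalOne V₁ V₂) (p ^ j) → Finite ↥Γ →
        ∀ act : ↥(ffI 𝔸) → ↥Γ → ↥Γ,
          (∀ (σ : ↥(ffI 𝔸)) (γ : ↥Γ), ((act σ γ : ↥Γ) : Pic0 FfQb F) = ρ σ • (γ : Pic0 FfQb F)) →
          TtConnOut 𝔸 ↥Γ act

/-! ## The chain: the three leaves give arrow (A) -/

/-- **arrow (A) from its three leaves** (RED2) + (ALPHA) + (CONN). -/
theorem ttg_geomAll (p : ℕ) [Fact p.Prime] (hp2 : p ≠ 2)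
    (hRed : ∀ (M : ℕ) [NeZero M] [NeZero (M * p)], ¬ p ∣ M → (5 ≤ p ∨ (5 - p) ∣ M) →
      ∀ 𝔸 : ValuationSubring FfQb, 𝔸.LiesOverPrime p → TtgRed2Spec M p 𝔸)
    (hAlpha : TtgAlphaSpec) (hConn : TtgConnSpec) : TtGeomAll p := by
  intro N _ k hpN hp2N hgood 𝔸 h𝔸
  have hp : p.Prime := Fact.out
  obtain ⟨M, rfl⟩ : ∃ M, N = M * p := ⟨N / p, (Nat.div_mul_cancel hpN).symm⟩
  have hM0 : M ≠ 0 := by
    rintro rfl
    exact NeZero.ne (0 * p) (zero_mul p)
  haveI : NeZero M := ⟨hM0⟩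
  have hpM : ¬ p ∣ M := by
    rintro ⟨c, rfl⟩
    exact hp2N ⟨c, by ring⟩
  have hgoodM : 5 ≤ p ∨ (5 - p) ∣ M := by
    by_cases h5 : 5 ≤ p
    · exact Or.inl h5
    · right
      have hd : (5 - p) ∣ M * p := hgood.resolve_left h5
      have h2 := hp.two_le
      have h3 : p = 3 := by
        have hlt : p < 5 := by omega
        interval_cases p
        · exact absurd rfl hp2
        · rfl
        · exact absurd hp (by norm_num)
      rw [h3] at hd ⊢
      exact Nat.Coprime.dvd_of_dvd_mul_right (by norm_num) hd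
  obtain ⟨V₁, V₂, red₁, red₂, cls, S, hS, ν₁, ν₂, T₁, T₂, hMod⟩ := hRed M hpM hgoodM 𝔸 h𝔸
  letI := hS
  have RR := ffg_rr_bar (M * p)
  have hdeg : ∀ P : Place FfQb ↥(modularFunctionFieldBar (M * p)), P.deg = 1 :=
    fun v => (Fermat.Agent.S24.isSepGen_jBar (M * p)).deg_eq_one v
  obtain ⟨τ, τ', hat⟩ := ffcz_atlas M 𝔸 h𝔸 ⟨hpM, hgoodM⟩
  obtain ⟨-, RRk, -, hdegk, -⟩ := ffii_bundle M 𝔸 hpM h𝔸 hat
  have hρ : ∀ (σ : ↥(ffI 𝔸)) (a : FfQb),
      SemilinearAut.baseAut (ffigRho (M * p) 𝔸 σ) a = (σ : FfGal) a := fun σ a => rfl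
  obtain ⟨hstab, hα⟩ := hAlpha p hp 𝔸 h𝔸 _ _ _ _ _ _ RR hdeg V₁ V₂ red₁ red₂ _ hρ cls S ν₁ ν₂
    T₁ T₂ hMod k
  set Γ : AddSubgroup (Pic0 FfQb ↥(modularFunctionFieldBar (M * p))) :=
    ttalKum (K := FfQb) (ttalOne V₁ V₂) (p ^ k) with hΓ
  have hΓT : ∀ x ∈ Γ, x ∈ Submodule.torsionBy ℤ (JZero (M * p)) ((p : ℤ) ^ k) := by
    intro x hx
    rw [Submodule.mem_torsionBy_iff]
    have := ttal_kum_torsion hx
    push_cast at this
    exact this
  refine ⟨Γ.comap (Submodule.torsionBy ℤ (JZero (M * p)) ((p : ℤ) ^ k)).subtype.toAddMonoidHom,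
    fun σ m hm => hstab σ m.1 hm, fun σ m => ?_, ?_⟩
  · have hm := (Submodule.mem_torsionBy_iff _ _).mp m.2
    exact hα σ m.1 (by push_cast; exact hm)
  · haveI := fftp_finite (M * p) p k
    haveI : Finite ↥Γ :=
      Finite.of_injective (fun γ : ↥Γ =>
        (⟨γ.1, hΓT γ.1 γ.2⟩ : ↥(Submodule.torsionBy ℤ (JZero (M * p)) ((p : ℤ) ^ k))))
        (fun a b hab => Subtype.ext (congrArg (fun z : ↥(Submodule.torsionBy ℤ (JZero (M * p)) ((p : ℤ) ^ k)) => (z : JZero (M * p))) hab))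
    have hout := hConn p hp hp2 𝔸 h𝔸 _ _ _ _ _ _ RR hdeg RRk RRk hdegk hdegk V₁ V₂ red₁ red₂ _ hρ
      cls S ν₁ ν₂ T₁ T₂ hMod k Γ rfl inferInstance
      (fun σ γ => ⟨ffigRho (M * p) 𝔸 σ • γ.1, hstab σ γ.1 γ.2⟩) (fun σ γ => rfl)
    refine ttg_connOut_equiv
      { toFun := fun γ => ⟨⟨γ.1, hΓT γ.1 γ.2⟩, γ.2⟩
        invFun := fun m => ⟨m.1.1, m.2⟩
        left_inv := fun _ => rfl
        right_inv := fun _ => rfl
        map_add' := fun _ _ => rfl } 𝔸 _ _ (fun σ m => rfl) hout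

end Fermat.Agent.TT
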