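import Mathlib
import Fermat.Agent.TT.Nodal.General

/-!
# Program TT (S33), assembly of (A): the ORIGIN DATA

Owner: helper26.  Namespace `Fermat.Agent.TT`, prefix `ttgr`.

The closed fibre is the nodal curve `C₁ ∪ C₂` (`F₁`, `F₂` over `k`, nodes `ν₁ s ~ ν₂ s`), the
generic fibre is `F / K`.  The two-valuation layer provides LIFT MAPS
`l₁ : Place k F₁ → Place K F`, `l₂ : Place k F₂ → Place K F` (the `G`-fixed good place above a good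
closed point; junk on the finitely many excluded points `T₁`, `T₂`).

* `ttgrLift l₁ l₂ A₁ A₂ : Divisor K F` : the lift of a pair divisor, with its calculus (additive,
  monotone, degree, `G`-fixed, support, push-forward back to the components, pointwise values);
* `TtgrClosed` : the closed origin data `D̃₀ = (D₁, D₂)`, `X̃₀ = (X₁, X₂)`, `𝔡̃ = (dd₁, dd₂)` with all
  the hypotheses of helper25's `ttnk_closed_U`, reducedness, (G1)-(G3), off `T_j` and off the nodes,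
  `D̃₀ + X̃₀ ≤ 𝔡̃`, `m ≤ deg dd_j`;  `ttgr_exists_closed` : it exists;
* the generic origin data `C.dd`, `C.D0`, `C.X0`, `C.E := 2𝔡 - 2D₀ - X₀` (lifts) : nonnegativity,
  degrees (`deg D₀ = deg X₀ = g`, `deg E = 2 deg 𝔡 - 3g`, given the genus identity
  `g + 1 = g₁ + g₂ + #S`), `G`-fixedness, and the three identities
  `2𝔡 - E = 2D₀ + X₀`, `2𝔡 - (E + D₀) = D₀ + X₀`, `3𝔡 - (E + D₀) = 𝔡 + D₀ + X₀` as lifts.
-/

set_option autoImplicit false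
set_option linter.unusedSectionVars false
set_option linter.unusedVariables false
set_option linter.style.haveILetI false

noncomputable section

namespace Fermat.Agent.TT

open AlgebraicCurve Module Fermat.Agent.V.RR

variable {K F : Type*} [Field K] [Field F] [Algebra K F]
variable {k F₁ F₂ : Type*} [Field k] [Field F₁] [Field F₂] [Algebra k F₁] [Algebra k F₂]

section Lift

variable (l₁ : Place k F₁ → Place K F) (l₂ : Place k F₂ → Place K F)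

/-- the lift of a pair divisor of the closed fibre to the generic fibre -/
def ttgrLift (A₁ : Divisor k F₁) (A₂ : Divisor k F₂) : Divisor K F :=
  Finsupp.mapDomain l₁ A₁ + Finsupp.mapDomain l₂ A₂

theorem ttgrLift_zero : ttgrLift l₁ l₂ 0 0 = 0 := by
  rw [ttgrLift, Finsupp.mapDomain_zero, Finsupp.mapDomain_zero, add_zero]

theorem ttgrLift_add (A₁ B₁ : Divisor k F₁) (A₂ B₂ : Divisor k F₂) :
    ttgrLift l₁ l₂ (A₁ + B₁) (A₂ + B₂) = ttgrLift l₁ l₂ A₁ A₂ + ttgrLift l₁ l₂ B₁ B₂ := by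
  rw [ttgrLift, ttgrLift, ttgrLift, Finsupp.mapDomain_add, Finsupp.mapDomain_add]
  abel

theorem ttgrLift_sub (A₁ B₁ : Divisor k F₁) (A₂ B₂ : Divisor k F₂) :
    ttgrLift l₁ l₂ (A₁ - B₁) (A₂ - B₂) = ttgrLift l₁ l₂ A₁ A₂ - ttgrLift l₁ l₂ B₁ B₂ := by
  have h := ttgrLift_add l₁ l₂ (A₁ - B₁) B₁ (A₂ - B₂) B₂
  rw [sub_add_cancel, sub_add_cancel] at h
  rw [h, add_sub_cancel_right]

theorem ttgrLift_nsmul (n : ℕ) (A₁ : Divisor k F₁) (A₂ : Divisor k F₂) :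
    ttgrLift l₁ l₂ (n • A₁) (n • A₂) = n • ttgrLift l₁ l₂ A₁ A₂ := by
  rw [ttgrLift, ttgrLift, smul_add]
  congr 1
  · exact map_nsmul (Finsupp.mapDomain.addMonoidHom l₁) n A₁
  · exact map_nsmul (Finsupp.mapDomain.addMonoidHom l₂) n A₂

theorem ttgr_mapDomain_nonneg {α β : Type*} (f : α → β) {D : α →₀ ℤ} (hD : 0 ≤ D) :
    0 ≤ Finsupp.mapDomain f D := by
  classical
  intro Q
  rw [Finsupp.coe_zero, Pi.zero_apply, Finsupp.mapDomain, Finsupp.sum_apply]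
  refine Finset.sum_nonneg fun P _ => ?_
  beta_reduce
  rw [Finsupp.single_apply]
  split_ifs
  · exact hD P
  · exact le_rfl

theorem ttgr_lift_nonneg {A₁ : Divisor k F₁} {A₂ : Divisor k F₂} (h₁ : 0 ≤ A₁) (h₂ : 0 ≤ A₂) :
    0 ≤ ttgrLift l₁ l₂ A₁ A₂ :=
  add_nonneg (ttgr_mapDomain_nonneg l₁ h₁) (ttgr_mapDomain_nonneg l₂ h₂)

theorem ttgr_lift_mono {A₁ B₁ : Divisor k F₁} {A₂ B₂ : Divisor k F₂} (h₁ : A₁ ≤ B₁)
    (h₂ : A₂ ≤ B₂) : ttgrLift l₁ l₂ A₁ A₂ ≤ ttgrLift l₁ l₂ B₁ B₂ := by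
  have h := ttgr_lift_nonneg l₁ l₂ (sub_nonneg.mpr h₁) (sub_nonneg.mpr h₂)
  rw [ttgrLift_sub] at h
  exact sub_nonneg.mp h

theorem ttgr_degree_mapDomain {K' F' k' F'' : Type*} [Field K'] [Field F'] [Algebra K' F']
    [Field k'] [Field F''] [Algebra k' F''] (f : Place k' F'' → Place K' F')
    (hdeg : ∀ P : Place K' F', P.deg = 1) (hdeg' : ∀ Q : Place k' F'', Q.deg = 1)
    (D : Divisor k' F'') : Divisor.degree (Finsupp.mapDomain f D) = Divisor.degree D := by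
  induction D using Finsupp.induction with
  | zero => simp
  | single_add P n D _ _ ih =>
    rw [Finsupp.mapDomain_add, map_add, map_add, ih, Finsupp.mapDomain_single,
      Divisor.degree_single, Divisor.degree_single, hdeg, hdeg']

/-- the degree of a lift (all places of degree one) -/
theorem ttgr_lift_degree (hdeg : ∀ P : Place K F, P.deg = 1)
    (hdeg₁ : ∀ Q : Place k F₁, Q.deg = 1) (hdeg₂ : ∀ Q : Place k F₂, Q.deg = 1)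
    (A₁ : Divisor k F₁) (A₂ : Divisor k F₂) :
    Divisor.degree (ttgrLift l₁ l₂ A₁ A₂) = Divisor.degree A₁ + Divisor.degree A₂ := by
  rw [ttgrLift, map_add, ttgr_degree_mapDomain l₁ hdeg hdeg₁, ttgr_degree_mapDomain l₂ hdeg hdeg₂]

/-- a lift is fixed by an automorphism fixing the lifted points of its support -/
theorem ttgr_lift_fixed (σ : SemilinearAut K F) {A₁ : Divisor k F₁} {A₂ : Divisor k F₂}
    (h₁ : ∀ Q, A₁ Q ≠ 0 → σ • l₁ Q = l₁ Q) (h₂ : ∀ Q, A₂ Q ≠ 0 → σ • l₂ Q = l₂ Q) :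
    σ • ttgrLift l₁ l₂ A₁ A₂ = ttgrLift l₁ l₂ A₁ A₂ := by
  rw [ttgrLift, smul_add, SemilinearAut.divisor_smul_def, SemilinearAut.divisor_smul_def,
    ← Finsupp.mapDomain_comp, ← Finsupp.mapDomain_comp]
  congr 1
  · exact Finsupp.mapDomain_congr fun Q hQ => h₁ Q (Finsupp.mem_support_iff.mp hQ)
  · exact Finsupp.mapDomain_congr fun Q hQ => h₂ Q (Finsupp.mem_support_iff.mp hQ)

/-- the support of a lift consists of lifted points of the supports -/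
theorem ttgr_lift_support {A₁ : Divisor k F₁} {A₂ : Divisor k F₂} {P : Place K F}
    (hP : ttgrLift l₁ l₂ A₁ A₂ P ≠ 0) :
    (∃ Q, A₁ Q ≠ 0 ∧ l₁ Q = P) ∨ (∃ Q, A₂ Q ≠ 0 ∧ l₂ Q = P) := by
  classical
  by_contra hcon
  push Not at hcon
  apply hP
  have e₁ : Finsupp.mapDomain l₁ A₁ P = 0 := by
    rw [← Finsupp.notMem_support_iff]
    intro hmem
    obtain ⟨Q, hQ, hQP⟩ := Finset.mem_image.mp (Finsupp.mapDomain_support hmem)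
    exact hcon.1 Q (Finsupp.mem_support_iff.mp hQ) hQP
  have e₂ : Finsupp.mapDomain l₂ A₂ P = 0 := by
    rw [← Finsupp.notMem_support_iff]
    intro hmem
    obtain ⟨Q, hQ, hQP⟩ := Finset.mem_image.mp (Finsupp.mapDomain_support hmem)
    exact hcon.2 Q (Finsupp.mem_support_iff.mp hQ) hQP
  rw [ttgrLift, Finsupp.add_apply, e₁, e₂, add_zero]

/-- a lift vanishes at every place which is not a lifted point of the supports -/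
theorem ttgr_lift_eq_zero {A₁ : Divisor k F₁} {A₂ : Divisor k F₂} {P : Place K F}
    (h₁ : ∀ Q, A₁ Q ≠ 0 → l₁ Q ≠ P) (h₂ : ∀ Q, A₂ Q ≠ 0 → l₂ Q ≠ P) :
    ttgrLift l₁ l₂ A₁ A₂ P = 0 := by
  by_contra hP
  rcases ttgr_lift_support l₁ l₂ hP with ⟨Q, hQ, hQP⟩ | ⟨Q, hQ, hQP⟩
  · exact h₁ Q hQ hQP
  · exact h₂ Q hQ hQP

/-- **push-forward of a lift**: a left inverse `r` of `l` on the support recovers the divisor. -/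
theorem ttgr_push {α β : Type*} (l : α → β) (r : β → α) {D : α →₀ ℤ}
    (h : ∀ Q, D Q ≠ 0 → r (l Q) = Q) : Finsupp.mapDomain r (Finsupp.mapDomain l D) = D := by
  rw [← Finsupp.mapDomain_comp]
  have : Finsupp.mapDomain (r ∘ l) D = Finsupp.mapDomain id D :=
    Finsupp.mapDomain_congr fun Q hQ => h Q (Finsupp.mem_support_iff.mp hQ)
  rw [this, Finsupp.mapDomain_id]

/-- the value of a lift at a lifted point of the first component -/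
theorem ttgr_lift_apply₁ (G₁ : Set (Place k F₁)) (hinj : Set.InjOn l₁ G₁)
    {A₁ : Divisor k F₁} {A₂ : Divisor k F₂} (hA₁ : ∀ Q, A₁ Q ≠ 0 → Q ∈ G₁)
    {Q : Place k F₁} (hQ : Q ∈ G₁) (hdisj : ∀ Q', A₂ Q' ≠ 0 → l₂ Q' ≠ l₁ Q) :
    ttgrLift l₁ l₂ A₁ A₂ (l₁ Q) = A₁ Q := by
  classical
  have e₂ : Finsupp.mapDomain l₂ A₂ (l₁ Q) = 0 := by
    rw [← Finsupp.notMem_support_iff]
    intro hmem
    obtain ⟨Q', hQ', hQP⟩ := Finset.mem_image.mp (Finsupp.mapDomain_support hmem)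
    exact hdisj Q' (Finsupp.mem_support_iff.mp hQ') hQP
  rw [ttgrLift, Finsupp.add_apply, e₂, add_zero]
  exact Finsupp.mapDomain_apply' G₁ A₁
    (fun Q' hQ' => hA₁ Q' (Finsupp.mem_support_iff.mp hQ')) hinj hQ

/-- the value of a lift at a lifted point of the second component -/
theorem ttgr_lift_apply₂ (G₂ : Set (Place k F₂)) (hinj : Set.InjOn l₂ G₂)
    {A₁ : Divisor k F₁} {A₂ : Divisor k F₂} (hA₂ : ∀ Q, A₂ Q ≠ 0 → Q ∈ G₂)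
    {Q : Place k F₂} (hQ : Q ∈ G₂) (hdisj : ∀ Q', A₁ Q' ≠ 0 → l₁ Q' ≠ l₂ Q) :
    ttgrLift l₁ l₂ A₁ A₂ (l₂ Q) = A₂ Q := by
  classical
  have e₁ : Finsupp.mapDomain l₁ A₁ (l₂ Q) = 0 := by
    rw [← Finsupp.notMem_support_iff]
    intro hmem
    obtain ⟨Q', hQ', hQP⟩ := Finset.mem_image.mp (Finsupp.mapDomain_support hmem)
    exact hdisj Q' (Finsupp.mem_support_iff.mp hQ') hQP
  rw [ttgrLift, Finsupp.add_apply, e₁, zero_add]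
  exact Finsupp.mapDomain_apply' G₂ A₂
    (fun Q' hQ' => hA₂ Q' (Finsupp.mem_support_iff.mp hQ')) hinj hQ

end Lift

section Closed

variable {S : Type*} [Fintype S]

/-- **the closed origin data**: `D̃₀ = (D₁, D₂)`, `X̃₀ = (X₁, X₂)`, `𝔡̃ = (dd₁, dd₂)`. -/
structure TtgrClosed (ν₁ : S → Place k F₁) (ν₂ : S → Place k F₂) (g₁ g₂ : ℕ)
    (T₁ : Finset (Place k F₁)) (T₂ : Finset (Place k F₂)) (m : ℕ) where
  D₁ : Divisor k F₁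
  X₁ : Divisor k F₁
  dd₁ : Divisor k F₁
  D₂ : Divisor k F₂
  X₂ : Divisor k F₂
  dd₂ : Divisor k F₂
  hD₁0 : 0 ≤ D₁
  hX₁0 : 0 ≤ X₁
  hD₂0 : 0 ≤ D₂
  hX₂0 : 0 ≤ X₂
  hD₁deg : Divisor.degree D₁ = (g₁ : ℤ) - 1 + Fintype.card S
  hX₁deg : Divisor.degree X₁ = (g₁ : ℤ)
  hD₂deg : Divisor.degree D₂ = (g₂ : ℤ)
  hX₂deg : Divisor.degree X₂ = (g₂ : ℤ) - 1 + Fintype.card S
  hD₁T : ∀ P ∈ T₁, D₁ P = 0
  hX₁T : ∀ P ∈ T₁, X₁ P = 0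
  hdd₁T : ∀ P ∈ T₁, dd₁ P = 0
  hD₂T : ∀ P ∈ T₂, D₂ P = 0
  hX₂T : ∀ P ∈ T₂, X₂ P = 0
  hdd₂T : ∀ P ∈ T₂, dd₂ P = 0
  hD₁ν : ∀ s, D₁ (ν₁ s) = 0
  hX₁ν : ∀ s, X₁ (ν₁ s) = 0
  hdd₁ν : ∀ s, dd₁ (ν₁ s) = 0
  hD₂ν : ∀ s, D₂ (ν₂ s) = 0
  hX₂ν : ∀ s, X₂ (ν₂ s) = 0
  hdd₂ν : ∀ s, dd₂ (ν₂ s) = 0
  hD₁r : ∀ P, D₁ P ≤ 1
  hX₁r : ∀ P, X₁ P ≤ 1
  hD₂r : ∀ P, D₂ P ≤ 1
  hX₂r : ∀ P, X₂ P ≤ 1
  hD₁sub : riemannRochSpace (D₁ - ttnkN ν₁) = ⊥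
  hX₁sub : riemannRochSpace (X₁ - ttnkN ν₁) = ⊥
  hD₂sub : riemannRochSpace (D₂ - ttnkN ν₂) = ⊥
  hX₂sub : riemannRochSpace (X₂ - ttnkN ν₂) = ⊥
  hX₁one : finrank k (riemannRochSpace X₁) = 1
  hD₂one : finrank k (riemannRochSpace D₂) = 1
  hD : ttnkL ν₁ ν₂ D₁ D₂ = Submodule.span k {(1 : F₁ × F₂)}
  hX : ttnkL ν₁ ν₂ X₁ X₂ = Submodule.span k {(1 : F₁ × F₂)}
  hle₁ : D₁ + X₁ ≤ dd₁
  hle₂ : D₂ + X₂ ≤ dd₂
  hm₁ : (m : ℤ) ≤ Divisor.degree dd₁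
  hm₂ : (m : ℤ) ≤ Divisor.degree dd₂

/-- **the closed origin data exist** (helper25's `ttnk_exists_origin_full` + a large multiple of a
good point on each component). -/
theorem ttgr_exists_closed [Infinite k] {g₁ g₂ : ℕ} (R₁ : V27RR k F₁ g₁) (R₂ : V27RR k F₂ g₂)
    (hdeg₁ : ∀ v : Place k F₁, v.deg = 1) (hdeg₂ : ∀ v : Place k F₂, v.deg = 1)
    [Infinite (Place k F₁)] [Infinite (Place k F₂)]
    (ν₁ : S → Place k F₁) (ν₂ : S → Place k F₂)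
    (hν₁ : Function.Injective ν₁) (hν₂ : Function.Injective ν₂) (hs : 1 ≤ Fintype.card S)
    (T₁ : Finset (Place k F₁)) (T₂ : Finset (Place k F₂)) (m : ℕ) :
    Nonempty (TtgrClosed ν₁ ν₂ g₁ g₂ T₁ T₂ m) := by
  classical
  obtain ⟨D₁, X₁, D₂, X₂, ⟨hD₁0, hX₁0, hD₂0, hX₂0⟩, ⟨hD₁deg, hX₁deg, hD₂deg, hX₂deg⟩,
    ⟨hD₁T, hX₁T, hD₂T, hX₂T⟩, ⟨hD₁ν, hX₁ν, hD₂ν, hX₂ν⟩, ⟨hD₁r, hX₁r, hD₂r, hX₂r⟩,
    ⟨hD₁sub, hX₁sub, hD₂sub, hX₂sub⟩, ⟨hX₁one, hD₂one⟩, hD, hX⟩ :=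
    ttnk_exists_origin_full ν₁ ν₂ R₁ R₂ hdeg₁ hdeg₂ hν₁ hν₂ hs T₁ T₂
  obtain ⟨Q₁, hQ₁⟩ := Infinite.exists_notMem_finset (T₁ ∪ Finset.univ.image ν₁)
  obtain ⟨Q₂, hQ₂⟩ := Infinite.exists_notMem_finset (T₂ ∪ Finset.univ.image ν₂)
  have hQ₁T : ∀ P ∈ T₁, P ≠ Q₁ := fun P hP h => hQ₁ (Finset.mem_union_left _ (h ▸ hP))
  have hQ₂T : ∀ P ∈ T₂, P ≠ Q₂ := fun P hP h => hQ₂ (Finset.mem_union_left _ (h ▸ hP))
  have hQ₁ν : ∀ s, ν₁ s ≠ Q₁ := fun s h =>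
    hQ₁ (Finset.mem_union_right _ (h ▸ Finset.mem_image_of_mem ν₁ (Finset.mem_univ s)))
  have hQ₂ν : ∀ s, ν₂ s ≠ Q₂ := fun s h =>
    hQ₂ (Finset.mem_union_right _ (h ▸ Finset.mem_image_of_mem ν₂ (Finset.mem_univ s)))
  have hs0 : (0 : ℤ) ≤ (g₁ : ℤ) - 1 + Fintype.card S := by
    have : (1 : ℤ) ≤ Fintype.card S := by exact_mod_cast hs
    have := Int.natCast_nonneg g₁
    linarith
  have hs0' : (0 : ℤ) ≤ (g₂ : ℤ) - 1 + Fintype.card S := by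
    have : (1 : ℤ) ≤ Fintype.card S := by exact_mod_cast hs
    have := Int.natCast_nonneg g₂
    linarith
  have hsingle₁ : (0 : Divisor k F₁) ≤ Finsupp.single Q₁ (m : ℤ) := by
    intro P
    rw [Finsupp.coe_zero, Pi.zero_apply, Finsupp.single_apply]
    split_ifs
    · exact Int.natCast_nonneg m
    · exact le_rfl
  have hsingle₂ : (0 : Divisor k F₂) ≤ Finsupp.single Q₂ (m : ℤ) := by
    intro P
    rw [Finsupp.coe_zero, Pi.zero_apply, Finsupp.single_apply]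
    split_ifs
    · exact Int.natCast_nonneg m
    · exact le_rfl
  refine ⟨{
    D₁ := D₁
    X₁ := X₁
    dd₁ := D₁ + X₁ + Finsupp.single Q₁ (m : ℤ)
    D₂ := D₂
    X₂ := X₂
    dd₂ := D₂ + X₂ + Finsupp.single Q₂ (m : ℤ)
    hD₁0 := hD₁0
    hX₁0 := hX₁0
    hD₂0 := hD₂0
    hX₂0 := hX₂0
    hD₁deg := hD₁deg
    hX₁deg := hX₁deg
    hD₂deg := hD₂deg
    hX₂deg := hX₂deg
    hD₁T := hD₁T
    hX₁T := hX₁T
    hdd₁T := fun P hP => by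
      rw [Finsupp.add_apply, Finsupp.add_apply, hD₁T P hP, hX₁T P hP,
        Finsupp.single_apply, if_neg (hQ₁T P hP).symm]
      rfl
    hD₂T := hD₂T
    hX₂T := hX₂T
    hdd₂T := fun P hP => by
      rw [Finsupp.add_apply, Finsupp.add_apply, hD₂T P hP, hX₂T P hP,
        Finsupp.single_apply, if_neg (hQ₂T P hP).symm]
      rfl
    hD₁ν := hD₁ν
    hX₁ν := hX₁ν
    hdd₁ν := fun s => by
      rw [Finsupp.add_apply, Finsupp.add_apply, hD₁ν s, hX₁ν s,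
        Finsupp.single_apply, if_neg (hQ₁ν s).symm]
      rfl
    hD₂ν := hD₂ν
    hX₂ν := hX₂ν
    hdd₂ν := fun s => by
      rw [Finsupp.add_apply, Finsupp.add_apply, hD₂ν s, hX₂ν s,
        Finsupp.single_apply, if_neg (hQ₂ν s).symm]
      rfl
    hD₁r := hD₁r
    hX₁r := hX₁r
    hD₂r := hD₂r
    hX₂r := hX₂r
    hD₁sub := hD₁sub
    hX₁sub := hX₁sub
    hD₂sub := hD₂sub
    hX₂sub := hX₂sub
    hX₁one := hX₁one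
    hD₂one := hD₂one
    hD := hD
    hX := hX
    hle₁ := le_add_of_nonneg_right hsingle₁
    hle₂ := le_add_of_nonneg_right hsingle₂
    hm₁ := by
      rw [map_add, map_add, hD₁deg, hX₁deg, Divisor.degree_single, hdeg₁, Nat.cast_one, mul_one]
      have := Int.natCast_nonneg g₁
      linarith
    hm₂ := by
      rw [map_add, map_add, hD₂deg, hX₂deg, Divisor.degree_single, hdeg₂, Nat.cast_one, mul_one]
      have := Int.natCast_nonneg g₂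
      linarith }⟩

end Closed

section Generic

variable {S : Type*} [Fintype S] {ν₁ : S → Place k F₁} {ν₂ : S → Place k F₂} {g₁ g₂ : ℕ}
  {T₁ : Finset (Place k F₁)} {T₂ : Finset (Place k F₂)} {m : ℕ}
  (C : TtgrClosed ν₁ ν₂ g₁ g₂ T₁ T₂ m)
  (l₁ : Place k F₁ → Place K F) (l₂ : Place k F₂ → Place K F)

/-- the level divisor `𝔡` of the generic fibre -/
def TtgrClosed.dd : Divisor K F := ttgrLift l₁ l₂ C.dd₁ C.dd₂

/-- the base divisor `D₀` of the generic fibre -/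
def TtgrClosed.D0 : Divisor K F := ttgrLift l₁ l₂ C.D₁ C.D₂

/-- the auxiliary divisor `X₀` of the generic fibre -/
def TtgrClosed.X0 : Divisor K F := ttgrLift l₁ l₂ C.X₁ C.X₂

/-- the divisor `E = 2𝔡 - 2D₀ - X₀` of the generic fibre -/
def TtgrClosed.E : Divisor K F := (2 : ℕ) • C.dd l₁ l₂ - (2 : ℕ) • C.D0 l₁ l₂ - C.X0 l₁ l₂

theorem ttgr_dd₁_nonneg : 0 ≤ C.dd₁ := (add_nonneg C.hD₁0 C.hX₁0).trans C.hle₁

theorem ttgr_dd₂_nonneg : 0 ≤ C.dd₂ := (add_nonneg C.hD₂0 C.hX₂0).trans C.hle₂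

theorem ttgr_dd_nonneg : 0 ≤ C.dd l₁ l₂ :=
  ttgr_lift_nonneg l₁ l₂ (ttgr_dd₁_nonneg C) (ttgr_dd₂_nonneg C)

theorem ttgr_D0_nonneg : 0 ≤ C.D0 l₁ l₂ := ttgr_lift_nonneg l₁ l₂ C.hD₁0 C.hD₂0

theorem ttgr_X0_nonneg : 0 ≤ C.X0 l₁ l₂ := ttgr_lift_nonneg l₁ l₂ C.hX₁0 C.hX₂0

/-- `D₀ + X₀ ≤ 𝔡` -/
theorem ttgr_D0_add_X0_le : C.D0 l₁ l₂ + C.X0 l₁ l₂ ≤ C.dd l₁ l₂ := by
  rw [TtgrClosed.D0, TtgrClosed.X0, TtgrClosed.dd, ← ttgrLift_add]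
  exact ttgr_lift_mono l₁ l₂ C.hle₁ C.hle₂

/-- `E` as a lift -/
theorem ttgr_E_eq : C.E l₁ l₂ =
    ttgrLift l₁ l₂ ((2 : ℕ) • C.dd₁ - (2 : ℕ) • C.D₁ - C.X₁)
      ((2 : ℕ) • C.dd₂ - (2 : ℕ) • C.D₂ - C.X₂) := by
  rw [TtgrClosed.E, TtgrClosed.dd, TtgrClosed.D0, TtgrClosed.X0, ttgrLift_sub, ttgrLift_sub,
    ttgrLift_nsmul, ttgrLift_nsmul]

theorem ttgr_E_nonneg : 0 ≤ C.E l₁ l₂ := by
  rw [ttgr_E_eq]
  refine ttgr_lift_nonneg l₁ l₂ ?_ ?_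
  · have h := C.hle₁
    have h0 := C.hX₁0
    intro P
    have hP := h P
    have h0P := h0 P
    rw [Finsupp.add_apply] at hP
    rw [Finsupp.coe_zero, Pi.zero_apply] at h0P
    rw [Finsupp.coe_zero, Pi.zero_apply, Finsupp.sub_apply, Finsupp.sub_apply,
      Finsupp.smul_apply, Finsupp.smul_apply, nsmul_eq_mul, nsmul_eq_mul]
    push_cast
    linarith
  · have h := C.hle₂
    have h0 := C.hX₂0
    intro P
    have hP := h P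
    have h0P := h0 P
    rw [Finsupp.add_apply] at hP
    rw [Finsupp.coe_zero, Pi.zero_apply] at h0P
    rw [Finsupp.coe_zero, Pi.zero_apply, Finsupp.sub_apply, Finsupp.sub_apply,
      Finsupp.smul_apply, Finsupp.smul_apply, nsmul_eq_mul, nsmul_eq_mul]
    push_cast
    linarith

/-- `2𝔡 - E = 2D₀ + X₀` -/
theorem ttgr_two_dd_sub_E : (2 : ℕ) • C.dd l₁ l₂ - C.E l₁ l₂ =
    (2 : ℕ) • C.D0 l₁ l₂ + C.X0 l₁ l₂ := by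
  rw [TtgrClosed.E]
  abel

/-- `2𝔡 - (E + D₀) = D₀ + X₀` -/
theorem ttgr_two_dd_sub_E_D0 : (2 : ℕ) • C.dd l₁ l₂ - (C.E l₁ l₂ + C.D0 l₁ l₂) =
    C.D0 l₁ l₂ + C.X0 l₁ l₂ := by
  rw [TtgrClosed.E, two_nsmul, two_nsmul]
  abel

/-- `3𝔡 - (E + D₀) = 𝔡 + D₀ + X₀` -/
theorem ttgr_three_dd_sub_E_D0 : (3 : ℕ) • C.dd l₁ l₂ - (C.E l₁ l₂ + C.D0 l₁ l₂) =
    C.dd l₁ l₂ + C.D0 l₁ l₂ + C.X0 l₁ l₂ := by
  rw [TtgrClosed.E, two_nsmul, two_nsmul, succ_nsmul, two_nsmul]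
  abel

/-- the lifts of the closed divisors of the script -/
theorem ttgr_nsmul_dd (i : ℕ) : i • C.dd l₁ l₂ = ttgrLift l₁ l₂ (i • C.dd₁) (i • C.dd₂) :=
  (ttgrLift_nsmul l₁ l₂ i C.dd₁ C.dd₂).symm

theorem ttgr_dd_sub_D0 : C.dd l₁ l₂ - C.D0 l₁ l₂ =
    ttgrLift l₁ l₂ (C.dd₁ - C.D₁) (C.dd₂ - C.D₂) :=
  (ttgrLift_sub l₁ l₂ C.dd₁ C.D₁ C.dd₂ C.D₂).symm

theorem ttgr_two_D0_add_X0 : (2 : ℕ) • C.D0 l₁ l₂ + C.X0 l₁ l₂ =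
    ttgrLift l₁ l₂ ((2 : ℕ) • C.D₁ + C.X₁) ((2 : ℕ) • C.D₂ + C.X₂) := by
  rw [ttgrLift_add, ttgrLift_nsmul]
  rfl

theorem ttgr_D0_add_X0 : C.D0 l₁ l₂ + C.X0 l₁ l₂ =
    ttgrLift l₁ l₂ (C.D₁ + C.X₁) (C.D₂ + C.X₂) :=
  (ttgrLift_add l₁ l₂ C.D₁ C.X₁ C.D₂ C.X₂).symm

theorem ttgr_dd_add_D0_add_X0 : C.dd l₁ l₂ + C.D0 l₁ l₂ + C.X0 l₁ l₂ =
    ttgrLift l₁ l₂ (C.dd₁ + C.D₁ + C.X₁) (C.dd₂ + C.D₂ + C.X₂) := by
  rw [ttgrLift_add, ttgrLift_add]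
  rfl

section Degree

variable (hdeg : ∀ P : Place K F, P.deg = 1) (hdeg₁ : ∀ Q : Place k F₁, Q.deg = 1)
  (hdeg₂ : ∀ Q : Place k F₂, Q.deg = 1) {g : ℕ} (hg : g + 1 = g₁ + g₂ + Fintype.card S)

include hdeg hdeg₁ hdeg₂

theorem ttgr_dd_degree : Divisor.degree (C.dd l₁ l₂) =
    Divisor.degree C.dd₁ + Divisor.degree C.dd₂ :=
  ttgr_lift_degree l₁ l₂ hdeg hdeg₁ hdeg₂ _ _

theorem ttgr_dd_degree_ge : 2 * (m : ℤ) ≤ Divisor.degree (C.dd l₁ l₂) := by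
  rw [ttgr_dd_degree C l₁ l₂ hdeg hdeg₁ hdeg₂]
  have := C.hm₁
  have := C.hm₂
  linarith

include hg

theorem ttgr_D0_degree : Divisor.degree (C.D0 l₁ l₂) = g := by
  rw [TtgrClosed.D0, ttgr_lift_degree l₁ l₂ hdeg hdeg₁ hdeg₂, C.hD₁deg, C.hD₂deg]
  have : ((g + 1 : ℕ) : ℤ) = ((g₁ + g₂ + Fintype.card S : ℕ) : ℤ) := by rw [hg]
  push_cast at this
  linarith

theorem ttgr_X0_degree : Divisor.degree (C.X0 l₁ l₂) = g := by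
  rw [TtgrClosed.X0, ttgr_lift_degree l₁ l₂ hdeg hdeg₁ hdeg₂, C.hX₁deg, C.hX₂deg]
  have : ((g + 1 : ℕ) : ℤ) = ((g₁ + g₂ + Fintype.card S : ℕ) : ℤ) := by rw [hg]
  push_cast at this
  linarith

theorem ttgr_E_degree : Divisor.degree (C.E l₁ l₂) =
    2 * Divisor.degree (C.dd l₁ l₂) - 3 * g := by
  rw [TtgrClosed.E, map_sub, map_sub, map_nsmul, map_nsmul,
    ttgr_D0_degree C l₁ l₂ hdeg hdeg₁ hdeg₂ hg, ttgr_X0_degree C l₁ l₂ hdeg hdeg₁ hdeg₂ hg]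
  simp only [nsmul_eq_mul, Nat.cast_ofNat]
  ring

end Degree

section Fixed

variable (σ : SemilinearAut K F)
  (hfix₁ : ∀ Q : Place k F₁, Q ∉ T₁ → (∀ s, Q ≠ ν₁ s) → σ • l₁ Q = l₁ Q)
  (hfix₂ : ∀ Q : Place k F₂, Q ∉ T₂ → (∀ s, Q ≠ ν₂ s) → σ • l₂ Q = l₂ Q)

include hfix₁ hfix₂

/-- a lift of a pair divisor supported off `T_j` and off the nodes is fixed -/
theorem ttgr_lift_fixed_of_off {A₁ : Divisor k F₁} {A₂ : Divisor k F₂}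
    (hA₁T : ∀ P ∈ T₁, A₁ P = 0) (hA₁ν : ∀ s, A₁ (ν₁ s) = 0)
    (hA₂T : ∀ P ∈ T₂, A₂ P = 0) (hA₂ν : ∀ s, A₂ (ν₂ s) = 0) :
    σ • ttgrLift l₁ l₂ A₁ A₂ = ttgrLift l₁ l₂ A₁ A₂ := by
  refine ttgr_lift_fixed l₁ l₂ σ (fun Q hQ => hfix₁ Q (fun hT => hQ (hA₁T Q hT)) ?_)
    (fun Q hQ => hfix₂ Q (fun hT => hQ (hA₂T Q hT)) ?_)
  · rintro s rfl
    exact hQ (hA₁ν s)
  · rintro s rfl
    exact hQ (hA₂ν s)

theorem ttgr_dd_fixed : σ • C.dd l₁ l₂ = C.dd l₁ l₂ :=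
  ttgr_lift_fixed_of_off l₁ l₂ σ hfix₁ hfix₂ C.hdd₁T C.hdd₁ν C.hdd₂T C.hdd₂ν

theorem ttgr_D0_fixed : σ • C.D0 l₁ l₂ = C.D0 l₁ l₂ :=
  ttgr_lift_fixed_of_off l₁ l₂ σ hfix₁ hfix₂ C.hD₁T C.hD₁ν C.hD₂T C.hD₂ν

theorem ttgr_X0_fixed : σ • C.X0 l₁ l₂ = C.X0 l₁ l₂ :=
  ttgr_lift_fixed_of_off l₁ l₂ σ hfix₁ hfix₂ C.hX₁T C.hX₁ν C.hX₂T C.hX₂ν

theorem ttgr_E_fixed : σ • C.E l₁ l₂ = C.E l₁ l₂ := by
  rw [TtgrClosed.E, smul_sub, smul_sub, smul_comm σ, smul_comm σ,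
    ttgr_dd_fixed C l₁ l₂ σ hfix₁ hfix₂, ttgr_D0_fixed C l₁ l₂ σ hfix₁ hfix₂,
    ttgr_X0_fixed C l₁ l₂ σ hfix₁ hfix₂]

end Fixed

section Points

/-- the support of `D₀` consists of lifts of good points of the supports of `D₁`, `D₂` -/
theorem ttgr_D0_support {P : Place K F} (hP : C.D0 l₁ l₂ P ≠ 0) :
    (∃ Q, Q ∉ T₁ ∧ (∀ s, Q ≠ ν₁ s) ∧ C.D₁ Q = 1 ∧ l₁ Q = P) ∨
      (∃ Q, Q ∉ T₂ ∧ (∀ s, Q ≠ ν₂ s) ∧ C.D₂ Q = 1 ∧ l₂ Q = P) := by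
  rcases ttgr_lift_support l₁ l₂ hP with ⟨Q, hQ, hQP⟩ | ⟨Q, hQ, hQP⟩
  · left
    refine ⟨Q, fun hT => hQ (C.hD₁T Q hT), ?_, ?_, hQP⟩
    · rintro s rfl
      exact hQ (C.hD₁ν s)
    · have h0 := C.hD₁0 Q
      have h1 := C.hD₁r Q
      simp only [Finsupp.coe_zero, Pi.zero_apply] at h0
      omega
  · right
    refine ⟨Q, fun hT => hQ (C.hD₂T Q hT), ?_, ?_, hQP⟩
    · rintro s rfl
      exact hQ (C.hD₂ν s)
    · have h0 := C.hD₂0 Q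
      have h1 := C.hD₂r Q
      simp only [Finsupp.coe_zero, Pi.zero_apply] at h0
      omega

/-- `D₀` is reduced when the lift maps are injective on the good points with disjoint ranges -/
theorem ttgr_D0_reduced
    (hinj₁ : Set.InjOn l₁ {Q | Q ∉ T₁ ∧ ∀ s, Q ≠ ν₁ s})
    (hinj₂ : Set.InjOn l₂ {Q | Q ∉ T₂ ∧ ∀ s, Q ≠ ν₂ s})
    (hdisj : ∀ Q₁ Q₂, Q₁ ∉ T₁ → (∀ s, Q₁ ≠ ν₁ s) → Q₂ ∉ T₂ → (∀ s, Q₂ ≠ ν₂ s) →
      l₁ Q₁ ≠ l₂ Q₂) (P : Place K F) : C.D0 l₁ l₂ P ≤ 1 := by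
  by_cases hP : C.D0 l₁ l₂ P = 0
  · rw [hP]
    exact zero_le_one
  have hoff₁ : ∀ Q, C.D₁ Q ≠ 0 → Q ∈ {Q | Q ∉ T₁ ∧ ∀ s, Q ≠ ν₁ s} := by
    intro Q hQ
    refine ⟨fun hT => hQ (C.hD₁T Q hT), ?_⟩
    rintro s rfl
    exact hQ (C.hD₁ν s)
  have hoff₂ : ∀ Q, C.D₂ Q ≠ 0 → Q ∈ {Q | Q ∉ T₂ ∧ ∀ s, Q ≠ ν₂ s} := by
    intro Q hQ
    refine ⟨fun hT => hQ (C.hD₂T Q hT), ?_⟩
    rintro s rfl
    exact hQ (C.hD₂ν s)
  rcases ttgr_D0_support C l₁ l₂ hP with ⟨Q, hQT, hQν, -, rfl⟩ | ⟨Q, hQT, hQν, -, rfl⟩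
  · rw [TtgrClosed.D0, ttgr_lift_apply₁ l₁ l₂ _ hinj₁ hoff₁ ⟨hQT, hQν⟩
      (fun Q' hQ' h => hdisj Q Q' hQT hQν (hoff₂ Q' hQ').1 (hoff₂ Q' hQ').2 h.symm)]
    exact C.hD₁r Q
  · rw [TtgrClosed.D0, ttgr_lift_apply₂ l₁ l₂ _ hinj₂ hoff₂ ⟨hQT, hQν⟩
      (fun Q' hQ' h => hdisj Q' Q (hoff₁ Q' hQ').1 (hoff₁ Q' hQ').2 hQT hQν h)]
    exact C.hD₂r Q

end Points

end Generic

end Fermat.Agent.TT
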