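import Mathlib
import Fermat.Agent.TT.Geom.Origin
import Fermat.Agent.TT.B2.Nodal

/-!
# Program TT (S33), assembly of (A): the two fibres of the engine AT THE ORIGIN DATA

Owner: helper26.  Namespace `Fermat.Agent.TT`, prefix `ttgr`.

For the origin data `C : TtgrClosed ν₁ ν₂ g₁ g₂ T₁ T₂ m` of `TT/Geom/Origin.lean` and lift maps
`l₁`, `l₂`, with `𝔡 := C.dd l₁ l₂`, `𝔡̃ := (C.dd₁, C.dd₂)`:

* `ttgr_dim` : (DIM) `l̃(i𝔡̃) = l(i𝔡)` for `i ≥ 1` from Riemann-Roch on the three curves, the genus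
  identity `g + 1 = g₁ + g₂ + #S` and `5(g₁ + g₂ + #S) ≤ m`;
* `ttgr_five_g_le` : `5g ≤ deg 𝔡`; `ttgr_five_gj_le₁/₂` : `5g_j + 2#S - 1 ≤ deg dd_j`;
* `ttgr_model` : helper13's `tte_model` (generic fibre `FffmFib` with `dd = 𝔡`, nodal closed fibre
  `TtnkFib` with `dd_j = C.dd_j`, the same table `cW`, `G`-fixed reduced bases at the levels `1..5`)
  from `TtbRed`, Riemann-Roch, (R-in) and (LIFT) at the five levels only.
-/

set_option autoImplicit false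
set_option linter.unusedSectionVars false
set_option linter.unusedVariables false
set_option linter.style.haveILetI false

noncomputable section

namespace Fermat.Agent.TT

open AlgebraicCurve IsLocalRing Module Fermat.Agent.G Fermat.Agent.FF Fermat.Agent.V.RR

section Dim

variable {K F : Type*} [Field K] [Field F] [Algebra K F]
variable {k F₁ F₂ : Type*} [Field k] [Field F₁] [Field F₂] [Algebra k F₁] [Algebra k F₂]
variable {S : Type*} [Fintype S] {ν₁ : S → Place k F₁} {ν₂ : S → Place k F₂} {g₁ g₂ : ℕ}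
  {T₁ : Finset (Place k F₁)} {T₂ : Finset (Place k F₂)} {m : ℕ}
  (C : TtgrClosed ν₁ ν₂ g₁ g₂ T₁ T₂ m)
  (l₁ : Place k F₁ → Place K F) (l₂ : Place k F₂ → Place K F)

/-- `5g_1 + 2#S - 1 ≤ deg dd₁` -/
theorem ttgr_five_gj_le₁ (hm : 5 * (g₁ + g₂ + Fintype.card S) ≤ m) :
    5 * (g₁ : ℤ) + 2 * Fintype.card S - 1 ≤ Divisor.degree C.dd₁ := by
  have h1 := C.hm₁
  have h2 : ((5 * (g₁ + g₂ + Fintype.card S) : ℕ) : ℤ) ≤ (m : ℤ) := by exact_mod_cast hm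
  push_cast at h2
  have := Int.natCast_nonneg g₂
  have := Int.natCast_nonneg (Fintype.card S)
  linarith

/-- `5g_2 + 2#S - 1 ≤ deg dd₂` -/
theorem ttgr_five_gj_le₂ (hm : 5 * (g₁ + g₂ + Fintype.card S) ≤ m) :
    5 * (g₂ : ℤ) + 2 * Fintype.card S - 1 ≤ Divisor.degree C.dd₂ := by
  have h1 := C.hm₂
  have h2 : ((5 * (g₁ + g₂ + Fintype.card S) : ℕ) : ℤ) ≤ (m : ℤ) := by exact_mod_cast hm
  push_cast at h2
  have := Int.natCast_nonneg g₁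
  have := Int.natCast_nonneg (Fintype.card S)
  linarith

variable (hdeg : ∀ P : Place K F, P.deg = 1) (hdeg₁ : ∀ Q : Place k F₁, Q.deg = 1)
  (hdeg₂ : ∀ Q : Place k F₂, Q.deg = 1) {g : ℕ} (hg : g + 1 = g₁ + g₂ + Fintype.card S)

include hdeg hdeg₁ hdeg₂ hg

/-- `5g ≤ deg 𝔡` -/
theorem ttgr_five_g_le (hm : 5 * (g₁ + g₂ + Fintype.card S) ≤ m) :
    5 * (g : ℤ) ≤ Divisor.degree (C.dd l₁ l₂) := by
  have h1 := ttgr_dd_degree_ge C l₁ l₂ hdeg hdeg₁ hdeg₂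
  have h2 : ((5 * (g₁ + g₂ + Fintype.card S) : ℕ) : ℤ) ≤ (m : ℤ) := by exact_mod_cast hm
  have h3 : ((g + 1 : ℕ) : ℤ) = ((g₁ + g₂ + Fintype.card S : ℕ) : ℤ) := by rw [hg]
  push_cast at h2 h3
  have := Int.natCast_nonneg m
  linarith

/-- **(DIM)** at the origin data : `l̃(i𝔡̃) = l(i𝔡)` for `i ≥ 1`. -/
theorem ttgr_dim [Infinite k] (RR : V27RR K F g) (R₁ : V27RR k F₁ g₁) (R₂ : V27RR k F₂ g₂)
    (hν₁ : Function.Injective ν₁) (hm : 5 * (g₁ + g₂ + Fintype.card S) ≤ m) {i : ℕ}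
    (hi : 1 ≤ i) :
    finrank k (ttnkL ν₁ ν₂ (i • C.dd₁) (i • C.dd₂)) =
      finrank K (riemannRochSpace (i • C.dd l₁ l₂)) := by
  have h2 : ((5 * (g₁ + g₂ + Fintype.card S) : ℕ) : ℤ) ≤ (m : ℤ) := by exact_mod_cast hm
  have h3 : ((g + 1 : ℕ) : ℤ) = ((g₁ + g₂ + Fintype.card S : ℕ) : ℤ) := by rw [hg]
  push_cast at h2 h3
  have hg₁ := Int.natCast_nonneg g₁
  have hg₂ := Int.natCast_nonneg g₂
  have hs := Int.natCast_nonneg (Fintype.card S)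
  have hi' : (1 : ℤ) ≤ (i : ℤ) := by exact_mod_cast hi
  have hm₁ := C.hm₁
  have hm₂ := C.hm₂
  have hm0 : (0 : ℤ) ≤ m := Int.natCast_nonneg m
  have hd₁ : Divisor.degree (i • C.dd₁) = i * Divisor.degree C.dd₁ := by
    rw [map_nsmul, nsmul_eq_mul]
  have hd₂ : Divisor.degree (i • C.dd₂) = i * Divisor.degree C.dd₂ := by
    rw [map_nsmul, nsmul_eq_mul]
  have hd : Divisor.degree (i • C.dd l₁ l₂) =
      i * (Divisor.degree C.dd₁ + Divisor.degree C.dd₂) := by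
    rw [map_nsmul, nsmul_eq_mul, ttgr_dd_degree C l₁ l₂ hdeg hdeg₁ hdeg₂]
  have hge₁ : Divisor.degree C.dd₁ ≤ i * Divisor.degree C.dd₁ := by nlinarith
  have hge₂ : Divisor.degree C.dd₂ ≤ i * Divisor.degree C.dd₂ := by nlinarith
  have e1 := ttnk_finrank_deg ν₁ ν₂ hdeg₁ hdeg₂ (i • C.dd₁) (i • C.dd₂)
    (fun s => by rw [Finsupp.smul_apply, C.hdd₁ν s, smul_zero])
    (fun s => by rw [Finsupp.smul_apply, C.hdd₂ν s, smul_zero]) R₁ R₂ hν₁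
    (by rw [hd₁]; linarith) (by rw [hd₂]; linarith)
  have e2 := (RR.finrank_of_lt (D := i • C.dd l₁ l₂) (by rw [hd]; nlinarith)).1
  have e3 : (finrank k (ttnkL ν₁ ν₂ (i • C.dd₁) (i • C.dd₂)) : ℤ) =
      (finrank K (riemannRochSpace (i • C.dd l₁ l₂)) : ℤ) := by
    rw [e1, e2, hd₁, hd₂, hd]
    linarith
  exact_mod_cast e3

end Dim

section Model

variable {K : Type*} [Field K] {A : ValuationSubring K}
variable {F : Type*} [Field F] [Algebra K F]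
variable {F₁ F₂ : Type*} [Field F₁] [Field F₂] [Algebra (ResidueField A) F₁]
  [Algebra (ResidueField A) F₂]
variable {O : Subring F} {red : O →+* F₁ × F₂} {G : Type*} [Group G]

/-- **the two fibres of the engine at the origin data** : helper13's `tte_model` with
`dd := C.dd l₁ l₂`, `dd_j := C.dd_j`, from (R-in) and (LIFT) at the levels `1..5`. -/
theorem ttgr_model (h : TtbRed A O red) (ρ : G →* SemilinearAut K F) {g g₁ g₂ : ℕ}
    (RR : V27RR K F g) (hdeg : ∀ P : Place K F, P.deg = 1)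
    [Infinite K] (RR₁ : V27RR (ResidueField A) F₁ g₁) (RR₂ : V27RR (ResidueField A) F₂ g₂)
    [Infinite (ResidueField A)]
    (hdeg₁ : ∀ v : Place (ResidueField A) F₁, v.deg = 1)
    (hdeg₂ : ∀ v : Place (ResidueField A) F₂, v.deg = 1)
    {S : Type*} [Fintype S] {ν₁ : S → Place (ResidueField A) F₁}
    {ν₂ : S → Place (ResidueField A) F₂} (hν₁ : Function.Injective ν₁)
    (hν₂ : Function.Injective ν₂) (hg : g + 1 = g₁ + g₂ + Fintype.card S)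
    {T₁ : Finset (Place (ResidueField A) F₁)} {T₂ : Finset (Place (ResidueField A) F₂)} {m : ℕ}
    (hm : 5 * (g₁ + g₂ + Fintype.card S) ≤ m)
    (C : TtgrClosed ν₁ ν₂ g₁ g₂ T₁ T₂ m)
    (l₁ : Place (ResidueField A) F₁ → Place K F) (l₂ : Place (ResidueField A) F₂ → Place K F)
    (hfix₁ : ∀ Q : Place (ResidueField A) F₁, Q ∉ T₁ → (∀ s, Q ≠ ν₁ s) →
      ∀ σ : G, ρ σ • l₁ Q = l₁ Q)
    (hfix₂ : ∀ Q : Place (ResidueField A) F₂, Q ∉ T₂ → (∀ s, Q ≠ ν₂ s) →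
      ∀ σ : G, ρ σ • l₂ Q = l₂ Q)
    (hin : ∀ i, 1 ≤ i → i ≤ 5 → ∀ x : O,
      ((x : O) : F) ∈ riemannRochSpace (i • C.dd l₁ l₂) →
      red x ∈ ttnkL ν₁ ν₂ (i • C.dd₁) (i • C.dd₂))
    (U₁ : Finset (Place (ResidueField A) F₁)) (U₂ : Finset (Place (ResidueField A) F₂))
    (hlift₁ : ∀ i, 1 ≤ i → i ≤ 5 →
      TtbLift₁ red ρ (riemannRochSpace (i • C.dd l₁ l₂)) ν₁ (i • C.dd₁) U₁)
    (hlift₂ : ∀ i, 1 ≤ i → i ≤ 5 →
      TtbLift₂ red ρ (riemannRochSpace (i • C.dd l₁ l₂)) ν₂ (i • C.dd₂) U₂)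
    {W : Type*} [CommRing W] [Algebra W ↥A]
    (hW : ∀ a : K, a ∈ ttbFix A ρ → ∃ w : W, ((algebraMap W ↥A w : ↥A) : K) = a) :
    ∃ (n : ℕ → ℕ) (b : ∀ i, Fin (n i) → O)
      (cW : ∀ i j k : ℕ, Fin (n i) → Fin (n j) → Fin (n k) → W)
      (fibK : FffmFib (fun i => Fin (n i)) K F g
        (fun i j k p q s => ((algebraMap W ↥A (cW i j k p q s) : ↥A) : K)))
      (fibk : TtnkFib (fun i => Fin (n i)) (ResidueField A) F₁ F₂ g₁ g₂ S
        (fun i j k p q s => residue ↥A (algebraMap W ↥A (cW i j k p q s)))),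
      fibK.dd = C.dd l₁ l₂ ∧ fibk.dd₁ = C.dd₁ ∧ fibk.dd₂ = C.dd₂ ∧ fibk.ν₁ = ν₁ ∧
      fibk.ν₂ = ν₂ ∧
      (∀ i, fibK.b i = fun p => ((b i p : O) : F)) ∧
      (∀ i, fibk.coord.b i = fun p => red (b i p)) ∧
      ∀ i, 1 ≤ i → i ≤ 5 →
        TteBasis red ρ (riemannRochSpace (i • C.dd l₁ l₂))
          (ttnkL ν₁ ν₂ (i • C.dd₁) (i • C.dd₂)) (b i) := by
  refine ttb_model_nodal h ρ RR hdeg RR₁ RR₂ hdeg₁ hdeg₂ ν₁ ν₂ hν₁ hν₂ (C.dd l₁ l₂)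
    (ttgr_five_g_le C l₁ l₂ hdeg hdeg₁ hdeg₂ hg hm)
    (fun σ => ttgr_dd_fixed C l₁ l₂ (ρ σ) (fun Q hQ hν => hfix₁ Q hQ hν σ)
      (fun Q hQ hν => hfix₂ Q hQ hν σ))
    C.dd₁ C.dd₂ C.hdd₁ν C.hdd₂ν hin ?_ U₁ U₂ hlift₁ hlift₂ hW
  intro i h1 h5
  exact (ttgr_dim C l₁ l₂ hdeg hdeg₁ hdeg₂ hg RR RR₁ RR₂ hν₁ hm h1).le

end Model

end Fermat.Agent.TT
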