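import Fermat.Agent.TT.Geom.ChainInst
import Fermat.Agent.TT.Geom.OriginModel

/-!
# Program TT (S33), assembly of (A): model + chain on the two-valuation layer

Owner: helper13.  Namespace `Fermat.Agent.TT`, prefix `ttgn`.

`ttgn_conn_red` = helper26's `ttgr_model` (the two fibres of the engine at the origin data)
composed with `ttgn_chain_red` (the chain at the origin data): on the abstract two-valuation layer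
`TtbRed 𝔸 O red` with origin data `C : TtgrClosed …`, lift maps `l₁`, `l₂` (fixed by `ρ`),
Riemann-Roch on the three curves, the genus identity, the threshold `5(g₁ + g₂ + #S) ≤ m`, the
uniform (R-in) for lifts `hinL`, (LIFT) at the five levels, `W = 𝔸^I` (`hW`), the bridge, (R-in) at
level one for good divisors and (H2):  `TtConnOut 𝔸 ↥X act`.

This is the whole (CONN) arrow below the conversions from `TtgModel`; it also certifies that the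
conclusion of `ttgr_model` plugs into `ttgn_chain_red` (tables, index family, equalities).
-/

set_option autoImplicit false
set_option linter.unusedSectionVars false
set_option linter.unusedVariables false

noncomputable section

namespace Fermat.Agent.TT

open Fermat.Agent.FF AlgebraicCurve IsLocalRing Module Fermat.Agent.V.RR Fermat.Agent.G

section ChainModel

variable (𝔸 : ValuationSubring FfQb) {F : Type} [Field F] [Algebra FfQb F]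
  {F₁ F₂ : Type} [Field F₁] [Field F₂] [Algebra (ResidueField ↥𝔸) F₁]
  [Algebra (ResidueField ↥𝔸) F₂] {g g₁ g₂ : ℕ} {S : Type} [Fintype S]
  {O : Subring F} {red : O →+* F₁ × F₂} {G : Type*} [Group G]

/-- **model + chain**: the connected order on `X` from the two-valuation layer at the origin
data. -/
theorem ttgn_conn_red (h : TtbRed 𝔸 O red) (ρ : G →* SemilinearAut FfQb F)
    (RR : V27RR FfQb F g) (hdeg : ∀ P : Place FfQb F, P.deg = 1)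
    (RR₁ : V27RR (ResidueField ↥𝔸) F₁ g₁) (RR₂ : V27RR (ResidueField ↥𝔸) F₂ g₂)
    [Infinite (ResidueField ↥𝔸)]
    (hdeg₁ : ∀ v : Place (ResidueField ↥𝔸) F₁, v.deg = 1)
    (hdeg₂ : ∀ v : Place (ResidueField ↥𝔸) F₂, v.deg = 1)
    {ν₁ : S → Place (ResidueField ↥𝔸) F₁} {ν₂ : S → Place (ResidueField ↥𝔸) F₂}
    (hν₁ : Function.Injective ν₁) (hν₂ : Function.Injective ν₂)
    (hg : g + 1 = g₁ + g₂ + Fintype.card S) (hs : 1 ≤ Fintype.card S)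
    {T₁ : Finset (Place (ResidueField ↥𝔸) F₁)} {T₂ : Finset (Place (ResidueField ↥𝔸) F₂)}
    {m : ℕ} (hm : 5 * (g₁ + g₂ + Fintype.card S) ≤ m)
    (C : TtgrClosed ν₁ ν₂ g₁ g₂ T₁ T₂ m)
    (l₁ : Place (ResidueField ↥𝔸) F₁ → Place FfQb F)
    (l₂ : Place (ResidueField ↥𝔸) F₂ → Place FfQb F)
    (hfix₁ : ∀ Q : Place (ResidueField ↥𝔸) F₁, Q ∉ T₁ → (∀ s, Q ≠ ν₁ s) →
      ∀ σ : G, ρ σ • l₁ Q = l₁ Q)
    (hfix₂ : ∀ Q : Place (ResidueField ↥𝔸) F₂, Q ∉ T₂ → (∀ s, Q ≠ ν₂ s) →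
      ∀ σ : G, ρ σ • l₂ Q = l₂ Q)
    -- the uniform (R-in) for lifts
    (hinL : ∀ (A₁ : Divisor (ResidueField ↥𝔸) F₁) (A₂ : Divisor (ResidueField ↥𝔸) F₂),
      0 ≤ A₁ → 0 ≤ A₂ → (∀ P ∈ T₁, A₁ P = 0) → (∀ s, A₁ (ν₁ s) = 0) →
      (∀ P ∈ T₂, A₂ P = 0) → (∀ s, A₂ (ν₂ s) = 0) → ∀ x : O,
      (x : F) ∈ riemannRochSpace (ttgrLift l₁ l₂ A₁ A₂) → red x ∈ ttnkL ν₁ ν₂ A₁ A₂)
    -- (LIFT) at the five levels
    (U₁ : Finset (Place (ResidueField ↥𝔸) F₁)) (U₂ : Finset (Place (ResidueField ↥𝔸) F₂))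
    (hlift₁ : ∀ i, 1 ≤ i → i ≤ 5 →
      TtbLift₁ red ρ (riemannRochSpace (i • C.dd l₁ l₂)) ν₁ (i • C.dd₁) U₁)
    (hlift₂ : ∀ i, 1 ≤ i → i ≤ 5 →
      TtbLift₂ red ρ (riemannRochSpace (i • C.dd l₁ l₂)) ν₂ (i • C.dd₂) U₂)
    -- the fixed constants come from `W`
    (hW : ∀ a : FfQb, a ∈ ttbFix 𝔸 ρ →
      ∃ w : FfcoW 𝔸, ((algebraMap (FfcoW 𝔸) ↥𝔸 w : ↥𝔸) : FfQb) = a)
    -- the subgroup, the bridge, (R-in) at level one, (H2)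
    (X : AddSubgroup (Pic0 FfQb F)) [Finite X]
    (Good : Divisor FfQb F → Prop)
    (hbr : ∀ γ ∈ X, ∃ (Dγ : Divisor FfQb F)
      (hdeg : Dγ - C.D0 l₁ l₂ ∈ Divisor.degZero (K := FfQb) (F := F)),
      0 ≤ Dγ ∧ Pic0.mk ⟨Dγ - C.D0 l₁ l₂, hdeg⟩ = γ ∧ Good Dγ)
    (hin1 : ∀ D : Divisor FfQb F, 0 ≤ D → Divisor.degree D = g → Good D → ∀ x : O,
      (x : F) ∈ riemannRochSpace (C.dd l₁ l₂ - D) →
      red x ∈ ttnkL ν₁ ν₂ (C.dd₁ - C.D₁) (C.dd₂ - C.D₂))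
    (hsemi : ∀ D : Divisor FfQb F, 0 ≤ D → Divisor.degree D = g → Good D →
      finrank FfQb (riemannRochSpace D) ≤ 1)
    -- the action
    (act : ↥(ffI 𝔸) → ↥X → ↥X)
    (hact : ∀ σ : ↥(ffI 𝔸), ∃ τ ∈ ρ.range,
      (∀ a : FfQb, SemilinearAut.baseAut τ a = (σ : FfGal) a) ∧
      ∀ γ : X, ((act σ γ : X) : Pic0 FfQb F) = τ • (γ : Pic0 FfQb F)) :
    TtConnOut 𝔸 ↥X act := by
  classical
  have hdd₁0 : 0 ≤ C.dd₁ := ttgr_dd₁_nonneg C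
  have hdd₂0 : 0 ≤ C.dd₂ := ttgr_dd₂_nonneg C
  obtain ⟨n, b, cW, fibK, fibk, hKdd, hk₁, hk₂, hkν₁, hkν₂, hbK, hbk, hbas⟩ :=
    ttgr_model (A := 𝔸) h ρ RR hdeg RR₁ RR₂ hdeg₁ hdeg₂ hν₁ hν₂ hg hm C l₁ l₂ hfix₁ hfix₂
      (fun i _ _ x hx => by
        rw [ttgr_nsmul_dd] at hx
        exact hinL (i • C.dd₁) (i • C.dd₂) (nsmul_nonneg hdd₁0 i) (nsmul_nonneg hdd₂0 i)
          (fun P hP => ttgc_nsmul_apply_zero i (C.hdd₁T P hP))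
          (fun s => ttgc_nsmul_apply_zero i (C.hdd₁ν s))
          (fun P hP => ttgc_nsmul_apply_zero i (C.hdd₂T P hP))
          (fun s => ttgc_nsmul_apply_zero i (C.hdd₂ν s)) x hx)
      U₁ U₂ hlift₁ hlift₂ (W := FfcoW 𝔸) hW
  refine ttgn_chain_red 𝔸 cW fibK fibk X h b hbK hbk C l₁ l₂ hm hs hg
    (fun Q hQ hν σ hσ => ?_) (fun Q hQ hν σ hσ => ?_) hKdd hk₁ hk₂ hkν₁ hkν₂
    (fun i h1 h3 σ hσ p => ?_) Good hbr hin1 hsemi hinL act hact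
  · obtain ⟨τ, rfl⟩ := hσ
    exact hfix₁ Q hQ hν τ
  · obtain ⟨τ, rfl⟩ := hσ
    exact hfix₂ Q hQ hν τ
  · obtain ⟨τ, rfl⟩ := hσ
    rw [hbK i]
    exact (hbas i h1 (le_trans h3 (by norm_num))).2.1 p τ

/-- the `ρ`-fixed constants of `𝔸` come from `W = 𝔸^I` when `ρ` acts on the constants through the
inertia group. -/
theorem ttgn_hW (ρ : ↥(ffI 𝔸) →* SemilinearAut FfQb F)
    (hρ : ∀ (σ : ↥(ffI 𝔸)) (a : FfQb), SemilinearAut.baseAut (ρ σ) a = (σ : FfGal) a)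
    (a : FfQb) (ha : a ∈ ttbFix 𝔸 ρ) :
    ∃ w : FfcoW 𝔸, ((algebraMap (FfcoW 𝔸) ↥𝔸 w : ↥𝔸) : FfQb) = a := by
  obtain ⟨hmem, hfix⟩ := ha
  exact ⟨⟨a, hmem, fun σ hσ => by rw [← hρ ⟨σ, hσ⟩ a]; exact hfix ⟨σ, hσ⟩⟩, rfl⟩

/-- **model + chain for the inertia action** (the shape of `TtgConnSpec`): `ρ : I →* Aut(F/ℚ̄)`
semilinear over the inertia group, `act σ γ = ρ σ • γ`. -/
theorem ttgn_conn_I (h : TtbRed 𝔸 O red) (ρ : ↥(ffI 𝔸) →* SemilinearAut FfQb F)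
    (hρ : ∀ (σ : ↥(ffI 𝔸)) (a : FfQb), SemilinearAut.baseAut (ρ σ) a = (σ : FfGal) a)
    (RR : V27RR FfQb F g) (hdeg : ∀ P : Place FfQb F, P.deg = 1)
    (RR₁ : V27RR (ResidueField ↥𝔸) F₁ g₁) (RR₂ : V27RR (ResidueField ↥𝔸) F₂ g₂)
    [Infinite (ResidueField ↥𝔸)]
    (hdeg₁ : ∀ v : Place (ResidueField ↥𝔸) F₁, v.deg = 1)
    (hdeg₂ : ∀ v : Place (ResidueField ↥𝔸) F₂, v.deg = 1)
    {ν₁ : S → Place (ResidueField ↥𝔸) F₁} {ν₂ : S → Place (ResidueField ↥𝔸) F₂}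
    (hν₁ : Function.Injective ν₁) (hν₂ : Function.Injective ν₂)
    (hg : g + 1 = g₁ + g₂ + Fintype.card S) (hs : 1 ≤ Fintype.card S)
    {T₁ : Finset (Place (ResidueField ↥𝔸) F₁)} {T₂ : Finset (Place (ResidueField ↥𝔸) F₂)}
    {m : ℕ} (hm : 5 * (g₁ + g₂ + Fintype.card S) ≤ m)
    (C : TtgrClosed ν₁ ν₂ g₁ g₂ T₁ T₂ m)
    (l₁ : Place (ResidueField ↥𝔸) F₁ → Place FfQb F)
    (l₂ : Place (ResidueField ↥𝔸) F₂ → Place FfQb F)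
    (hfix₁ : ∀ Q : Place (ResidueField ↥𝔸) F₁, Q ∉ T₁ → (∀ s, Q ≠ ν₁ s) →
      ∀ σ : ↥(ffI 𝔸), ρ σ • l₁ Q = l₁ Q)
    (hfix₂ : ∀ Q : Place (ResidueField ↥𝔸) F₂, Q ∉ T₂ → (∀ s, Q ≠ ν₂ s) →
      ∀ σ : ↥(ffI 𝔸), ρ σ • l₂ Q = l₂ Q)
    (hinL : ∀ (A₁ : Divisor (ResidueField ↥𝔸) F₁) (A₂ : Divisor (ResidueField ↥𝔸) F₂),
      0 ≤ A₁ → 0 ≤ A₂ → (∀ P ∈ T₁, A₁ P = 0) → (∀ s, A₁ (ν₁ s) = 0) →
      (∀ P ∈ T₂, A₂ P = 0) → (∀ s, A₂ (ν₂ s) = 0) → ∀ x : O,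
      (x : F) ∈ riemannRochSpace (ttgrLift l₁ l₂ A₁ A₂) → red x ∈ ttnkL ν₁ ν₂ A₁ A₂)
    (U₁ : Finset (Place (ResidueField ↥𝔸) F₁)) (U₂ : Finset (Place (ResidueField ↥𝔸) F₂))
    (hlift₁ : ∀ i, 1 ≤ i → i ≤ 5 →
      TtbLift₁ red ρ (riemannRochSpace (i • C.dd l₁ l₂)) ν₁ (i • C.dd₁) U₁)
    (hlift₂ : ∀ i, 1 ≤ i → i ≤ 5 →
      TtbLift₂ red ρ (riemannRochSpace (i • C.dd l₁ l₂)) ν₂ (i • C.dd₂) U₂)
    (X : AddSubgroup (Pic0 FfQb F)) [Finite X]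
    (Good : Divisor FfQb F → Prop)
    (hbr : ∀ γ ∈ X, ∃ (Dγ : Divisor FfQb F)
      (hdeg : Dγ - C.D0 l₁ l₂ ∈ Divisor.degZero (K := FfQb) (F := F)),
      0 ≤ Dγ ∧ Pic0.mk ⟨Dγ - C.D0 l₁ l₂, hdeg⟩ = γ ∧ Good Dγ)
    (hin1 : ∀ D : Divisor FfQb F, 0 ≤ D → Divisor.degree D = g → Good D → ∀ x : O,
      (x : F) ∈ riemannRochSpace (C.dd l₁ l₂ - D) →
      red x ∈ ttnkL ν₁ ν₂ (C.dd₁ - C.D₁) (C.dd₂ - C.D₂))
    (hsemi : ∀ D : Divisor FfQb F, 0 ≤ D → Divisor.degree D = g → Good D →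
      finrank FfQb (riemannRochSpace D) ≤ 1)
    (act : ↥(ffI 𝔸) → ↥X → ↥X)
    (hact : ∀ (σ : ↥(ffI 𝔸)) (γ : ↥X),
      ((act σ γ : ↥X) : Pic0 FfQb F) = ρ σ • (γ : Pic0 FfQb F)) :
    TtConnOut 𝔸 ↥X act :=
  ttgn_conn_red 𝔸 h ρ RR hdeg RR₁ RR₂ hdeg₁ hdeg₂ hν₁ hν₂ hg hs hm C l₁ l₂ hfix₁ hfix₂ hinL
    U₁ U₂ hlift₁ hlift₂ (ttgn_hW 𝔸 ρ hρ) X Good hbr hin1 hsemi act
    (fun σ => ⟨ρ σ, ⟨σ, rfl⟩, hρ σ, hact σ⟩)

end ChainModel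

end Fermat.Agent.TT
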