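import Fermat.Agent.TT.Geom.ModelInst
import Fermat.Agent.TT.Geom.ChainModel
import Fermat.Agent.G.Red.Gauss

/-!
# Program TT (S33), assembly of (A): the chain on the abstract two-valuation model

Owner: helper26.  Namespace `Fermat.Agent.TT`, prefix `ttgm`.

`ttgm_conn` = helper13's `ttgn_conn_I` (model + chain on the two-valuation layer) with every input
that comes from `Mod : TtgModel 𝔸 V₁ V₂ red₁ red₂ ρ cls ν₁ ν₂ T₁ T₂ g g₁ g₂` PLUGGED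
(`TT/Geom/ModelInst.lean`): the layer `Mod.toRed`, the genus identity `ttgm_genus`, the nodes,
the closed origin data `C` (`ttgr_exists_closed` at `m = 5 (g₁ + g₂ + #S)`), the lift maps
`ttgmL₁/₂` with their fixedness, the uniform (R-in) for lifts `ttgm_into`, (LIFT) `ttgm_lift₁/₂`,
`W = 𝔸^I`.  What remains is the BRIDGE PACKAGE at the origin data: for all lift maps `l₁ l₂` with
the two specs and all closed origin data `C` a predicate `Good` on divisors with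

* `hbr`  : every class of `X` is `[Dγ - D0]` with `Dγ ≥ 0` good;
* `hin1` : (R-in) at level one : `O₂ ∩ L(𝔡 - D) → L̃(𝔡̃ - D̃₀)` for `D` good of degree `g`;
* `hsemi`: (H2) `l(D) ≤ 1` for `D` good of degree `g`.

`TtgmBridgeSpec` states this package in the generality of helper24's `TtgConnSpec`, and
`ttgm_connSpec : TtgmBridgeSpec → TtgConnSpec`.
-/

set_option autoImplicit false
set_option linter.unusedSectionVars false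
set_option linter.unusedVariables false
set_option linter.style.haveILetI false

noncomputable section

namespace Fermat.Agent.TT

open AlgebraicCurve IsLocalRing Module Fermat.Agent.G Fermat.Agent.FF Fermat.Agent.V.RR

section ModelChain

variable (𝔸 : ValuationSubring FfQb) {F : Type} [Field F] [Algebra FfQb F]
  {F₁ F₂ : Type} [Field F₁] [Field F₂] [Algebra (ResidueField ↥𝔸) F₁]
  [Algebra (ResidueField ↥𝔸) F₂] {g g₁ g₂ : ℕ} {S : Type} [Fintype S]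
  {V₁ V₂ : ValuationSubring F} {red₁ : V₁ →+* F₁} {red₂ : V₂ →+* F₂}
  {ρ : ↥(ffI 𝔸) →* SemilinearAut FfQb F}
  {cls : Place FfQb F → Option (Place (ResidueField ↥𝔸) F₁ ⊕ Place (ResidueField ↥𝔸) F₂)}
  {ν₁ : S → Place (ResidueField ↥𝔸) F₁} {ν₂ : S → Place (ResidueField ↥𝔸) F₂}
  {T₁ : Finset (Place (ResidueField ↥𝔸) F₁)} {T₂ : Finset (Place (ResidueField ↥𝔸) F₂)}

/-- **the bridge package at the origin data** `(l₁, l₂, C)` for the subgroup `X`. -/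
def TtgmBridgeAt (red₁ : V₁ →+* F₁) (red₂ : V₂ →+* F₂) (g : ℕ)
    (ν₁ : S → Place (ResidueField ↥𝔸) F₁) (ν₂ : S → Place (ResidueField ↥𝔸) F₂)
    {T₁ : Finset (Place (ResidueField ↥𝔸) F₁)} {T₂ : Finset (Place (ResidueField ↥𝔸) F₂)}
    {g₁ g₂ m : ℕ} (C : TtgrClosed ν₁ ν₂ g₁ g₂ T₁ T₂ m)
    (l₁ : Place (ResidueField ↥𝔸) F₁ → Place FfQb F)
    (l₂ : Place (ResidueField ↥𝔸) F₂ → Place FfQb F)
    (X : AddSubgroup (Pic0 FfQb F)) : Prop :=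
  ∃ Good : Divisor FfQb F → Prop,
    (∀ γ ∈ X, ∃ (Dγ : Divisor FfQb F)
      (hdeg : Dγ - C.D0 l₁ l₂ ∈ Divisor.degZero (K := FfQb) (F := F)),
      0 ≤ Dγ ∧ Pic0.mk ⟨Dγ - C.D0 l₁ l₂, hdeg⟩ = γ ∧ Good Dγ) ∧
    (∀ D : Divisor FfQb F, 0 ≤ D → Divisor.degree D = g → Good D →
      ∀ x : ↥(V₁.toSubring ⊓ V₂.toSubring),
      ((x : ↥(V₁.toSubring ⊓ V₂.toSubring)) : F) ∈ riemannRochSpace (C.dd l₁ l₂ - D) →
      ttgRed red₁ red₂ x ∈ ttnkL ν₁ ν₂ (C.dd₁ - C.D₁) (C.dd₂ - C.D₂)) ∧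
    (∀ D : Divisor FfQb F, 0 ≤ D → Divisor.degree D = g → Good D →
      finrank FfQb (riemannRochSpace D) ≤ 1)

/-- **the chain on the abstract two-valuation model**: `TtConnOut` for `X` from the model and the
bridge package at the origin data. -/
theorem ttgm_conn (Mod : TtgModel 𝔸 V₁ V₂ red₁ red₂ ρ cls ν₁ ν₂ T₁ T₂ g g₁ g₂)
    (hρ : ∀ (σ : ↥(ffI 𝔸)) (a : FfQb), SemilinearAut.baseAut (ρ σ) a = (σ : FfGal) a)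
    (RR : V27RR FfQb F g) (hdeg : ∀ P : Place FfQb F, P.deg = 1)
    (RR₁ : V27RR (ResidueField ↥𝔸) F₁ g₁) (RR₂ : V27RR (ResidueField ↥𝔸) F₂ g₂)
    (hdeg₁ : ∀ v : Place (ResidueField ↥𝔸) F₁, v.deg = 1)
    (hdeg₂ : ∀ v : Place (ResidueField ↥𝔸) F₂, v.deg = 1)
    (X : AddSubgroup (Pic0 FfQb F)) [Finite X]
    (hB : ∀ (l₁ : Place (ResidueField ↥𝔸) F₁ → Place FfQb F)
      (l₂ : Place (ResidueField ↥𝔸) F₂ → Place FfQb F),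
      (∀ Q, Q ∉ T₁ → cls (l₁ Q) = some (Sum.inl Q)) →
      (∀ Q, Q ∉ T₂ → cls (l₂ Q) = some (Sum.inr Q)) →
      (∀ Q, Q ∉ T₁ → ∀ σ : ↥(ffI 𝔸), ρ σ • l₁ Q = l₁ Q) →
      (∀ Q, Q ∉ T₂ → ∀ σ : ↥(ffI 𝔸), ρ σ • l₂ Q = l₂ Q) →
      ∀ C : TtgrClosed ν₁ ν₂ g₁ g₂ T₁ T₂ (5 * (g₁ + g₂ + Fintype.card S)),
        TtgmBridgeAt 𝔸 red₁ red₂ g ν₁ ν₂ C l₁ l₂ X)
    (act : ↥(ffI 𝔸) → ↥X → ↥X)
    (hact : ∀ (σ : ↥(ffI 𝔸)) (γ : ↥X),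
      ((act σ γ : ↥X) : Pic0 FfQb F) = ρ σ • (γ : Pic0 FfQb F)) :
    TtConnOut 𝔸 ↥X act := by
  classical
  haveI : IsAlgClosed (ResidueField ↥𝔸) := grd_isAlgClosed_residue 𝔸
  haveI : Infinite (ResidueField ↥𝔸) := IsAlgClosed.instInfinite
  have hg := ttgm_genus Mod RR hdeg RR₁ RR₂ hdeg₁ hdeg₂
  haveI := ttgm_infinite_place RR₁
  haveI := ttgm_infinite_place RR₂
  have hs : 1 ≤ Fintype.card S := Fintype.card_pos_iff.mpr Mod.nodes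
  obtain ⟨C⟩ := ttgr_exists_closed RR₁ RR₂ hdeg₁ hdeg₂ ν₁ ν₂ Mod.ν₁_inj Mod.ν₂_inj hs T₁ T₂
    (5 * (g₁ + g₂ + Fintype.card S))
  obtain ⟨P₀⟩ := RR.place
  have hl₁ : ∀ Q, Q ∉ T₁ → cls (ttgmL₁ Mod P₀ Q) = some (Sum.inl Q) :=
    fun Q hQ => (ttgm_L₁_spec Mod P₀ hQ).1
  have hl₂ : ∀ Q, Q ∉ T₂ → cls (ttgmL₂ Mod P₀ Q) = some (Sum.inr Q) :=
    fun Q hQ => (ttgm_L₂_spec Mod P₀ hQ).1
  have hf₁ : ∀ Q, Q ∉ T₁ → ∀ σ : ↥(ffI 𝔸), ρ σ • ttgmL₁ Mod P₀ Q = ttgmL₁ Mod P₀ Q :=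
    fun Q hQ => (ttgm_L₁_spec Mod P₀ hQ).2
  have hf₂ : ∀ Q, Q ∉ T₂ → ∀ σ : ↥(ffI 𝔸), ρ σ • ttgmL₂ Mod P₀ Q = ttgmL₂ Mod P₀ Q :=
    fun Q hQ => (ttgm_L₂_spec Mod P₀ hQ).2
  obtain ⟨Good, hbr, hin1, hsemi⟩ := hB (ttgmL₁ Mod P₀) (ttgmL₂ Mod P₀) hl₁ hl₂ hf₁ hf₂ C
  exact ttgn_conn_I 𝔸 Mod.toRed ρ hρ RR hdeg RR₁ RR₂ hdeg₁ hdeg₂ Mod.ν₁_inj Mod.ν₂_inj hg hs
    le_rfl C (ttgmL₁ Mod P₀) (ttgmL₂ Mod P₀) (fun Q hQ _ => hf₁ Q hQ) (fun Q hQ _ => hf₂ Q hQ)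
    (fun A₁ A₂ h₁ h₂ hT₁ _ hT₂ _ x hx =>
      ttgm_into (ttgmL₁ Mod P₀) (ttgmL₂ Mod P₀) hl₁ hl₂ hT₁ hT₂ Mod h₁ h₂ x hx)
    T₁ T₂
    (fun i _ _ => by
      rw [ttgr_nsmul_dd]
      exact ttgm_lift₁ (ttgmL₁ Mod P₀) (ttgmL₂ Mod P₀) hl₁ hl₂ (ttgm_nsmul_T C.hdd₁T i)
        (ttgm_nsmul_T C.hdd₂T i) Mod hf₁)
    (fun i _ _ => by
      rw [ttgr_nsmul_dd]
      exact ttgm_lift₂ (ttgmL₁ Mod P₀) (ttgmL₂ Mod P₀) hl₁ hl₂ (ttgm_nsmul_T C.hdd₁T i)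
        (ttgm_nsmul_T C.hdd₂T i) Mod hf₂)
    X Good hbr hin1 hsemi act hact

end ModelChain

/-! ## The bridge leaf of (CONN) -/

/-- **LEAF (BRIDGE)** = what remains of `TtgConnSpec` after the model and the chain: the bridge
package at the origin data, in the generality of `TtgConnSpec`. -/
def TtgmBridgeSpec : Prop :=
  ∀ (p : ℕ), p.Prime → p ≠ 2 → ∀ (𝔸 : ValuationSubring FfQb), 𝔸.LiesOverPrime p →
  ∀ (F : Type) [Field F] [Algebra FfQb F] (F₁ F₂ : Type) [Field F₁] [Field F₂]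
    [Algebra (ResidueField 𝔸) F₁] [Algebra (ResidueField 𝔸) F₂] (g g₁ g₂ : ℕ),
    V27RR FfQb F g → (∀ P : Place FfQb F, P.deg = 1) →
    V27RR (ResidueField 𝔸) F₁ g₁ → V27RR (ResidueField 𝔸) F₂ g₂ →
    (∀ Q : Place (ResidueField 𝔸) F₁, Q.deg = 1) → (∀ Q : Place (ResidueField 𝔸) F₂, Q.deg = 1) →
    ∀ (V₁ V₂ : ValuationSubring F) (red₁ : V₁ →+* F₁) (red₂ : V₂ →+* F₂)
      (ρ : ↥(ffI 𝔸) →* SemilinearAut FfQb F),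
      (∀ (σ : ↥(ffI 𝔸)) (a : FfQb), SemilinearAut.baseAut (ρ σ) a = (σ : FfGal) a) →
    ∀ (cls : Place FfQb F → Option (Place (ResidueField 𝔸) F₁ ⊕ Place (ResidueField 𝔸) F₂))
      (S : Type) [Fintype S] (ν₁ : S → Place (ResidueField 𝔸) F₁)
      (ν₂ : S → Place (ResidueField 𝔸) F₂) (T₁ : Finset (Place (ResidueField 𝔸) F₁))
      (T₂ : Finset (Place (ResidueField 𝔸) F₂)),
      TtgModel 𝔸 V₁ V₂ red₁ red₂ ρ cls ν₁ ν₂ T₁ T₂ g g₁ g₂ →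
      g + 1 = g₁ + g₂ + Fintype.card S →
      ∀ (j : ℕ) (Γ : AddSubgroup (Pic0 FfQb F)),
        Γ = ttalKum (K := FfQb) (ttalOne V₁ V₂) (p ^ j) → Finite ↥Γ →
        ∀ (l₁ : Place (ResidueField 𝔸) F₁ → Place FfQb F)
          (l₂ : Place (ResidueField 𝔸) F₂ → Place FfQb F),
          (∀ Q, Q ∉ T₁ → cls (l₁ Q) = some (Sum.inl Q)) →
          (∀ Q, Q ∉ T₂ → cls (l₂ Q) = some (Sum.inr Q)) →
          (∀ Q, Q ∉ T₁ → ∀ σ : ↥(ffI 𝔸), ρ σ • l₁ Q = l₁ Q) →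
          (∀ Q, Q ∉ T₂ → ∀ σ : ↥(ffI 𝔸), ρ σ • l₂ Q = l₂ Q) →
          ∀ C : TtgrClosed ν₁ ν₂ g₁ g₂ T₁ T₂ (5 * (g₁ + g₂ + Fintype.card S)),
            TtgmBridgeAt 𝔸 red₁ red₂ g ν₁ ν₂ C l₁ l₂ Γ

/-- **(CONN) from the bridge leaf.** -/
theorem ttgm_connSpec (h : TtgmBridgeSpec) : TtgConnSpec := by
  intro p hp hp2 𝔸 h𝔸 F _ _ F₁ F₂ _ _ _ _ g g₁ g₂ RR hdeg RR₁ RR₂ hdeg₁ hdeg₂ V₁ V₂ red₁ red₂ ρ hρ
    cls S _ ν₁ ν₂ T₁ T₂ Mod j Γ hΓ hfin act hact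
  haveI : IsAlgClosed (ResidueField ↥𝔸) := grd_isAlgClosed_residue 𝔸
  haveI : Infinite (ResidueField ↥𝔸) := IsAlgClosed.instInfinite
  haveI := hfin
  have hg := ttgm_genus Mod RR hdeg RR₁ RR₂ hdeg₁ hdeg₂
  exact ttgm_conn 𝔸 Mod hρ RR hdeg RR₁ RR₂ hdeg₁ hdeg₂ Γ
    (fun l₁ l₂ hl₁ hl₂ hf₁ hf₂ C =>
      h p hp hp2 𝔸 h𝔸 F F₁ F₂ g g₁ g₂ RR hdeg RR₁ RR₂ hdeg₁ hdeg₂ V₁ V₂ red₁ red₂ ρ hρ cls S
        ν₁ ν₂ T₁ T₂ Mod hg j Γ hΓ hfin l₁ l₂ hl₁ hl₂ hf₁ hf₂ C)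
    act hact

end Fermat.Agent.TT
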