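import Fermat.Agent.TT.Geom.IntoM
import Fermat.Agent.TT.Geom.ModelChain
import Fermat.Agent.S18.A.Const

/-!
# PROGRAM TT (S33), arrow (A), slice (C8): LEAF (CONN) CLOSED

Owner: helper24.  Namespace `Fermat.Agent.TT`, prefix `ttg`.

* `ttg_bridgeSpec : TtgmBridgeSpec` : the bridge package at the origin data (helper26's leaf of
  `TT/Geom/ModelChain.lean`) for `Good := TtgGood cls (C.D0 l₁ l₂)`:
  `hbr` = `ttg_hbr` (`TT/Geom/BridgeM.lean`), `hin1` = `ttg_into_sub`, `hsemi` = `ttg_hsemi`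
  (`TT/Geom/IntoM.lean`);
* **`ttg_connSpec : TtgConnSpec`** := `ttgm_connSpec ttg_bridgeSpec` — a closed term.
-/

set_option autoImplicit false
set_option linter.unusedSectionVars false
set_option linter.unusedVariables false
set_option linter.style.haveILetI false

noncomputable section

namespace Fermat.Agent.TT

open AlgebraicCurve IsLocalRing Module Fermat.Agent.G Fermat.Agent.FF Fermat.Agent.V.RR

/-- **the bridge package at the origin data.** -/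
theorem ttg_bridgeSpec : TtgmBridgeSpec := by
  intro p hp hp2 𝔸 h𝔸 F _ _ F₁ F₂ _ _ _ _ g g₁ g₂ RR hdeg RR₁ RR₂ hdeg₁ hdeg₂ V₁ V₂ red₁ red₂ ρ hρ
    cls S _ ν₁ ν₂ T₁ T₂ Mod hg j Γ hΓ hfin l₁ l₂ hl₁ hl₂ hf₁ hf₂ C
  classical
  haveI : Fact p.Prime := ⟨hp⟩
  haveI : CharP (ResidueField ↥𝔸) p := Fermat.Agent.S18.s18ac_charP 𝔸 h𝔸
  haveI : IsAlgClosed (ResidueField ↥𝔸) := grd_isAlgClosed_residue 𝔸
  haveI : Infinite (ResidueField ↥𝔸) := IsAlgClosed.instInfinite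
  haveI := ttgm_infinite_place RR₁
  -- the base divisor
  have hD0 : 0 ≤ C.D0 l₁ l₂ := ttgr_D0_nonneg C l₁ l₂
  have hD0deg : Divisor.degree (C.D0 l₁ l₂) = g := ttgr_D0_degree C l₁ l₂ hdeg hdeg₁ hdeg₂ hg
  have hD0good : ∀ v : Place FfQb F, cls v = none → C.D0 l₁ l₂ v = 0 := by
    intro v hv
    by_contra hne
    exact ttgm_good l₁ l₂ hl₁ hl₂ C.hD₁T C.hD₂T v hne hv
  have hpush₁ : ttgPush₁ cls (C.D0 l₁ l₂) = C.D₁ := ttgm_push₁ l₁ l₂ hl₁ hl₂ C.hD₁T C.hD₂T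
  have hpush₂ : ttgPush₂ cls (C.D0 l₁ l₂) = C.D₂ := ttgm_push₂ l₁ l₂ hl₁ hl₂ C.hD₁T C.hD₂T
  -- the level divisor
  have hdd : 0 ≤ C.dd l₁ l₂ := ttgr_dd_nonneg C l₁ l₂
  have hddgood : ∀ v : Place FfQb F, cls v = none → C.dd l₁ l₂ v = 0 := by
    intro v hv
    by_contra hne
    exact ttgm_good l₁ l₂ hl₁ hl₂ C.hdd₁T C.hdd₂T v hne hv
  have hpdd₁ : ttgPush₁ cls (C.dd l₁ l₂) = C.dd₁ := ttgm_push₁ l₁ l₂ hl₁ hl₂ C.hdd₁T C.hdd₂T
  have hpdd₂ : ttgPush₂ cls (C.dd l₁ l₂) = C.dd₂ := ttgm_push₂ l₁ l₂ hl₁ hl₂ C.hdd₁T C.hdd₂T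
  have hr₁ : ∀ Q, ttgPush₁ cls (C.D0 l₁ l₂) Q ≤ 1 := fun Q => by rw [hpush₁]; exact C.hD₁r Q
  have hr₂ : ∀ Q, ttgPush₂ cls (C.D0 l₁ l₂) Q ≤ 1 := fun Q => by rw [hpush₂]; exact C.hD₂r Q
  -- a good point of the first kind off the support of `D₁`
  obtain ⟨Q₀, hQ₀⟩ := Infinite.exists_notMem_finset (T₁ ∪ C.D₁.support)
  have hQ₀T : Q₀ ∉ T₁ := fun h => hQ₀ (Finset.mem_union_left _ h)
  have hQ₀D : C.D₁ Q₀ = 0 := by
    by_contra h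
    exact hQ₀ (Finset.mem_union_right _ (Finsupp.mem_support_iff.mpr h))
  have hn : p ^ j ≠ 0 := pow_ne_zero j hp.ne_zero
  refine ⟨TtgGood cls (C.D0 l₁ l₂), ?_, ?_, ?_⟩
  · exact ttg_hbr Mod RR (fun i => hdeg₁ _) (fun i => hdeg₂ _) hn
      (fun x y h => ttal_pow_char_inj p j x y h) (C.D0 l₁ l₂) hD0 hD0deg hD0good C.D₁ C.D₂
      hpush₁ hpush₂ C.hD Γ hΓ
  · intro D hD _ hgood x hx
    have := ttg_into_sub Mod hdd hddgood hD0good hr₁ hr₂ hD hgood (x : F) x.2.1 x.2.2 hx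
    rw [hpdd₁, hpdd₂, hpush₁, hpush₂] at this
    exact this
  · intro D hD _ hgood
    exact ttg_hsemi Mod RR hdeg hD hgood hpush₁ hpush₂ C.hD (hl₁ Q₀ hQ₀T) hQ₀D

/-- **LEAF (CONN), closed.** -/
theorem ttg_connSpec : TtgConnSpec := ttgm_connSpec ttg_bridgeSpec

end Fermat.Agent.TT
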