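import Fermat.Agent.TT.Geom.Push
import Fermat.Agent.TT.Alpha.NodalRoot

/-!
# PROGRAM TT (S33), arrow (A), slice (C3'): THE BRIDGE ON THE ABSTRACT MODEL

Owner: helper24.  Namespace `Fermat.Agent.TT`, prefix `ttg`.

`TtalBridge` (helper29, `TT/Alpha/Bridge.lean`) instantiated on the abstract two-valuation model
`TtgModel` with the ABSTRACT class map `cls` (`bad = {v | cls v = none}`), for any effective
divisor `D₀` of the generic fibre supported on good places, with reductions `(D₁, D₂)` such that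
`L̃(D₁, D₂) = k·1`:

* `TtgGood cls D₀ D` : "`D` avoids the bad places and has the residue classes of `D₀`"
  (the conclusion of the bridge = the predicate `Good` of `ttgc_chain`);
* `ttg_scale` : the scaling field of the bridge from `toRed.scale`, `ker₁`, `ker₂`;
* `ttg_bridge` : the instance of `TtalBridge`;
* `ttg_hbr` : **the hypothesis `hbr` of `ttgc_chain` VERBATIM** for `X = ttalKum (ttalOne V₁ V₂) n`;
* `ttg_good_push₁/₂`, `ttg_good_support` : what a good divisor gives to (R-in).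
-/

set_option autoImplicit false
set_option linter.unusedSectionVars false
set_option linter.unusedVariables false
set_option linter.style.haveILetI false

noncomputable section

namespace Fermat.Agent.TT

open AlgebraicCurve IsLocalRing Module Fermat.Agent.G Fermat.Agent.FF Fermat.Agent.V.RR

section BridgeM

variable {K : Type*} [Field K] {A : ValuationSubring K} {F : Type*} [Field F] [Algebra K F]
variable {F₁ F₂ : Type*} [Field F₁] [Field F₂] [Algebra (ResidueField A) F₁]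
  [Algebra (ResidueField A) F₂]
variable {G : Type*} [Group G] {S : Type*} [Fintype S]
variable {V₁ V₂ : ValuationSubring F} {red₁ : V₁ →+* F₁} {red₂ : V₂ →+* F₂}
  {ρ : G →* SemilinearAut K F}
  {cls : Place K F → Option (Place (ResidueField A) F₁ ⊕ Place (ResidueField A) F₂)}
  {ν₁ : S → Place (ResidueField A) F₁} {ν₂ : S → Place (ResidueField A) F₂}
  {T₁ : Finset (Place (ResidueField A) F₁)} {T₂ : Finset (Place (ResidueField A) F₂)}
  {g g₁ g₂ : ℕ}

/-- **the conclusion of the bridge**: `D` avoids the bad places and has the residue classes of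
`D₀`. -/
def TtgGood (cls : Place K F → Option (Place (ResidueField A) F₁ ⊕ Place (ResidueField A) F₂))
    (D₀ D : Divisor K F) : Prop :=
  (∀ v : Place K F, cls v = none → D v = 0) ∧
    Finsupp.mapDomain cls D = Finsupp.mapDomain cls D₀

theorem ttg_good_support {D₀ D : Divisor K F} (h : TtgGood cls D₀ D) (P : Place K F)
    (hP : D P ≠ 0) : cls P ≠ none := fun hn => hP (h.1 P hn)

theorem ttg_good_push₁ {D₀ D : Divisor K F} (h : TtgGood cls D₀ D) :
    ttgPush₁ cls D = ttgPush₁ cls D₀ := ttgPush₁_congr cls h.2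

theorem ttg_good_push₂ {D₀ D : Divisor K F} (h : TtgGood cls D₀ D) :
    ttgPush₂ cls D = ttgPush₂ cls D₀ := ttgPush₂_congr cls h.2

/-- the scaling field of the bridge. -/
theorem ttg_scale (Mod : TtgModel A V₁ V₂ red₁ red₂ ρ cls ν₁ ν₂ T₁ T₂ g g₁ g₂) (h : F)
    (hh : h ≠ 0) : ∃ c : K, c ≠ 0 ∧ algebraMap K F c * h ∈ V₁ ∧ algebraMap K F c * h ∈ V₂ ∧
      (algebraMap K F c * h ∉ V₁.nonunits ∨ algebraMap K F c * h ∉ V₂.nonunits) := by
  obtain ⟨c, hc, hm, hr⟩ := Mod.toRed.scale h hh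
  refine ⟨c, hc, hm.1, hm.2, ?_⟩
  by_contra hcon
  push Not at hcon
  apply hr
  have e : ttgRed red₁ red₂ ⟨algebraMap K F c * h, hm⟩ =
      (red₁ ⟨algebraMap K F c * h, hm.1⟩, red₂ ⟨algebraMap K F c * h, hm.2⟩) := rfl
  rw [e, Prod.mk_eq_zero]
  exact ⟨(Mod.ker₁ _).mpr hcon.1, (Mod.ker₂ _).mpr hcon.2⟩

/-- **THE BRIDGE on the abstract model.** -/
theorem ttg_bridge (Mod : TtgModel A V₁ V₂ red₁ red₂ ρ cls ν₁ ν₂ T₁ T₂ g g₁ g₂)
    (hdeg₁ : ∀ i, (ν₁ i).deg = 1) (hdeg₂ : ∀ i, (ν₂ i).deg = 1)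
    {n : ℕ} (hn : n ≠ 0) (hinj : ∀ x y : ResidueField A, x ^ n = y ^ n → x = y)
    (D₀ : Divisor K F) (hD₀ : 0 ≤ D₀) (hgood : ∀ v : Place K F, cls v = none → D₀ v = 0)
    (D₁ : Divisor (ResidueField A) F₁) (D₂ : Divisor (ResidueField A) F₂)
    (hpush₁ : ttgPush₁ cls D₀ = D₁) (hpush₂ : ttgPush₂ cls D₀ = D₂)
    (hgen : ttnkL ν₁ ν₂ D₁ D₂ = Submodule.span (ResidueField A) {(1 : F₁ × F₂)}) :
    TtalBridge (K := K) (k := ResidueField A) V₁ V₂ red₁ red₂ n D₀ {v | cls v = none} cls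
      (↑(ttnkL ν₁ ν₂ (n • D₁) (n • D₂)) : Set (F₁ × F₂))
      (↑(ttnkL ν₁ ν₂ D₁ D₂) : Set (F₁ × F₂)) where
  ker₁ := Mod.ker₁
  ker₂ := Mod.ker₂
  scale := ttg_scale Mod
  sec := by
    intro x h₁ h₂ hx0 hord
    have hmem : x ∈ riemannRochSpace (n • D₀) := by
      rw [mem_riemannRochSpace_iff]
      intro v
      right
      rw [Finsupp.smul_apply, nsmul_eq_mul]
      exact hord v
    have hnn : ∀ P : Place K F, 0 ≤ (n • D₀) P := fun P => by
      rw [Finsupp.smul_apply]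
      exact nsmul_nonneg (hD₀ P) n
    have := Mod.into (n • D₀) (fun P hP hcls => by
      apply hP
      rw [Finsupp.smul_apply, hgood P hcls, smul_zero])
      (fun P => le_trans (by norm_num) (hnn P))
      (fun P P' _ hP _ => absurd hP (not_lt.mpr (hnn P))) x h₁ h₂ hmem
    rwa [ttgPush₁_nsmul, ttgPush₂_nsmul, hpush₁, hpush₂] at this
  root := fun a b hab => ttal_nodal_root ν₁ ν₂ hdeg₁ hdeg₂ hn hinj D₁ D₂ a b hab
  gen := fun q hq => ttal_nodal_gen ν₁ ν₂ hgen q hq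
  bad₀ := fun v hv => hgood v hv
  const := by
    intro x h₁ h₂ c hc hx0 hbad hr₁ hr₂ Dx hDx
    exact Mod.const x h₁ h₂ c hc hx0 (fun v hv => hbad v hv) hr₁ hr₂ Dx hDx

/-- **the hypothesis `hbr` of `ttgc_chain`** for the Kummer subgroup, `Good := TtgGood cls D₀`. -/
theorem ttg_hbr (Mod : TtgModel A V₁ V₂ red₁ red₂ ρ cls ν₁ ν₂ T₁ T₂ g g₁ g₂)
    (RR : V27RR K F g)
    (hdeg₁ : ∀ i, (ν₁ i).deg = 1) (hdeg₂ : ∀ i, (ν₂ i).deg = 1)
    {n : ℕ} (hn : n ≠ 0) (hinj : ∀ x y : ResidueField A, x ^ n = y ^ n → x = y)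
    (D₀ : Divisor K F) (hD₀ : 0 ≤ D₀) (hD₀deg : Divisor.degree D₀ = g)
    (hgood : ∀ v : Place K F, cls v = none → D₀ v = 0)
    (D₁ : Divisor (ResidueField A) F₁) (D₂ : Divisor (ResidueField A) F₂)
    (hpush₁ : ttgPush₁ cls D₀ = D₁) (hpush₂ : ttgPush₂ cls D₀ = D₂)
    (hgen : ttnkL ν₁ ν₂ D₁ D₂ = Submodule.span (ResidueField A) {(1 : F₁ × F₂)})
    (X : AddSubgroup (Pic0 K F)) (hX : X = ttalKum (K := K) (ttalOne V₁ V₂) n) :
    ∀ γ ∈ X, ∃ (Dγ : Divisor K F) (hdeg : Dγ - D₀ ∈ Divisor.degZero (K := K) (F := F)),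
      0 ≤ Dγ ∧ Pic0.mk ⟨Dγ - D₀, hdeg⟩ = γ ∧ TtgGood cls D₀ Dγ := by
  intro γ hγ
  haveI := RR.hasDiv
  have hB := ttg_bridge Mod hdeg₁ hdeg₂ hn hinj D₀ hD₀ hgood D₁ D₂ hpush₁ hpush₂ hgen
  have hrr : ∀ E : Divisor K F, Divisor.degree E = Divisor.degree D₀ →
      ∃ h : F, h ≠ 0 ∧ ∀ v : Place K F, -E v ≤ v.ord h := by
    intro E hE
    obtain ⟨f, hf0, hf⟩ := RR.exists_ne_zero_mem (D := E) (by rw [hE, hD₀deg])
    refine ⟨f, hf0, fun v => ?_⟩
    exact ((mem_riemannRochSpace_iff.mp hf) v).resolve_left hf0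
  rw [hX] at hγ
  obtain ⟨Dγ, hdeg, hpos, hcls, h1, h2⟩ := ttal_bridge hB hn hrr hγ
  exact ⟨Dγ, hdeg, hpos, hcls, fun v hv => h1 v hv, h2⟩

end BridgeM

end Fermat.Agent.TT
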