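import Fermat.Agent.TT.Geom.OutData
import Fermat.Agent.TT.C5a.Hyp
import Fermat.Agent.TT.Nodal.Closed

/-!
# Program TT (S33), assembly of (A): everything downstream of the model and (R-in)

Owner: helper10.  Namespace `Fermat.Agent.TT`, prefix `ttgc`.

INPUT: the two fibres `fibK : FffmFib`, `fibk : TtnkFib` of the engine (the output of
`tte_model`, common table `cW` over `W = 𝔸^I`), the origin divisors `D0, X0` on the generic fibre
(`E := 2𝔡 - 2D0 - X0`) and `(D₁, D₂)`, `(X₁, X₂)` on the nodal fibre (hypotheses of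
`ttnk_closed`), the genus and degree identities, a finite subgroup `X ≤ Pic⁰` with the bridge
(`Good`, `hbr`), the semicontinuity (H2) and **(R-in)** for the four lattices
`L(𝔡 - D)`, `L(2D0 + X0)`, `L(D0 + X0)`, `L(𝔡 + D0 + X0)`: integral coordinate vectors reduce into
the nodal spaces `L̃(𝔡̃ - D̃0)`, `L̃(2D̃0 + X̃0)`, `L̃(D̃0 + X̃0)`, `L̃(𝔡̃ + D̃0 + X̃0)`.

OUTPUT: `TtConnOut 𝔸 ↥X act`  (`ttgc_chain`).

Inside: `ttgcU` (the coordinate subspaces, by `comap`), `ttch_main`, `ttco_fixed` (three times),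
`ttnk_closed`, `ttgo_out`.
-/

set_option autoImplicit false
set_option linter.unusedSectionVars false

noncomputable section

namespace Fermat.Agent.TT

open Fermat.Agent.FF AlgebraicCurve IsLocalRing Module Fermat.Agent.V.RR

section Chain

variable (𝔸 : ValuationSubring FfQb) {F : Type} [Field F] [Algebra FfQb F]
  {F₁ F₂ : Type} [Field F₁] [Field F₂] [Algebra (ResidueField ↥𝔸) F₁]
  [Algebra (ResidueField ↥𝔸) F₂]
  {ι : ℕ → Type} [∀ i, Fintype (ι i)] [∀ i, DecidableEq (ι i)]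
  (cW : ∀ i j k : ℕ, ι i → ι j → ι k → FfcoW 𝔸) {g g₁ g₂ : ℕ} {S : Type} [Fintype S]
  (fibK : FffmFib ι FfQb F g
    (fun i j k p q s => ((algebraMap (FfcoW 𝔸) ↥𝔸 (cW i j k p q s) : ↥𝔸) : FfQb)))
  (fibk : TtnkFib ι (ResidueField ↥𝔸) F₁ F₂ g₁ g₂ S (ttgoTabk 𝔸 cW))

/-- the coordinate subspace of level `i` of the nodal space `L̃(A₁, A₂)` -/
def ttgcU (i : ℕ) (A₁ : Divisor (ResidueField ↥𝔸) F₁) (A₂ : Divisor (ResidueField ↥𝔸) F₂) :
    Submodule (ResidueField ↥𝔸) (ι i → ResidueField ↥𝔸) :=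
  (ttnkL fibk.ν₁ fibk.ν₂ A₁ A₂).comap (fibk.coord.real i)

theorem ttgc_mem_U {i : ℕ} {A₁ : Divisor (ResidueField ↥𝔸) F₁}
    {A₂ : Divisor (ResidueField ↥𝔸) F₂} {v : ι i → ResidueField ↥𝔸} :
    v ∈ ttgcU 𝔸 cW fibk i A₁ A₂ ↔ fibk.coord.real i v ∈ ttnkL fibk.ν₁ fibk.ν₂ A₁ A₂ := Iff.rfl

/-- the coordinate subspace represents the nodal space below the level -/
theorem ttgc_repL {i : ℕ} (h1 : 1 ≤ i) (h5 : i ≤ 5) {A₁ : Divisor (ResidueField ↥𝔸) F₁}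
    {A₂ : Divisor (ResidueField ↥𝔸) F₂} (hle₁ : A₁ ≤ i • fibk.dd₁) (hle₂ : A₂ ≤ i • fibk.dd₂) :
    TtnkRepL fibk i (ttgcU 𝔸 cW fibk i A₁ A₂) A₁ A₂ := by
  rw [TtnkRepL, TtnkRep, ttgcU, Submodule.map_comap_eq, fibk.coord.range_real h1 h5, fibk.hlvl i]
  exact inf_eq_right.2 (ttnk_L_mono _ _ hle₁ hle₂)

/-- node-avoidance of a difference -/
theorem ttgc_sub_apply_zero {K' F' : Type*} [Field K'] [Field F'] [Algebra K' F']
    {A B : Divisor K' F'} {P : Place K' F'} (hA : A P = 0) (hB : B P = 0) : (A - B) P = 0 := by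
  rw [Finsupp.sub_apply, hA, hB, sub_zero]

theorem ttgc_add_apply_zero {K' F' : Type*} [Field K'] [Field F'] [Algebra K' F']
    {A B : Divisor K' F'} {P : Place K' F'} (hA : A P = 0) (hB : B P = 0) : (A + B) P = 0 := by
  rw [Finsupp.add_apply, hA, hB, add_zero]

theorem ttgc_nsmul_apply_zero {K' F' : Type*} [Field K'] [Field F'] [Algebra K' F']
    {A : Divisor K' F'} {P : Place K' F'} (n : ℕ) (hA : A P = 0) : (n • A) P = 0 := by
  rw [Finsupp.smul_apply, hA, smul_zero]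

/-- **the chain**: `TtConnOut` for `X` from the two fibres of the model, the origin divisors,
the bridge, (H2) and (R-in). -/
theorem ttgc_chain {Gam : Subgroup (SemilinearAut FfQb F)} (X : AddSubgroup (Pic0 FfQb F))
    [Finite X]
    -- invariance of the generic data
    (hbfix : ∀ i, 1 ≤ i → i ≤ 3 → ∀ σ ∈ Gam, ∀ p, σ • fibK.b i p = fibK.b i p)
    (hddfix : ∀ σ ∈ Gam, σ • fibK.dd = fibK.dd)
    -- the origin divisors on the generic fibre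
    (D0 X0 : Divisor FfQb F)
    (hD0 : 0 ≤ D0) (hD0deg : Divisor.degree D0 = g) (hD0fix : ∀ σ ∈ Gam, σ • D0 = D0)
    (hX0 : 0 ≤ X0) (hX0deg : Divisor.degree X0 = g) (hX0fix : ∀ σ ∈ Gam, σ • X0 = X0)
    (hle : D0 + X0 ≤ fibK.dd)
    -- the origin divisors on the nodal fibre (hypotheses of `ttnk_closed`)
    (D₁ X₁ : Divisor (ResidueField ↥𝔸) F₁) (D₂ X₂ : Divisor (ResidueField ↥𝔸) F₂)
    (hs : 1 ≤ Fintype.card S) (hdd₁0 : 0 ≤ fibk.dd₁) (hdd₂0 : 0 ≤ fibk.dd₂)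
    (hD₁0 : 0 ≤ D₁) (hX₁0 : 0 ≤ X₁) (hD₂0 : 0 ≤ D₂) (hX₂0 : 0 ≤ X₂)
    (hD₁deg : Divisor.degree D₁ = (g₁ : ℤ) - 1 + Fintype.card S)
    (hX₁deg : Divisor.degree X₁ = (g₁ : ℤ))
    (hD₂deg : Divisor.degree D₂ = (g₂ : ℤ))
    (hX₂deg : Divisor.degree X₂ = (g₂ : ℤ) - 1 + Fintype.card S)
    (hD₁ν : ∀ s, D₁ (fibk.ν₁ s) = 0) (hX₁ν : ∀ s, X₁ (fibk.ν₁ s) = 0)
    (hD₂ν : ∀ s, D₂ (fibk.ν₂ s) = 0) (hX₂ν : ∀ s, X₂ (fibk.ν₂ s) = 0)
    (hD : ttnkL fibk.ν₁ fibk.ν₂ D₁ D₂ = Submodule.span (ResidueField ↥𝔸) {(1 : F₁ × F₂)})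
    (hX : ttnkL fibk.ν₁ fibk.ν₂ X₁ X₂ = Submodule.span (ResidueField ↥𝔸) {(1 : F₁ × F₂)})
    (hδ₁ : 5 * (g₁ : ℤ) + 2 * Fintype.card S - 1 ≤ Divisor.degree fibk.dd₁)
    (hδ₂ : 5 * (g₂ : ℤ) + 2 * Fintype.card S - 1 ≤ Divisor.degree fibk.dd₂)
    (hle₁ : D₁ + X₁ ≤ fibk.dd₁) (hle₂ : D₂ + X₂ ≤ fibk.dd₂)
    -- the degree and genus identities
    (hδ : Divisor.degree fibk.dd₁ + Divisor.degree fibk.dd₂ = Divisor.degree fibK.dd)
    (hg : g + 1 = g₁ + g₂ + Fintype.card S)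
    -- the bridge, (R-in) at level one, (H2)
    (Good : Divisor FfQb F → Prop)
    (hbr : ∀ γ ∈ X, ∃ (Dγ : Divisor FfQb F)
      (hdeg : Dγ - D0 ∈ Divisor.degZero (K := FfQb) (F := F)),
      0 ≤ Dγ ∧ Pic0.mk ⟨Dγ - D0, hdeg⟩ = γ ∧ Good Dγ)
    (hred1 : ∀ D : Divisor FfQb F, 0 ≤ D → Divisor.degree D = g → Good D → ∀ v : ι 1 → ↥𝔸,
      (∑ i, ((v i : ↥𝔸) : FfQb) • fibK.b 1 i) ∈ riemannRochSpace (fibK.dd - D) →
      fibk.coord.real 1 (fun i => residue ↥𝔸 (v i)) ∈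
        ttnkL fibk.ν₁ fibk.ν₂ (fibk.dd₁ - D₁) (fibk.dd₂ - D₂))
    (hsemi : ∀ D : Divisor FfQb F, 0 ≤ D → Divisor.degree D = g → Good D →
      finrank FfQb (riemannRochSpace D) ≤ 1)
    -- (R-in) for the three fixed lattices
    (hredE : ∀ v : ι 2 → ↥𝔸,
      (∑ i, ((v i : ↥𝔸) : FfQb) • fibK.b 2 i) ∈ riemannRochSpace (2 • D0 + X0) →
      fibk.coord.real 2 (fun i => residue ↥𝔸 (v i)) ∈
        ttnkL fibk.ν₁ fibk.ν₂ (2 • D₁ + X₁) (2 • D₂ + X₂))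
    (hredF : ∀ v : ι 2 → ↥𝔸,
      (∑ i, ((v i : ↥𝔸) : FfQb) • fibK.b 2 i) ∈ riemannRochSpace (D0 + X0) →
      fibk.coord.real 2 (fun i => residue ↥𝔸 (v i)) ∈
        ttnkL fibk.ν₁ fibk.ν₂ (D₁ + X₁) (D₂ + X₂))
    (hredG : ∀ v : ι 3 → ↥𝔸,
      (∑ i, ((v i : ↥𝔸) : FfQb) • fibK.b 3 i) ∈ riemannRochSpace (fibK.dd + D0 + X0) →
      fibk.coord.real 3 (fun i => residue ↥𝔸 (v i)) ∈
        ttnkL fibk.ν₁ fibk.ν₂ (fibk.dd₁ + D₁ + X₁) (fibk.dd₂ + D₂ + X₂))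
    -- the action
    (act : ↥(ffI 𝔸) → ↥X → ↥X)
    (hact : ∀ σ : ↥(ffI 𝔸), ∃ τ ∈ Gam,
      (∀ a : FfQb, SemilinearAut.baseAut τ a = (σ : FfGal) a) ∧
      ∀ γ : X, ((act σ γ : X) : Pic0 FfQb F) = τ • (γ : Pic0 FfQb F)) :
    TtConnOut 𝔸 ↥X act := by
  classical
  have := fibK.inf
  have hg' : (g : ℤ) = (g₁ : ℤ) + g₂ + Fintype.card S - 1 := by
    have : ((g + 1 : ℕ) : ℤ) = ((g₁ + g₂ + Fintype.card S : ℕ) : ℤ) := by rw [hg]
    push_cast at this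
    linarith
  have h5g := fibK.hdd
  have hg0 : (0 : ℤ) ≤ g := Int.natCast_nonneg g
  have hg₁0 : (0 : ℤ) ≤ g₁ := Int.natCast_nonneg g₁
  have hg₂0 : (0 : ℤ) ≤ g₂ := Int.natCast_nonneg g₂
  have hs' : (1 : ℤ) ≤ Fintype.card S := by exact_mod_cast hs
  -- the auxiliary divisor
  have hD0le : D0 ≤ fibK.dd := le_trans (le_add_of_nonneg_right hX0) hle
  set E : Divisor FfQb F := 2 • fibK.dd - (2 • D0 + X0) with hEdef
  have h2le : 2 • D0 + X0 ≤ 2 • fibK.dd := by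
    rw [two_nsmul, two_nsmul, add_assoc]
    exact add_le_add hD0le hle
  have hE : 0 ≤ E := sub_nonneg.2 h2le
  have hEdeg : Divisor.degree E = 2 * Divisor.degree fibK.dd - 3 * g := by
    rw [hEdef, map_sub, map_add, map_nsmul, map_nsmul, hD0deg, hX0deg]
    simp only [nsmul_eq_mul, Nat.cast_ofNat]
    ring
  have h2ddfix : ∀ σ ∈ Gam, σ • (2 • fibK.dd) = 2 • fibK.dd := fun σ hσ => by
    rw [smul_comm, hddfix σ hσ]
  have h3ddfix : ∀ σ ∈ Gam, σ • (3 • fibK.dd) = 3 • fibK.dd := fun σ hσ => by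
    rw [smul_comm, hddfix σ hσ]
  have hEfix : ∀ σ ∈ Gam, σ • E = E := fun σ hσ => by
    rw [hEdef, smul_sub, smul_add, h2ddfix σ hσ, smul_comm, hD0fix σ hσ, hX0fix σ hσ]
  have hED0 : 0 ≤ E + D0 := add_nonneg hE hD0
  have hED0fix : ∀ σ ∈ Gam, σ • (E + D0) = E + D0 := fun σ hσ => by
    rw [smul_add, hEfix σ hσ, hD0fix σ hσ]
  have hEsimp : 2 • fibK.dd - E = 2 • D0 + X0 := by rw [hEdef]; abel
  have hFsimp : 2 • fibK.dd - (E + D0) = D0 + X0 := by rw [hEdef]; abel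
  have hGsimp : 3 • fibK.dd - (E + D0) = fibK.dd + D0 + X0 := by rw [hEdef]; abel
  -- the nodal inequalities
  have hD₁le : D₁ ≤ fibk.dd₁ := le_trans (le_add_of_nonneg_right hX₁0) hle₁
  have hD₂le : D₂ ≤ fibk.dd₂ := le_trans (le_add_of_nonneg_right hX₂0) hle₂
  have hU1₁ : fibk.dd₁ - D₁ ≤ 1 • fibk.dd₁ := by rw [one_nsmul]; exact sub_le_self _ hD₁0
  have hU1₂ : fibk.dd₂ - D₂ ≤ 1 • fibk.dd₂ := by rw [one_nsmul]; exact sub_le_self _ hD₂0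
  have hUE₁ : 2 • D₁ + X₁ ≤ 2 • fibk.dd₁ := by
    rw [two_nsmul, two_nsmul, add_assoc]; exact add_le_add hD₁le hle₁
  have hUE₂ : 2 • D₂ + X₂ ≤ 2 • fibk.dd₂ := by
    rw [two_nsmul, two_nsmul, add_assoc]; exact add_le_add hD₂le hle₂
  have hUF₁ : D₁ + X₁ ≤ 2 • fibk.dd₁ := by
    rw [two_nsmul]; exact le_trans hle₁ (le_add_of_nonneg_right hdd₁0)
  have hUF₂ : D₂ + X₂ ≤ 2 • fibk.dd₂ := by
    rw [two_nsmul]; exact le_trans hle₂ (le_add_of_nonneg_right hdd₂0)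
  have hUG₁ : fibk.dd₁ + D₁ + X₁ ≤ 3 • fibk.dd₁ := by
    rw [succ_nsmul, two_nsmul, add_assoc]
    exact add_le_add (le_add_of_nonneg_right hdd₁0) hle₁
  have hUG₂ : fibk.dd₂ + D₂ + X₂ ≤ 3 • fibk.dd₂ := by
    rw [succ_nsmul, two_nsmul, add_assoc]
    exact add_le_add (le_add_of_nonneg_right hdd₂0) hle₂
  -- the closed subspaces
  set Uk := ttgcU 𝔸 cW fibk 1 (fibk.dd₁ - D₁) (fibk.dd₂ - D₂) with hUkdef
  set UEk := ttgcU 𝔸 cW fibk 2 (2 • D₁ + X₁) (2 • D₂ + X₂) with hUEkdef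
  set UFk := ttgcU 𝔸 cW fibk 2 (D₁ + X₁) (D₂ + X₂) with hUFkdef
  set UGk := ttgcU 𝔸 cW fibk 3 (fibk.dd₁ + D₁ + X₁) (fibk.dd₂ + D₂ + X₂) with hUGkdef
  have hrepU : TtnkRepL fibk 1 Uk (fibk.dd₁ - D₁) (fibk.dd₂ - D₂) :=
    ttgc_repL 𝔸 cW fibk le_rfl (by norm_num) hU1₁ hU1₂
  have hrepE : TtnkRepL fibk 2 UEk (2 • D₁ + X₁) (2 • D₂ + X₂) :=
    ttgc_repL 𝔸 cW fibk (by norm_num) (by norm_num) hUE₁ hUE₂
  have hrepF : TtnkRepL fibk 2 UFk (D₁ + X₁) (D₂ + X₂) :=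
    ttgc_repL 𝔸 cW fibk (by norm_num) (by norm_num) hUF₁ hUF₂
  have hrepG : TtnkRepL fibk 3 UGk (fibk.dd₁ + D₁ + X₁) (fibk.dd₂ + D₂ + X₂) :=
    ttgc_repL 𝔸 cW fibk (by norm_num) (by norm_num) hUG₁ hUG₂
  -- the dimensions of the closed subspaces
  have hUk : (finrank (ResidueField ↥𝔸) Uk : ℤ) = Divisor.degree fibK.dd + 1 - 2 * g := by
    rw [ttnk_repL_finrank_deg fibk le_rfl (by norm_num) hrepU
      (fun s => ttgc_sub_apply_zero (fibk.hdd₁ s) (hD₁ν s))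
      (fun s => ttgc_sub_apply_zero (fibk.hdd₂ s) (hD₂ν s))
      (by rw [map_sub, hD₁deg]; linarith) (by rw [map_sub, hD₂deg]; linarith),
      map_sub, map_sub, hD₁deg, hD₂deg, ← hδ]
    linarith
  have hUEk : (finrank (ResidueField ↥𝔸) UEk : ℤ) = 2 * g + 1 := by
    rw [ttnk_repL_finrank_deg fibk (by norm_num) (by norm_num) hrepE
      (fun s => ttgc_add_apply_zero (ttgc_nsmul_apply_zero 2 (hD₁ν s)) (hX₁ν s))
      (fun s => ttgc_add_apply_zero (ttgc_nsmul_apply_zero 2 (hD₂ν s)) (hX₂ν s))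
      (by rw [map_add, map_nsmul, hD₁deg, hX₁deg]; simp only [nsmul_eq_mul, Nat.cast_ofNat]
          linarith)
      (by rw [map_add, map_nsmul, hD₂deg, hX₂deg]; simp only [nsmul_eq_mul, Nat.cast_ofNat]
          linarith),
      map_add, map_add, map_nsmul, map_nsmul, hD₁deg, hD₂deg, hX₁deg, hX₂deg]
    simp only [nsmul_eq_mul, Nat.cast_ofNat]
    linarith
  have hUFk : (finrank (ResidueField ↥𝔸) UFk : ℤ) = g + 1 := by
    rw [ttnk_repL_finrank_deg fibk (by norm_num) (by norm_num) hrepF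
      (fun s => ttgc_add_apply_zero (hD₁ν s) (hX₁ν s))
      (fun s => ttgc_add_apply_zero (hD₂ν s) (hX₂ν s))
      (by rw [map_add, hD₁deg, hX₁deg]; linarith)
      (by rw [map_add, hD₂deg, hX₂deg]; linarith),
      map_add, map_add, hD₁deg, hD₂deg, hX₁deg, hX₂deg]
    linarith
  have hUGk : (finrank (ResidueField ↥𝔸) UGk : ℤ) = Divisor.degree fibK.dd + g + 1 := by
    rw [ttnk_repL_finrank_deg fibk (by norm_num) (by norm_num) hrepG
      (fun s => ttgc_add_apply_zero (ttgc_add_apply_zero (fibk.hdd₁ s) (hD₁ν s)) (hX₁ν s))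
      (fun s => ttgc_add_apply_zero (ttgc_add_apply_zero (fibk.hdd₂ s) (hD₂ν s)) (hX₂ν s))
      (by rw [map_add, map_add, hD₁deg, hX₁deg]; linarith)
      (by rw [map_add, map_add, hD₂deg, hX₂deg]; linarith),
      map_add, map_add, map_add, map_add, hD₁deg, hD₂deg, hX₁deg, hX₂deg, ← hδ]
    linarith
  -- level one: origin-C5a
  have hspan1 : Submodule.span FfQb (Set.range (fibK.b 1)) = riemannRochSpace fibK.dd := by
    have := fibK.span 1 le_rfl (by norm_num)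
    rwa [one_nsmul] at this
  obtain ⟨dat, -⟩ := ttch_main 𝔸 fibK.RR fibK.hdeg1 X fibK.dd D0 fibK.hdd hD0 hD0deg hD0fix
    (fibK.li 1 le_rfl (by norm_num)) hspan1 (fun σ hσ p => hbfix 1 le_rfl (by norm_num) σ hσ p)
    hddfix Uk hUk Good hbr (fun D hD hdeg hgood v hv => hred1 D hD hdeg hgood v hv) hsemi
  -- the three fixed lattices
  have hdimE : finrank FfQb (ffcdCoord FfQb (fibK.b 2) (2 • fibK.dd - E)) =
      finrank (ResidueField ↥𝔸) UEk := by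
    rw [ffcd_coord_finrank (fibK.li 2 (by norm_num) (by norm_num))
      (fibK.span 2 (by norm_num) (by norm_num)) (sub_le_self _ hE), hEsimp]
    have h1 := ffkm_finrank fibK.RR (A := 2 • D0 + X0) (by
      rw [map_add, map_nsmul, hD0deg, hX0deg]; simp only [nsmul_eq_mul, Nat.cast_ofNat]
      linarith)
    rw [map_add, map_nsmul, hD0deg, hX0deg] at h1
    simp only [nsmul_eq_mul, Nat.cast_ofNat] at h1
    have : (finrank FfQb (riemannRochSpace (2 • D0 + X0)) : ℤ) =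
        (finrank (ResidueField ↥𝔸) UEk : ℤ) := by rw [h1, hUEk]; ring
    exact_mod_cast this
  have hdimF : finrank FfQb (ffcdCoord FfQb (fibK.b 2) (2 • fibK.dd - (E + D0))) =
      finrank (ResidueField ↥𝔸) UFk := by
    rw [ffcd_coord_finrank (fibK.li 2 (by norm_num) (by norm_num))
      (fibK.span 2 (by norm_num) (by norm_num)) (sub_le_self _ hED0), hFsimp]
    have h1 := ffkm_finrank fibK.RR (A := D0 + X0) (by
      rw [map_add, hD0deg, hX0deg]; linarith)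
    rw [map_add, hD0deg, hX0deg] at h1
    have : (finrank FfQb (riemannRochSpace (D0 + X0)) : ℤ) =
        (finrank (ResidueField ↥𝔸) UFk : ℤ) := by rw [h1, hUFk]; ring
    exact_mod_cast this
  have hdimG : finrank FfQb (ffcdCoord FfQb (fibK.b 3) (3 • fibK.dd - (E + D0))) =
      finrank (ResidueField ↥𝔸) UGk := by
    rw [ffcd_coord_finrank (fibK.li 3 (by norm_num) (by norm_num))
      (fibK.span 3 (by norm_num) (by norm_num)) (sub_le_self _ hED0), hGsimp]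
    have h1 := ffkm_finrank fibK.RR (A := fibK.dd + D0 + X0) (by
      rw [map_add, map_add, hD0deg, hX0deg]; linarith)
    rw [map_add, map_add, hD0deg, hX0deg] at h1
    have : (finrank FfQb (riemannRochSpace (fibK.dd + D0 + X0)) : ℤ) =
        (finrank (ResidueField ↥𝔸) UGk : ℤ) := by rw [h1, hUGk]; ring
    exact_mod_cast this
  obtain ⟨JE, ZE, -, -, -, hZEfix, hZEgen, hZEspec⟩ := ttco_fixed 𝔸 (Gam := Gam)
    (fibK.span 2 (by norm_num) (by norm_num))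
    (fun σ hσ p => hbfix 2 (by norm_num) (by norm_num) σ hσ p) h2ddfix hE hEfix UEk hdimE
    (fun v hv => by rw [hEsimp] at hv; exact hredE v hv)
  obtain ⟨JF, ZF, -, -, -, hZFfix, hZFgen, hZFspec⟩ := ttco_fixed 𝔸 (Gam := Gam)
    (fibK.span 2 (by norm_num) (by norm_num))
    (fun σ hσ p => hbfix 2 (by norm_num) (by norm_num) σ hσ p) h2ddfix hED0 hED0fix UFk hdimF
    (fun v hv => by rw [hFsimp] at hv; exact hredF v hv)
  obtain ⟨JG, ZG, -, -, -, hZGfix, hZGgen, hZGspec⟩ := ttco_fixed 𝔸 (Gam := Gam)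
    (fibK.span 3 (by norm_num) (by norm_num))
    (fun σ hσ p => hbfix 3 (by norm_num) le_rfl σ hσ p) h3ddfix hED0 hED0fix UGk hdimG
    (fun v hv => by rw [hGsimp] at hv; exact hredG v hv)
  -- the closed fibre
  obtain ⟨hcl, hN2⟩ := ttnk_closed fibk ⟨Uk, Uk, UEk, UFk, UGk⟩ D₁ X₁ D₂ X₂ hs hdd₁0 hdd₂0
    hD₁0 hX₁0 hD₂0 hX₂0 hD₁deg hX₁deg hD₂deg hX₂deg hD₁ν hX₁ν hD₂ν hX₂ν hD hX hδ₁ hδ₂
    hrepU hrepU hrepE hrepF hrepG (Divisor.degree fibK.dd) hδ g hg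
  -- the junction
  exact ttgo_out 𝔸 cW fibK X D0 E hE hEdeg hD0 hD0deg Uk dat act hact
    JE ZE hZEfix hZEgen UEk hZEspec JF ZF hZFfix hZFgen UFk hZFspec
    JG ZG hZGfix hZGgen UGk hZGspec hcl hN2

end Chain

end Fermat.Agent.TT
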