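import Fermat.Agent.TT.Geom.Chain
import Fermat.Agent.TT.Geom.Origin

/-!
# Program TT (S33), assembly of (A): the chain AT THE ORIGIN DATA

Owner: helper13.  Namespace `Fermat.Agent.TT`, prefix `ttgn`.

helper10's `ttgc_chain` (everything downstream of the model) asks some forty hypotheses on the
origin divisors of the two fibres.  Here they are all discharged from helper26's origin data
`C : TtgrClosed ν₁ ν₂ g₁ g₂ T₁ T₂ m` (`TT/Geom/Origin.lean`) and the lift maps `l₁`, `l₂`: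

* generic fibre: `𝔡 := C.dd l₁ l₂`, `D0 := C.D0 l₁ l₂`, `X0 := C.X0 l₁ l₂` (the lifts);
* nodal fibre: `(C.D₁, C.D₂)`, `(C.X₁, C.X₂)`, `(C.dd₁, C.dd₂)`.

What remains: the two fibres of the engine sitting at these data (`fibK.dd = 𝔡`,
`fibk.dd_j = C.dd_j`, `fibk.ν_j = ν_j`: the output of `tte_model` / `ttgr_model`), the invariance
of the bases and of the lifted points, the genus identity, the threshold `5(g₁ + g₂ + #S) ≤ m`,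
the bridge (`Good`, `hbr`), (H2), (R-in) at level one for good divisors, and ONE uniform
(R-in) for LIFTS: integral sections of `L(ttgrLift l₁ l₂ A₁ A₂)` reduce into `L̃(A₁, A₂)`.

* `ttgn_chain`     : (R-in) in the coordinate form of `ttgc_chain`;
* `ttgn_coord`     : from sections `x ∈ O` to integral coordinate vectors (on `TtbRed 𝔸 O red`);
* `ttgn_chain_red` : (R-in) in the section form `x ∈ O`, `(x : F) ∈ L(..) → red x ∈ L̃(..)`, for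
  bases `fibK.b i p = b i p`, `fibk.coord.b i p = red (b i p)` (the shape of `ttgr_model`).
-/

set_option autoImplicit false
set_option linter.unusedSectionVars false
set_option linter.unusedVariables false

noncomputable section

namespace Fermat.Agent.TT

open Fermat.Agent.FF AlgebraicCurve IsLocalRing Module Fermat.Agent.V.RR

section ChainInst

variable (𝔸 : ValuationSubring FfQb) {F : Type} [Field F] [Algebra FfQb F]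
  {F₁ F₂ : Type} [Field F₁] [Field F₂] [Algebra (ResidueField ↥𝔸) F₁]
  [Algebra (ResidueField ↥𝔸) F₂]
  {ι : ℕ → Type} [∀ i, Fintype (ι i)] [∀ i, DecidableEq (ι i)]
  (cW : ∀ i j k : ℕ, ι i → ι j → ι k → FfcoW 𝔸) {g g₁ g₂ : ℕ} {S : Type} [Fintype S]
  (fibK : FffmFib ι FfQb F g
    (fun i j k p q s => ((algebraMap (FfcoW 𝔸) ↥𝔸 (cW i j k p q s) : ↥𝔸) : FfQb)))
  (fibk : TtnkFib ι (ResidueField ↥𝔸) F₁ F₂ g₁ g₂ S (ttgoTabk 𝔸 cW))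

/-- **the chain at the origin data**: `TtConnOut` for `X` from the two fibres of the model at
helper26's origin data, the bridge, (H2), (R-in) at level one and the uniform (R-in) for lifts. -/
theorem ttgn_chain {Gam : Subgroup (SemilinearAut FfQb F)} (X : AddSubgroup (Pic0 FfQb F))
    [Finite X]
    {ν₁ : S → Place (ResidueField ↥𝔸) F₁} {ν₂ : S → Place (ResidueField ↥𝔸) F₂}
    {T₁ : Finset (Place (ResidueField ↥𝔸) F₁)} {T₂ : Finset (Place (ResidueField ↥𝔸) F₂)}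
    {m : ℕ} (C : TtgrClosed ν₁ ν₂ g₁ g₂ T₁ T₂ m)
    (l₁ : Place (ResidueField ↥𝔸) F₁ → Place FfQb F)
    (l₂ : Place (ResidueField ↥𝔸) F₂ → Place FfQb F)
    -- the threshold, the nodes, the genus identity
    (hm : 5 * (g₁ + g₂ + Fintype.card S) ≤ m) (hs : 1 ≤ Fintype.card S)
    (hg : g + 1 = g₁ + g₂ + Fintype.card S)
    -- the lifted good points are fixed
    (hfix₁ : ∀ Q : Place (ResidueField ↥𝔸) F₁, Q ∉ T₁ → (∀ s, Q ≠ ν₁ s) →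
      ∀ σ ∈ Gam, σ • l₁ Q = l₁ Q)
    (hfix₂ : ∀ Q : Place (ResidueField ↥𝔸) F₂, Q ∉ T₂ → (∀ s, Q ≠ ν₂ s) →
      ∀ σ ∈ Gam, σ • l₂ Q = l₂ Q)
    -- the two fibres sit at the origin data
    (hKdd : fibK.dd = C.dd l₁ l₂) (hk₁ : fibk.dd₁ = C.dd₁) (hk₂ : fibk.dd₂ = C.dd₂)
    (hν₁ : fibk.ν₁ = ν₁) (hν₂ : fibk.ν₂ = ν₂)
    (hbfix : ∀ i, 1 ≤ i → i ≤ 3 → ∀ σ ∈ Gam, ∀ p, σ • fibK.b i p = fibK.b i p)
    -- the bridge, (R-in) at level one, (H2)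
    (Good : Divisor FfQb F → Prop)
    (hbr : ∀ γ ∈ X, ∃ (Dγ : Divisor FfQb F)
      (hdeg : Dγ - C.D0 l₁ l₂ ∈ Divisor.degZero (K := FfQb) (F := F)),
      0 ≤ Dγ ∧ Pic0.mk ⟨Dγ - C.D0 l₁ l₂, hdeg⟩ = γ ∧ Good Dγ)
    (hred1 : ∀ D : Divisor FfQb F, 0 ≤ D → Divisor.degree D = g → Good D → ∀ v : ι 1 → ↥𝔸,
      (∑ i, ((v i : ↥𝔸) : FfQb) • fibK.b 1 i) ∈ riemannRochSpace (C.dd l₁ l₂ - D) →
      fibk.coord.real 1 (fun i => residue ↥𝔸 (v i)) ∈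
        ttnkL ν₁ ν₂ (C.dd₁ - C.D₁) (C.dd₂ - C.D₂))
    (hsemi : ∀ D : Divisor FfQb F, 0 ≤ D → Divisor.degree D = g → Good D →
      finrank FfQb (riemannRochSpace D) ≤ 1)
    -- the uniform (R-in) for lifts (levels two and three)
    (hin : ∀ i, 2 ≤ i → i ≤ 3 → ∀ (A₁ : Divisor (ResidueField ↥𝔸) F₁)
      (A₂ : Divisor (ResidueField ↥𝔸) F₂), 0 ≤ A₁ → 0 ≤ A₂ → A₁ ≤ i • C.dd₁ → A₂ ≤ i • C.dd₂ →
      (∀ P ∈ T₁, A₁ P = 0) → (∀ s, A₁ (ν₁ s) = 0) →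
      (∀ P ∈ T₂, A₂ P = 0) → (∀ s, A₂ (ν₂ s) = 0) → ∀ v : ι i → ↥𝔸,
      (∑ p, ((v p : ↥𝔸) : FfQb) • fibK.b i p) ∈ riemannRochSpace (ttgrLift l₁ l₂ A₁ A₂) →
      fibk.coord.real i (fun p => residue ↥𝔸 (v p)) ∈ ttnkL ν₁ ν₂ A₁ A₂)
    -- the action
    (act : ↥(ffI 𝔸) → ↥X → ↥X)
    (hact : ∀ σ : ↥(ffI 𝔸), ∃ τ ∈ Gam,
      (∀ a : FfQb, SemilinearAut.baseAut τ a = (σ : FfGal) a) ∧
      ∀ γ : X, ((act σ γ : X) : Pic0 FfQb F) = τ • (γ : Pic0 FfQb F)) :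
    TtConnOut 𝔸 ↥X act := by
  classical
  subst hν₁ hν₂
  have hdeg := fibK.hdeg1
  have hdeg₁ := fibk.hdeg1₁
  have hdeg₂ := fibk.hdeg1₂
  have hf₁ : ∀ σ ∈ Gam, ∀ Q : Place (ResidueField ↥𝔸) F₁, Q ∉ T₁ → (∀ s, Q ≠ fibk.ν₁ s) →
      σ • l₁ Q = l₁ Q := fun σ hσ Q hQ hν => hfix₁ Q hQ hν σ hσ
  have hf₂ : ∀ σ ∈ Gam, ∀ Q : Place (ResidueField ↥𝔸) F₂, Q ∉ T₂ → (∀ s, Q ≠ fibk.ν₂ s) →
      σ • l₂ Q = l₂ Q := fun σ hσ Q hQ hν => hfix₂ Q hQ hν σ hσ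
  have hm' : 5 * ((g₁ : ℤ) + g₂ + Fintype.card S) ≤ (m : ℤ) := by
    have h2 : ((5 * (g₁ + g₂ + Fintype.card S) : ℕ) : ℤ) ≤ (m : ℤ) := by exact_mod_cast hm
    push_cast at h2
    exact h2
  have hg₁0 : (0 : ℤ) ≤ g₁ := Int.natCast_nonneg g₁
  have hg₂0 : (0 : ℤ) ≤ g₂ := Int.natCast_nonneg g₂
  have hS0 : (0 : ℤ) ≤ Fintype.card S := Int.natCast_nonneg _
  have hdd₁0 : 0 ≤ C.dd₁ := ttgr_dd₁_nonneg C
  have hdd₂0 : 0 ≤ C.dd₂ := ttgr_dd₂_nonneg C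
  have hD₁le : C.D₁ ≤ C.dd₁ := le_trans (le_add_of_nonneg_right C.hX₁0) C.hle₁
  have hD₂le : C.D₂ ≤ C.dd₂ := le_trans (le_add_of_nonneg_right C.hX₂0) C.hle₂
  refine ttgc_chain 𝔸 cW fibK fibk X hbfix ?_ (C.D0 l₁ l₂) (C.X0 l₁ l₂)
    (ttgr_D0_nonneg C l₁ l₂) (ttgr_D0_degree C l₁ l₂ hdeg hdeg₁ hdeg₂ hg)
    (fun σ hσ => ttgr_D0_fixed C l₁ l₂ σ (hf₁ σ hσ) (hf₂ σ hσ))
    (ttgr_X0_nonneg C l₁ l₂) (ttgr_X0_degree C l₁ l₂ hdeg hdeg₁ hdeg₂ hg)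
    (fun σ hσ => ttgr_X0_fixed C l₁ l₂ σ (hf₁ σ hσ) (hf₂ σ hσ))
    ?_ C.D₁ C.X₁ C.D₂ C.X₂ hs ?_ ?_ C.hD₁0 C.hX₁0 C.hD₂0 C.hX₂0
    C.hD₁deg C.hX₁deg C.hD₂deg C.hX₂deg C.hD₁ν C.hX₁ν C.hD₂ν C.hX₂ν C.hD C.hX
    ?_ ?_ ?_ ?_ ?_ hg Good hbr ?_ hsemi ?_ ?_ ?_ act hact
  · -- hddfix
    intro σ hσ
    rw [hKdd]
    exact ttgr_dd_fixed C l₁ l₂ σ (hf₁ σ hσ) (hf₂ σ hσ)
  · -- hle
    rw [hKdd]
    exact ttgr_D0_add_X0_le C l₁ l₂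
  · rw [hk₁]; exact hdd₁0
  · rw [hk₂]; exact hdd₂0
  · -- hδ₁
    rw [hk₁]
    have := C.hm₁
    linarith
  · -- hδ₂
    rw [hk₂]
    have := C.hm₂
    linarith
  · rw [hk₁]; exact C.hle₁
  · rw [hk₂]; exact C.hle₂
  · -- hδ
    rw [hk₁, hk₂, hKdd]
    exact (ttgr_dd_degree C l₁ l₂ hdeg hdeg₁ hdeg₂).symm
  · -- hred1
    rw [hKdd, hk₁, hk₂]
    exact hred1
  · -- hredE
    intro v hv
    rw [ttgr_two_D0_add_X0] at hv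
    refine hin 2 le_rfl (by norm_num) _ _
      (add_nonneg (nsmul_nonneg C.hD₁0 2) C.hX₁0) (add_nonneg (nsmul_nonneg C.hD₂0 2) C.hX₂0)
      ?_ ?_
      (fun P hP => ttgc_add_apply_zero (ttgc_nsmul_apply_zero 2 (C.hD₁T P hP)) (C.hX₁T P hP))
      (fun s => ttgc_add_apply_zero (ttgc_nsmul_apply_zero 2 (C.hD₁ν s)) (C.hX₁ν s))
      (fun P hP => ttgc_add_apply_zero (ttgc_nsmul_apply_zero 2 (C.hD₂T P hP)) (C.hX₂T P hP))
      (fun s => ttgc_add_apply_zero (ttgc_nsmul_apply_zero 2 (C.hD₂ν s)) (C.hX₂ν s)) v hv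
    · rw [two_nsmul, two_nsmul, add_assoc]; exact add_le_add hD₁le C.hle₁
    · rw [two_nsmul, two_nsmul, add_assoc]; exact add_le_add hD₂le C.hle₂
  · -- hredF
    intro v hv
    rw [ttgr_D0_add_X0] at hv
    refine hin 2 le_rfl (by norm_num) _ _
      (add_nonneg C.hD₁0 C.hX₁0) (add_nonneg C.hD₂0 C.hX₂0) ?_ ?_
      (fun P hP => ttgc_add_apply_zero (C.hD₁T P hP) (C.hX₁T P hP))
      (fun s => ttgc_add_apply_zero (C.hD₁ν s) (C.hX₁ν s))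
      (fun P hP => ttgc_add_apply_zero (C.hD₂T P hP) (C.hX₂T P hP))
      (fun s => ttgc_add_apply_zero (C.hD₂ν s) (C.hX₂ν s)) v hv
    · rw [two_nsmul]; exact le_trans C.hle₁ (le_add_of_nonneg_right hdd₁0)
    · rw [two_nsmul]; exact le_trans C.hle₂ (le_add_of_nonneg_right hdd₂0)
  · -- hredG
    intro v hv
    rw [hKdd, ttgr_dd_add_D0_add_X0] at hv
    rw [hk₁, hk₂]
    refine hin 3 (by norm_num) le_rfl _ _
      (add_nonneg (add_nonneg hdd₁0 C.hD₁0) C.hX₁0) (add_nonneg (add_nonneg hdd₂0 C.hD₂0) C.hX₂0)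
      ?_ ?_
      (fun P hP => ttgc_add_apply_zero (ttgc_add_apply_zero (C.hdd₁T P hP) (C.hD₁T P hP))
        (C.hX₁T P hP))
      (fun s => ttgc_add_apply_zero (ttgc_add_apply_zero (C.hdd₁ν s) (C.hD₁ν s)) (C.hX₁ν s))
      (fun P hP => ttgc_add_apply_zero (ttgc_add_apply_zero (C.hdd₂T P hP) (C.hD₂T P hP))
        (C.hX₂T P hP))
      (fun s => ttgc_add_apply_zero (ttgc_add_apply_zero (C.hdd₂ν s) (C.hD₂ν s)) (C.hX₂ν s)) v hv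
    · rw [succ_nsmul, two_nsmul, add_assoc]
      exact add_le_add (le_add_of_nonneg_right hdd₁0) C.hle₁
    · rw [succ_nsmul, two_nsmul, add_assoc]
      exact add_le_add (le_add_of_nonneg_right hdd₂0) C.hle₂

/-! ### the section form of (R-in) on the two-valuation layer -/

/-- from sections to integral coordinate vectors: if the sections of `Y ∩ O` reduce into `Lk`,
then the integral coordinate vectors of `Y` at level `i` reduce into `Lk` (bases `b i p ∈ O` of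
the generic fibre, `red (b i p)` of the closed fibre). -/
theorem ttgn_coord {O : Subring F} {red : O →+* F₁ × F₂} (h : TtbRed 𝔸 O red) {i : ℕ}
    (b : ι i → O) (hbK : fibK.b i = fun p => ((b p : O) : F))
    (hbk : fibk.coord.b i = fun p => red (b p))
    (Y : Submodule FfQb F) (Lk : Submodule (ResidueField ↥𝔸) (F₁ × F₂))
    (hin : ∀ x : O, (x : F) ∈ Y → red x ∈ Lk) (v : ι i → ↥𝔸)
    (hv : (∑ p, ((v p : ↥𝔸) : FfQb) • fibK.b i p) ∈ Y) :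
    fibk.coord.real i (fun p => residue ↥𝔸 (v p)) ∈ Lk := by
  rw [hbK] at hv
  have hmem : (∑ p, ((v p : ↥𝔸) : FfQb) • ((b p : O) : F)) ∈ O := by
    refine O.sum_mem fun p _ => ?_
    rw [Algebra.smul_def]
    exact O.mul_mem (h.const_mem (v p)) (b p).2
  rw [TtnkCoord.real_apply, hbk]
  have e := ttb_coord_red h b v hmem
  rw [← e]
  exact hin ⟨_, hmem⟩ hv

/-- **the chain at the origin data, section form**: as `ttgn_chain`, with (R-in) stated for the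
sections `x ∈ O` of the two-valuation layer `TtbRed 𝔸 O red` and bases `fibK.b i p = b i p`,
`fibk.coord.b i p = red (b i p)` (the shape of the conclusion of `ttgr_model`). -/
theorem ttgn_chain_red {Gam : Subgroup (SemilinearAut FfQb F)} (X : AddSubgroup (Pic0 FfQb F))
    [Finite X] {O : Subring F} {red : O →+* F₁ × F₂} (h : TtbRed 𝔸 O red)
    (b : ∀ i, ι i → O) (hbK : ∀ i, fibK.b i = fun p => ((b i p : O) : F))
    (hbk : ∀ i, fibk.coord.b i = fun p => red (b i p))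
    {ν₁ : S → Place (ResidueField ↥𝔸) F₁} {ν₂ : S → Place (ResidueField ↥𝔸) F₂}
    {T₁ : Finset (Place (ResidueField ↥𝔸) F₁)} {T₂ : Finset (Place (ResidueField ↥𝔸) F₂)}
    {m : ℕ} (C : TtgrClosed ν₁ ν₂ g₁ g₂ T₁ T₂ m)
    (l₁ : Place (ResidueField ↥𝔸) F₁ → Place FfQb F)
    (l₂ : Place (ResidueField ↥𝔸) F₂ → Place FfQb F)
    (hm : 5 * (g₁ + g₂ + Fintype.card S) ≤ m) (hs : 1 ≤ Fintype.card S)
    (hg : g + 1 = g₁ + g₂ + Fintype.card S)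
    (hfix₁ : ∀ Q : Place (ResidueField ↥𝔸) F₁, Q ∉ T₁ → (∀ s, Q ≠ ν₁ s) →
      ∀ σ ∈ Gam, σ • l₁ Q = l₁ Q)
    (hfix₂ : ∀ Q : Place (ResidueField ↥𝔸) F₂, Q ∉ T₂ → (∀ s, Q ≠ ν₂ s) →
      ∀ σ ∈ Gam, σ • l₂ Q = l₂ Q)
    (hKdd : fibK.dd = C.dd l₁ l₂) (hk₁ : fibk.dd₁ = C.dd₁) (hk₂ : fibk.dd₂ = C.dd₂)
    (hν₁ : fibk.ν₁ = ν₁) (hν₂ : fibk.ν₂ = ν₂)
    (hbfix : ∀ i, 1 ≤ i → i ≤ 3 → ∀ σ ∈ Gam, ∀ p, σ • fibK.b i p = fibK.b i p)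
    (Good : Divisor FfQb F → Prop)
    (hbr : ∀ γ ∈ X, ∃ (Dγ : Divisor FfQb F)
      (hdeg : Dγ - C.D0 l₁ l₂ ∈ Divisor.degZero (K := FfQb) (F := F)),
      0 ≤ Dγ ∧ Pic0.mk ⟨Dγ - C.D0 l₁ l₂, hdeg⟩ = γ ∧ Good Dγ)
    (hin1 : ∀ D : Divisor FfQb F, 0 ≤ D → Divisor.degree D = g → Good D → ∀ x : O,
      (x : F) ∈ riemannRochSpace (C.dd l₁ l₂ - D) →
      red x ∈ ttnkL ν₁ ν₂ (C.dd₁ - C.D₁) (C.dd₂ - C.D₂))
    (hsemi : ∀ D : Divisor FfQb F, 0 ≤ D → Divisor.degree D = g → Good D →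
      finrank FfQb (riemannRochSpace D) ≤ 1)
    (hinL : ∀ (A₁ : Divisor (ResidueField ↥𝔸) F₁) (A₂ : Divisor (ResidueField ↥𝔸) F₂),
      0 ≤ A₁ → 0 ≤ A₂ → (∀ P ∈ T₁, A₁ P = 0) → (∀ s, A₁ (ν₁ s) = 0) →
      (∀ P ∈ T₂, A₂ P = 0) → (∀ s, A₂ (ν₂ s) = 0) → ∀ x : O,
      (x : F) ∈ riemannRochSpace (ttgrLift l₁ l₂ A₁ A₂) → red x ∈ ttnkL ν₁ ν₂ A₁ A₂)
    (act : ↥(ffI 𝔸) → ↥X → ↥X)
    (hact : ∀ σ : ↥(ffI 𝔸), ∃ τ ∈ Gam,
      (∀ a : FfQb, SemilinearAut.baseAut τ a = (σ : FfGal) a) ∧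
      ∀ γ : X, ((act σ γ : X) : Pic0 FfQb F) = τ • (γ : Pic0 FfQb F)) :
    TtConnOut 𝔸 ↥X act :=
  ttgn_chain 𝔸 cW fibK fibk X C l₁ l₂ hm hs hg hfix₁ hfix₂ hKdd hk₁ hk₂ hν₁ hν₂ hbfix Good hbr
    (fun D hD hdeg hgood v hv => ttgn_coord 𝔸 cW fibK fibk h (b 1) (hbK 1) (hbk 1) _ _
      (hin1 D hD hdeg hgood) v hv)
    hsemi
    (fun i _ _ A₁ A₂ h₁ h₂ _ _ hT₁ hN₁ hT₂ hN₂ v hv =>
      ttgn_coord 𝔸 cW fibK fibk h (b i) (hbK i) (hbk i) _ _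
        (hinL A₁ A₂ h₁ h₂ hT₁ hN₁ hT₂ hN₂) v hv)
    act hact

end ChainInst

end Fermat.Agent.TT
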