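import Fermat.Agent.TT.Geom.Push
import Fermat.Agent.TT.Alpha.BridgeInto

/-!
# PROGRAM TT (S33), leaf (RED2): the field `into` of `TtgModel` from helper23's `ttri_into`

Owner: helper24.  Namespace `Fermat.Agent.TT`, prefix `ttg`.

For the CONCRETE class map `ttalCls T₁ T₂ r₁ r₂` (helper29, `TT/Alpha/BridgeInst.lean`: `T_j v` =
"`v` is a good place of the component `j`", `r_j` the reduction of places, `none` at the bad
places):

* `ttgPush₁_cls`, `ttgPush₂_cls` : `ttgPush_j (ttalCls T₁ T₂ r₁ r₂) D = mapDomain r_j (D.filter T_j)`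
  (the two reductions of `TT/Geom/Spec.lean` ARE the push-forwards of `ttri_into`);
* **`ttg_into_of_ttri`** : the field `into` of `TtgModel` VERBATIM (Spec bump #2) from the
  hypotheses of `ttri_into` (local packages `TtriPt` at every non-node closed point, the node
  packages, `r_j` of a good place is not a node) + "the places centred at a node are bad".
-/

set_option autoImplicit false
set_option linter.unusedSectionVars false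
set_option linter.unusedVariables false

noncomputable section

namespace Fermat.Agent.TT

open AlgebraicCurve IsLocalRing Classical Fermat.Agent.G Fermat.Agent.S24 Fermat.Agent.FF

variable {K : Type*} [Field K] {A : ValuationSubring K} {F : Type*} [Field F] [Algebra K F]
variable {F₁ F₂ : Type*} [Field F₁] [Field F₂] [Algebra (ResidueField A) F₁]
  [Algebra (ResidueField A) F₂]

/-- the first reduction through the concrete class map is the push-forward of the `T₁`-part. -/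
theorem ttgPush₁_cls (T₁ T₂ : Place K F → Prop) (r₁ : Place K F → Place (ResidueField A) F₁)
    (r₂ : Place K F → Place (ResidueField A) F₂) (D : Divisor K F) :
    ttgPush₁ (ttalCls T₁ T₂ r₁ r₂) D = Finsupp.mapDomain r₁ (D.filter T₁) := by
  ext Q
  rw [ttgPush₁_apply, ttal_cls_apply₁, ttal_mapDomain_filter_apply]

/-- the second reduction through the concrete class map is the push-forward of the `T₂`-part. -/
theorem ttgPush₂_cls (T₁ T₂ : Place K F → Prop) (hT : ∀ v, T₁ v → ¬ T₂ v)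
    (r₁ : Place K F → Place (ResidueField A) F₁)
    (r₂ : Place K F → Place (ResidueField A) F₂) (D : Divisor K F) :
    ttgPush₂ (ttalCls T₁ T₂ r₁ r₂) D = Finsupp.mapDomain r₂ (D.filter T₂) := by
  ext Q
  rw [ttgPush₂_apply, ttal_cls_apply₂ T₁ T₂ hT, ttal_mapDomain_filter_apply]

theorem ttal_cls_eq_none {α β₁ β₂ : Type*} {T₁ T₂ : α → Prop} {r₁ : α → β₁} {r₂ : α → β₂}
    {v : α} (h₁ : ¬ T₁ v) (h₂ : ¬ T₂ v) : ttalCls T₁ T₂ r₁ r₂ v = none := by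
  unfold ttalCls
  rw [if_neg h₁, if_neg h₂]

variable {ι : Type*}

/-- **the field `into` of `TtgModel` from `ttri_into`.** -/
theorem ttg_into_of_ttri [Fintype ι] (V₁ V₂ : ValuationSubring F)
    (red₁ : ↥V₁.toSubring →+* F₁) (red₂ : ↥V₂.toSubring →+* F₂)
    (T₁ T₂ : Place K F → Prop) (hT : ∀ v, T₁ v → ¬ T₂ v)
    (r₁ : Place K F → Place (ResidueField A) F₁)
    (r₂ : Place K F → Place (ResidueField A) F₂)
    (ν₁ : ι → Place (ResidueField A) F₁) (ν₂ : ι → Place (ResidueField A) F₂)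
    (cenN : ι → Place K F → Prop) (hcenN : ∀ i v, cenN i v → ¬ T₁ v ∧ ¬ T₂ v)
    (hpt₁ : ∀ Q : Place (ResidueField A) F₁, (∃ i, ν₁ i = Q) ∨
      ∃ (B : Subring F) (hBO : B ≤ V₁.toSubring ⊓ V₂.toSubring),
        TtriPt A (V₁.toSubring ⊓ V₂.toSubring) B hBO (ttalRedO₁ red₁)
          (fun v => T₁ v ∧ r₁ v = Q) Q)
    (hpt₂ : ∀ Q : Place (ResidueField A) F₂, (∃ i, ν₂ i = Q) ∨
      ∃ (B : Subring F) (hBO : B ≤ V₁.toSubring ⊓ V₂.toSubring),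
        TtriPt A (V₁.toSubring ⊓ V₂.toSubring) B hBO (ttalRedO₂ red₂)
          (fun v => T₂ v ∧ r₂ v = Q) Q)
    (hN : ∀ i, ∃ (B : Subring F) (hBO : B ≤ V₁.toSubring ⊓ V₂.toSubring),
      (∀ x ∈ V₁.toSubring ⊓ V₂.toSubring, (∀ v, cenN i v → x ∈ v.toValuationSubring) →
        ∃ s : B, ¬ GrdVal (ν₁ i) (ttalRedO₁ (V₂ := V₂) red₁ ⟨s, hBO s.2⟩) 0 ∧ (s : F) * x ∈ B) ∧
      ∀ b : B, ∃ c : ResidueField A,
        GrdVal (ν₁ i) (ttalRedO₁ (V₂ := V₂) red₁ ⟨b, hBO b.2⟩) c ∧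
          GrdVal (ν₂ i) (ttalRedO₂ (V₁ := V₁) red₂ ⟨b, hBO b.2⟩) c)
    (hrν₁ : ∀ v i, T₁ v → r₁ v ≠ ν₁ i) (hrν₂ : ∀ v i, T₂ v → r₂ v ≠ ν₂ i) :
    ∀ D : Divisor K F, (∀ P, D P ≠ 0 → ttalCls T₁ T₂ r₁ r₂ P ≠ none) → (∀ P, -1 ≤ D P) →
      (∀ P P' : Place K F, ttalCls T₁ T₂ r₁ r₂ P = ttalCls T₁ T₂ r₁ r₂ P' →
        D P < 0 → D P' < 0 → P = P') →
      ∀ (x : F) (h₁ : x ∈ V₁) (h₂ : x ∈ V₂), x ∈ riemannRochSpace D →
        (red₁ ⟨x, h₁⟩, red₂ ⟨x, h₂⟩) ∈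
          ttnkL ν₁ ν₂ (ttgPush₁ (ttalCls T₁ T₂ r₁ r₂) D) (ttgPush₂ (ttalCls T₁ T₂ r₁ r₂) D) := by
  intro D hsupp hneg hone x h₁ h₂ hx
  by_cases hx0 : x = 0
  · subst hx0
    have e₁ : red₁ ⟨0, h₁⟩ = 0 := map_zero red₁
    have e₂ : red₂ ⟨0, h₂⟩ = 0 := map_zero red₂
    rw [e₁, e₂]
    exact Submodule.zero_mem _
  have hxO : x ∈ V₁.toSubring ⊓ V₂.toSubring := ⟨h₁, h₂⟩
  have hbad : ∀ v, ¬ T₁ v → ¬ T₂ v → D v = 0 := by
    intro v hv₁ hv₂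
    by_contra hne
    exact hsupp v hne (ttal_cls_eq_none hv₁ hv₂)
  obtain ⟨k1, k2, k3⟩ := ttri_into (A := A) (V₁.toSubring ⊓ V₂.toSubring) (ttalRedO₁ red₁)
    (ttalRedO₂ red₂) T₁ T₂ r₁ r₂ ν₁ ν₂ cenN hpt₁ hpt₂ hN hrν₁ hrν₂ hxO hx0 D
    (fun v => (ffkm_mem_iff hx0).mp hx v)
    (fun i v hv => by rw [hbad v (hcenN i v hv).1 (hcenN i v hv).2])
    (fun v _ => hneg v) (fun v _ => hneg v)
    (fun v w hv hw hr hDv hDw => hone v w (by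
      rw [ttal_cls_eq_inl.mpr ⟨hv, rfl⟩, ttal_cls_eq_inl.mpr ⟨hw, rfl⟩, hr]) hDv hDw)
    (fun v w hv hw hr hDv hDw => hone v w (by
      rw [(ttal_cls_eq_inr hT).mpr ⟨hv, rfl⟩, (ttal_cls_eq_inr hT).mpr ⟨hw, rfl⟩, hr]) hDv hDw)
  rw [ttgPush₁_cls, ttgPush₂_cls T₁ T₂ hT]
  exact ⟨k1, k2, k3⟩

/-- **the field `into` of `TtgModel` from `ttri_into`, general form**: the class map is built on
SMALLER predicates `T₁' ⊆ T₁`, `T₂' ⊆ T₂` (the good places of `ttrpCls`), while `ttri_into` runs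
with `T₁`, `T₂` (ALL the places centred at one-branch closed points, e.g. also the ordinary
`𝔽_{p²}`-points and the cusps, where `cls = none`). -/
theorem ttg_into_of_ttri' [Fintype ι] (V₁ V₂ : ValuationSubring F)
    (red₁ : ↥V₁.toSubring →+* F₁) (red₂ : ↥V₂.toSubring →+* F₂)
    (T₁ T₂ : Place K F → Prop) (hT : ∀ v, T₁ v → ¬ T₂ v)
    (T₁' T₂' : Place K F → Prop) (hsub₁ : ∀ v, T₁' v → T₁ v) (hsub₂ : ∀ v, T₂' v → T₂ v)
    (r₁ : Place K F → Place (ResidueField A) F₁)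
    (r₂ : Place K F → Place (ResidueField A) F₂)
    (ν₁ : ι → Place (ResidueField A) F₁) (ν₂ : ι → Place (ResidueField A) F₂)
    (cenN : ι → Place K F → Prop) (hcenN : ∀ i v, cenN i v → ¬ T₁' v ∧ ¬ T₂' v)
    (hpt₁ : ∀ Q : Place (ResidueField A) F₁, (∃ i, ν₁ i = Q) ∨
      ∃ (B : Subring F) (hBO : B ≤ V₁.toSubring ⊓ V₂.toSubring),
        TtriPt A (V₁.toSubring ⊓ V₂.toSubring) B hBO (ttalRedO₁ red₁)
          (fun v => T₁ v ∧ r₁ v = Q) Q)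
    (hpt₂ : ∀ Q : Place (ResidueField A) F₂, (∃ i, ν₂ i = Q) ∨
      ∃ (B : Subring F) (hBO : B ≤ V₁.toSubring ⊓ V₂.toSubring),
        TtriPt A (V₁.toSubring ⊓ V₂.toSubring) B hBO (ttalRedO₂ red₂)
          (fun v => T₂ v ∧ r₂ v = Q) Q)
    (hN : ∀ i, ∃ (B : Subring F) (hBO : B ≤ V₁.toSubring ⊓ V₂.toSubring),
      (∀ x ∈ V₁.toSubring ⊓ V₂.toSubring, (∀ v, cenN i v → x ∈ v.toValuationSubring) →
        ∃ s : B, ¬ GrdVal (ν₁ i) (ttalRedO₁ (V₂ := V₂) red₁ ⟨s, hBO s.2⟩) 0 ∧ (s : F) * x ∈ B) ∧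
      ∀ b : B, ∃ c : ResidueField A,
        GrdVal (ν₁ i) (ttalRedO₁ (V₂ := V₂) red₁ ⟨b, hBO b.2⟩) c ∧
          GrdVal (ν₂ i) (ttalRedO₂ (V₁ := V₁) red₂ ⟨b, hBO b.2⟩) c)
    (hrν₁ : ∀ v i, T₁ v → r₁ v ≠ ν₁ i) (hrν₂ : ∀ v i, T₂ v → r₂ v ≠ ν₂ i) :
    ∀ D : Divisor K F, (∀ P, D P ≠ 0 → ttalCls T₁' T₂' r₁ r₂ P ≠ none) → (∀ P, -1 ≤ D P) →
      (∀ P P' : Place K F, ttalCls T₁' T₂' r₁ r₂ P = ttalCls T₁' T₂' r₁ r₂ P' →
        D P < 0 → D P' < 0 → P = P') →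
      ∀ (x : F) (h₁ : x ∈ V₁) (h₂ : x ∈ V₂), x ∈ riemannRochSpace D →
        (red₁ ⟨x, h₁⟩, red₂ ⟨x, h₂⟩) ∈
          ttnkL ν₁ ν₂ (ttgPush₁ (ttalCls T₁' T₂' r₁ r₂) D)
            (ttgPush₂ (ttalCls T₁' T₂' r₁ r₂) D) := by
  intro D hsupp hneg hone x h₁ h₂ hx
  by_cases hx0 : x = 0
  · subst hx0
    have e₁ : red₁ ⟨0, h₁⟩ = 0 := map_zero red₁
    have e₂ : red₂ ⟨0, h₂⟩ = 0 := map_zero red₂
    rw [e₁, e₂]
    exact Submodule.zero_mem _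
  have hT' : ∀ v, T₁' v → ¬ T₂' v := fun v h h' => hT v (hsub₁ v h) (hsub₂ v h')
  have hxO : x ∈ V₁.toSubring ⊓ V₂.toSubring := ⟨h₁, h₂⟩
  have hbad : ∀ v, ¬ T₁' v → ¬ T₂' v → D v = 0 := by
    intro v hv₁ hv₂
    by_contra hne
    exact hsupp v hne (ttal_cls_eq_none hv₁ hv₂)
  -- a place of `T₁` carrying a nonzero coefficient is a place of `T₁'`
  have hup₁ : ∀ v, T₁ v → D v ≠ 0 → T₁' v := by
    intro v hv hne
    by_contra h1
    exact hne (hbad v h1 fun h2 => hT v hv (hsub₂ v h2))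
  have hup₂ : ∀ v, T₂ v → D v ≠ 0 → T₂' v := by
    intro v hv hne
    by_contra h2
    exact hne (hbad v (fun h1 => hT v (hsub₁ v h1) hv) h2)
  obtain ⟨k1, k2, k3⟩ := ttri_into (A := A) (V₁.toSubring ⊓ V₂.toSubring) (ttalRedO₁ red₁)
    (ttalRedO₂ red₂) T₁ T₂ r₁ r₂ ν₁ ν₂ cenN hpt₁ hpt₂ hN hrν₁ hrν₂ hxO hx0 D
    (fun v => (ffkm_mem_iff hx0).mp hx v)
    (fun i v hv => by rw [hbad v (hcenN i v hv).1 (hcenN i v hv).2])
    (fun v _ => hneg v) (fun v _ => hneg v)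
    (fun v w hv hw hr hDv hDw => hone v w (by
      rw [ttal_cls_eq_inl.mpr ⟨hup₁ v hv hDv.ne, rfl⟩,
        ttal_cls_eq_inl.mpr ⟨hup₁ w hw hDw.ne, rfl⟩, hr]) hDv hDw)
    (fun v w hv hw hr hDv hDw => hone v w (by
      rw [(ttal_cls_eq_inr hT').mpr ⟨hup₂ v hv hDv.ne, rfl⟩,
        (ttal_cls_eq_inr hT').mpr ⟨hup₂ w hw hDw.ne, rfl⟩, hr]) hDv hDw)
  -- the filters by `T_j` and `T_j'` agree on `D`
  have hf₁ : D.filter T₁ = D.filter T₁' := by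
    ext v
    by_cases h : T₁' v
    · rw [Finsupp.filter_apply_pos _ _ h, Finsupp.filter_apply_pos _ _ (hsub₁ v h)]
    · rw [Finsupp.filter_apply_neg _ _ h]
      by_cases hv : T₁ v
      · rw [Finsupp.filter_apply_pos _ _ hv]
        by_contra hne
        exact h (hup₁ v hv hne)
      · rw [Finsupp.filter_apply_neg _ _ hv]
  have hf₂ : D.filter T₂ = D.filter T₂' := by
    ext v
    by_cases h : T₂' v
    · rw [Finsupp.filter_apply_pos _ _ h, Finsupp.filter_apply_pos _ _ (hsub₂ v h)]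
    · rw [Finsupp.filter_apply_neg _ _ h]
      by_cases hv : T₂ v
      · rw [Finsupp.filter_apply_pos _ _ hv]
        by_contra hne
        exact h (hup₂ v hv hne)
      · rw [Finsupp.filter_apply_neg _ _ hv]
  rw [ttgPush₁_cls, ttgPush₂_cls T₁' T₂' hT', ← hf₁, ← hf₂]
  exact ⟨k1, k2, k3⟩

/-- **the field `into` of `TtgModel` from `ttri_into`, MIXED form** (helper23's simplification):
as `ttg_into_of_ttri'`, but the disjointness `T₁ ∩ T₂ = ∅` of the BIG predicates is replaced by the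
two mixed statements `T₁ ∩ T₂' = ∅`, `T₂ ∩ T₁' = ∅` (`ttri_into` itself never uses disjointness). -/
theorem ttg_into_of_ttri_mixed [Fintype ι] (V₁ V₂ : ValuationSubring F)
    (red₁ : ↥V₁.toSubring →+* F₁) (red₂ : ↥V₂.toSubring →+* F₂)
    (T₁ T₂ : Place K F → Prop)
    (T₁' T₂' : Place K F → Prop) (hsub₁ : ∀ v, T₁' v → T₁ v) (hsub₂ : ∀ v, T₂' v → T₂ v)
    (hT12 : ∀ v, T₁ v → ¬ T₂' v) (hT21 : ∀ v, T₂ v → ¬ T₁' v)
    (r₁ : Place K F → Place (ResidueField A) F₁)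
    (r₂ : Place K F → Place (ResidueField A) F₂)
    (ν₁ : ι → Place (ResidueField A) F₁) (ν₂ : ι → Place (ResidueField A) F₂)
    (cenN : ι → Place K F → Prop) (hcenN : ∀ i v, cenN i v → ¬ T₁' v ∧ ¬ T₂' v)
    (hpt₁ : ∀ Q : Place (ResidueField A) F₁, (∃ i, ν₁ i = Q) ∨
      ∃ (B : Subring F) (hBO : B ≤ V₁.toSubring ⊓ V₂.toSubring),
        TtriPt A (V₁.toSubring ⊓ V₂.toSubring) B hBO (ttalRedO₁ red₁)
          (fun v => T₁ v ∧ r₁ v = Q) Q)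
    (hpt₂ : ∀ Q : Place (ResidueField A) F₂, (∃ i, ν₂ i = Q) ∨
      ∃ (B : Subring F) (hBO : B ≤ V₁.toSubring ⊓ V₂.toSubring),
        TtriPt A (V₁.toSubring ⊓ V₂.toSubring) B hBO (ttalRedO₂ red₂)
          (fun v => T₂ v ∧ r₂ v = Q) Q)
    (hN : ∀ i, ∃ (B : Subring F) (hBO : B ≤ V₁.toSubring ⊓ V₂.toSubring),
      (∀ x ∈ V₁.toSubring ⊓ V₂.toSubring, (∀ v, cenN i v → x ∈ v.toValuationSubring) →
        ∃ s : B, ¬ GrdVal (ν₁ i) (ttalRedO₁ (V₂ := V₂) red₁ ⟨s, hBO s.2⟩) 0 ∧ (s : F) * x ∈ B) ∧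
      ∀ b : B, ∃ c : ResidueField A,
        GrdVal (ν₁ i) (ttalRedO₁ (V₂ := V₂) red₁ ⟨b, hBO b.2⟩) c ∧
          GrdVal (ν₂ i) (ttalRedO₂ (V₁ := V₁) red₂ ⟨b, hBO b.2⟩) c)
    (hrν₁ : ∀ v i, T₁ v → r₁ v ≠ ν₁ i) (hrν₂ : ∀ v i, T₂ v → r₂ v ≠ ν₂ i) :
    ∀ D : Divisor K F, (∀ P, D P ≠ 0 → ttalCls T₁' T₂' r₁ r₂ P ≠ none) → (∀ P, -1 ≤ D P) →
      (∀ P P' : Place K F, ttalCls T₁' T₂' r₁ r₂ P = ttalCls T₁' T₂' r₁ r₂ P' →
        D P < 0 → D P' < 0 → P = P') →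
      ∀ (x : F) (h₁ : x ∈ V₁) (h₂ : x ∈ V₂), x ∈ riemannRochSpace D →
        (red₁ ⟨x, h₁⟩, red₂ ⟨x, h₂⟩) ∈
          ttnkL ν₁ ν₂ (ttgPush₁ (ttalCls T₁' T₂' r₁ r₂) D)
            (ttgPush₂ (ttalCls T₁' T₂' r₁ r₂) D) := by
  intro D hsupp hneg hone x h₁ h₂ hx
  by_cases hx0 : x = 0
  · subst hx0
    have e₁ : red₁ ⟨0, h₁⟩ = 0 := map_zero red₁
    have e₂ : red₂ ⟨0, h₂⟩ = 0 := map_zero red₂
    rw [e₁, e₂]
    exact Submodule.zero_mem _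
  have hT' : ∀ v, T₁' v → ¬ T₂' v := fun v h h' => hT12 v (hsub₁ v h) h'
  have hxO : x ∈ V₁.toSubring ⊓ V₂.toSubring := ⟨h₁, h₂⟩
  have hbad : ∀ v, ¬ T₁' v → ¬ T₂' v → D v = 0 := by
    intro v hv₁ hv₂
    by_contra hne
    exact hsupp v hne (ttal_cls_eq_none hv₁ hv₂)
  -- a place of `T₁` carrying a nonzero coefficient is a place of `T₁'`
  have hup₁ : ∀ v, T₁ v → D v ≠ 0 → T₁' v := by
    intro v hv hne
    by_contra h1
    exact hne (hbad v h1 fun h2 => hT12 v hv h2)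
  have hup₂ : ∀ v, T₂ v → D v ≠ 0 → T₂' v := by
    intro v hv hne
    by_contra h2
    exact hne (hbad v (fun h1 => hT21 v hv h1) h2)
  obtain ⟨k1, k2, k3⟩ := ttri_into (A := A) (V₁.toSubring ⊓ V₂.toSubring) (ttalRedO₁ red₁)
    (ttalRedO₂ red₂) T₁ T₂ r₁ r₂ ν₁ ν₂ cenN hpt₁ hpt₂ hN hrν₁ hrν₂ hxO hx0 D
    (fun v => (ffkm_mem_iff hx0).mp hx v)
    (fun i v hv => by rw [hbad v (hcenN i v hv).1 (hcenN i v hv).2])
    (fun v _ => hneg v) (fun v _ => hneg v)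
    (fun v w hv hw hr hDv hDw => hone v w (by
      rw [ttal_cls_eq_inl.mpr ⟨hup₁ v hv hDv.ne, rfl⟩,
        ttal_cls_eq_inl.mpr ⟨hup₁ w hw hDw.ne, rfl⟩, hr]) hDv hDw)
    (fun v w hv hw hr hDv hDw => hone v w (by
      rw [(ttal_cls_eq_inr hT').mpr ⟨hup₂ v hv hDv.ne, rfl⟩,
        (ttal_cls_eq_inr hT').mpr ⟨hup₂ w hw hDw.ne, rfl⟩, hr]) hDv hDw)
  -- the filters by `T_j` and `T_j'` agree on `D`
  have hf₁ : D.filter T₁ = D.filter T₁' := by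
    ext v
    by_cases h : T₁' v
    · rw [Finsupp.filter_apply_pos _ _ h, Finsupp.filter_apply_pos _ _ (hsub₁ v h)]
    · rw [Finsupp.filter_apply_neg _ _ h]
      by_cases hv : T₁ v
      · rw [Finsupp.filter_apply_pos _ _ hv]
        by_contra hne
        exact h (hup₁ v hv hne)
      · rw [Finsupp.filter_apply_neg _ _ hv]
  have hf₂ : D.filter T₂ = D.filter T₂' := by
    ext v
    by_cases h : T₂' v
    · rw [Finsupp.filter_apply_pos _ _ h, Finsupp.filter_apply_pos _ _ (hsub₂ v h)]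
    · rw [Finsupp.filter_apply_neg _ _ h]
      by_cases hv : T₂ v
      · rw [Finsupp.filter_apply_pos _ _ hv]
        by_contra hne
        exact h (hup₂ v hv hne)
      · rw [Finsupp.filter_apply_neg _ _ hv]
  rw [ttgPush₁_cls, ttgPush₂_cls T₁' T₂' hT', ← hf₁, ← hf₂]
  exact ⟨k1, k2, k3⟩


end Fermat.Agent.TT
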