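import Fermat.Agent.TT.Geom.BridgeM
import Fermat.Agent.TT.C5a.Hyp

/-!
# PROGRAM TT (S33), arrow (A), slice (C4'): (R-in) FOR GOOD DIVISORS ON THE ABSTRACT MODEL

Owner: helper24.  Namespace `Fermat.Agent.TT`, prefix `ttg`.

The two uses of the field `into` of `TtgModel` at divisors which are NOT lifts (abstract class map
`cls`; the concrete twin on helper23's `ttri_into` is helper1's `TT/Geom/IntoAdapt.lean`):

* `ttg_le_mapDomain_apply`, `ttg_add_le_mapDomain_apply` : an effective divisor is bounded, on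
  every class, by its push-forward;
* `ttg_good_le_one` : a good effective divisor (relative to `D₀` with REDUCED reductions) has
  multiplicities `≤ 1`, and at most one point in each class;
* `ttg_into_sub` : **(R-in) for `L(𝔡 - D)`**, `D` good (= `hin1` of `ttgn_chain_red`);
* `ttg_into_pt`  : **(R-in) for `L(D - P₀)`**, `D` good, `P₀` a good place of the first kind;
* `ttg_hsemi`    : **(H2)** `l(D) ≤ 1` for good `D` (= `hsemi` of `ttgn_chain_red`), through helper1's
  `ttch_hsemi`.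
-/

set_option autoImplicit false
set_option linter.unusedSectionVars false
set_option linter.unusedVariables false
set_option linter.style.haveILetI false

noncomputable section

namespace Fermat.Agent.TT

open AlgebraicCurve IsLocalRing Module Fermat.Agent.G Fermat.Agent.FF Fermat.Agent.V.RR
  Fermat.Agent.S24

section Fin

variable {α β : Type*}

/-- an effective divisor is bounded at every point by its push-forward. -/
theorem ttg_le_mapDomain_apply (f : α → β) {D : α →₀ ℤ} (hD : 0 ≤ D) (a : α) :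
    D a ≤ Finsupp.mapDomain f D (f a) := by
  classical
  have h1 : D = D.erase a + Finsupp.single a (D a) := (Finsupp.erase_add_single a D).symm
  have h0 : 0 ≤ D.erase a := by
    intro b
    rw [Finsupp.erase_apply]
    split_ifs
    · exact le_refl _
    · exact hD b
  have h2 := ttg_mapDomain_nonneg f h0 (f a)
  have h3 : Finsupp.mapDomain f D (f a) =
      Finsupp.mapDomain f (D.erase a) (f a) + D a := by
    conv_lhs => rw [h1]
    rw [Finsupp.mapDomain_add, Finsupp.add_apply, Finsupp.mapDomain_single,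
      Finsupp.single_eq_same]
  rw [h3]
  simp only [Finsupp.coe_zero, Pi.zero_apply] at h2
  linarith

/-- two distinct points of one class: the sum of the multiplicities is bounded by the
push-forward. -/
theorem ttg_add_le_mapDomain_apply (f : α → β) {D : α →₀ ℤ} (hD : 0 ≤ D) {a a' : α}
    (hne : a ≠ a') (h : f a = f a') : D a + D a' ≤ Finsupp.mapDomain f D (f a) := by
  classical
  have h1 : D = D.erase a + Finsupp.single a (D a) := (Finsupp.erase_add_single a D).symm
  have h0 : 0 ≤ D.erase a := by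
    intro b
    rw [Finsupp.erase_apply]
    split_ifs
    · exact le_refl _
    · exact hD b
  have h2 := ttg_le_mapDomain_apply f h0 a'
  rw [Finsupp.erase_ne (Ne.symm hne)] at h2
  have h3 : Finsupp.mapDomain f D (f a) =
      Finsupp.mapDomain f (D.erase a) (f a) + D a := by
    conv_lhs => rw [h1]
    rw [Finsupp.mapDomain_add, Finsupp.add_apply, Finsupp.mapDomain_single,
      Finsupp.single_eq_same]
  rw [h3, h]
  linarith

end Fin

section IntoM

variable {K : Type*} [Field K] {A : ValuationSubring K} {F : Type*} [Field F] [Algebra K F]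
variable {F₁ F₂ : Type*} [Field F₁] [Field F₂] [Algebra (ResidueField A) F₁]
  [Algebra (ResidueField A) F₂]
variable {G : Type*} [Group G] {S : Type*} [Fintype S]
variable {V₁ V₂ : ValuationSubring F} {red₁ : V₁ →+* F₁} {red₂ : V₂ →+* F₂}
  {ρ : G →* SemilinearAut K F}
  {cls : Place K F → Option (Place (ResidueField A) F₁ ⊕ Place (ResidueField A) F₂)}
  {ν₁ : S → Place (ResidueField A) F₁} {ν₂ : S → Place (ResidueField A) F₂}
  {T₁ : Finset (Place (ResidueField A) F₁)} {T₂ : Finset (Place (ResidueField A) F₂)}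
  {g g₁ g₂ : ℕ}

/-- the push-forward of `D₀` at a class is bounded by one when both reductions are reduced. -/
theorem ttg_class_le_one {D₀ : Divisor K F} (hD₀good : ∀ v : Place K F, cls v = none → D₀ v = 0)
    (hr₁ : ∀ Q, ttgPush₁ cls D₀ Q ≤ 1) (hr₂ : ∀ Q, ttgPush₂ cls D₀ Q ≤ 1) (P : Place K F)
    (hP : cls P ≠ none) : Finsupp.mapDomain cls D₀ (cls P) ≤ 1 := by
  rcases h : cls P with _ | (Q | Q)
  · exact absurd h hP
  · rw [← ttgPush₁_apply]; exact hr₁ Q
  · rw [← ttgPush₂_apply]; exact hr₂ Q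

/-- a good effective divisor has multiplicities `≤ 1`. -/
theorem ttg_good_le_one {D₀ D : Divisor K F}
    (hD₀good : ∀ v : Place K F, cls v = none → D₀ v = 0)
    (hr₁ : ∀ Q, ttgPush₁ cls D₀ Q ≤ 1) (hr₂ : ∀ Q, ttgPush₂ cls D₀ Q ≤ 1)
    (hD : 0 ≤ D) (hgood : TtgGood cls D₀ D) (P : Place K F) : D P ≤ 1 := by
  by_cases hP : cls P = none
  · rw [hgood.1 P hP]; norm_num
  · have h1 := ttg_le_mapDomain_apply cls hD P
    rw [hgood.2] at h1
    exact h1.trans (ttg_class_le_one hD₀good hr₁ hr₂ P hP)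

/-- a good effective divisor has at most one point in each class. -/
theorem ttg_good_unique {D₀ D : Divisor K F}
    (hD₀good : ∀ v : Place K F, cls v = none → D₀ v = 0)
    (hr₁ : ∀ Q, ttgPush₁ cls D₀ Q ≤ 1) (hr₂ : ∀ Q, ttgPush₂ cls D₀ Q ≤ 1)
    (hD : 0 ≤ D) (hgood : TtgGood cls D₀ D) {P P' : Place K F} (hcls : cls P = cls P')
    (hP : 0 < D P) (hP' : 0 < D P') : P = P' := by
  by_contra hne
  have hPn : cls P ≠ none := fun hn => by
    rw [hgood.1 P hn] at hP
    exact lt_irrefl _ hP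
  have h1 := ttg_add_le_mapDomain_apply cls hD hne hcls
  rw [hgood.2] at h1
  have h2 := ttg_class_le_one hD₀good hr₁ hr₂ P hPn
  omega

/-- **(R-in) for `L(𝔡 - D)`**, `D` a good effective divisor. -/
theorem ttg_into_sub (Mod : TtgModel A V₁ V₂ red₁ red₂ ρ cls ν₁ ν₂ T₁ T₂ g g₁ g₂)
    {𝔡 D₀ D : Divisor K F} (h𝔡 : 0 ≤ 𝔡) (h𝔡good : ∀ v : Place K F, cls v = none → 𝔡 v = 0)
    (hD₀good : ∀ v : Place K F, cls v = none → D₀ v = 0)
    (hr₁ : ∀ Q, ttgPush₁ cls D₀ Q ≤ 1) (hr₂ : ∀ Q, ttgPush₂ cls D₀ Q ≤ 1)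
    (hD : 0 ≤ D) (hgood : TtgGood cls D₀ D)
    (x : F) (h₁ : x ∈ V₁) (h₂ : x ∈ V₂) (hx : x ∈ riemannRochSpace (𝔡 - D)) :
    (red₁ ⟨x, h₁⟩, red₂ ⟨x, h₂⟩) ∈ ttnkL ν₁ ν₂ (ttgPush₁ cls 𝔡 - ttgPush₁ cls D₀)
      (ttgPush₂ cls 𝔡 - ttgPush₂ cls D₀) := by
  have h𝔡P : ∀ P : Place K F, 0 ≤ 𝔡 P := fun P => h𝔡 P
  have hDP : ∀ P : Place K F, 0 ≤ D P := fun P => hD P
  have := Mod.into (𝔡 - D)
    (fun P hP hcls => by
      apply hP
      rw [Finsupp.sub_apply, h𝔡good P hcls, hgood.1 P hcls, sub_zero])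
    (fun P => by
      rw [Finsupp.sub_apply]
      have := ttg_good_le_one hD₀good hr₁ hr₂ hD hgood P
      have := h𝔡P P
      omega)
    (fun P P' hcls hP hP' => by
      rw [Finsupp.sub_apply] at hP hP'
      have := h𝔡P P
      have := h𝔡P P'
      exact ttg_good_unique hD₀good hr₁ hr₂ hD hgood hcls (by omega) (by omega))
    x h₁ h₂ hx
  rwa [ttgPush₁_sub, ttgPush₂_sub, ttg_good_push₁ hgood, ttg_good_push₂ hgood] at this

theorem ttgPush₁_single_inl {P₀ : Place K F} {Q₀ : Place (ResidueField A) F₁}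
    (hP₀ : cls P₀ = some (Sum.inl Q₀)) (n : ℤ) :
    ttgPush₁ cls (Finsupp.single P₀ n) = Finsupp.single Q₀ n := by
  classical
  ext Q
  rw [ttgPush₁_apply, Finsupp.mapDomain_single, hP₀, Finsupp.single_apply, Finsupp.single_apply]
  by_cases h : Q₀ = Q
  · rw [if_pos h, if_pos (by rw [h])]
  · rw [if_neg h, if_neg (fun hh => h (Sum.inl.inj (Option.some.inj hh)))]

theorem ttgPush₂_single_inl {P₀ : Place K F} {Q₀ : Place (ResidueField A) F₁}
    (hP₀ : cls P₀ = some (Sum.inl Q₀)) (n : ℤ) :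
    ttgPush₂ cls (Finsupp.single P₀ n) = 0 := by
  classical
  ext Q
  rw [ttgPush₂_apply, Finsupp.mapDomain_single, hP₀, Finsupp.single_apply,
    if_neg (fun hh => Sum.inl_ne_inr (Option.some.inj hh))]
  rfl

/-- **(R-in) for `L(D - P₀)`**, `D` a good effective divisor, `P₀` a good place of the first
kind. -/
theorem ttg_into_pt (Mod : TtgModel A V₁ V₂ red₁ red₂ ρ cls ν₁ ν₂ T₁ T₂ g g₁ g₂)
    {D₀ D : Divisor K F} (hD : 0 ≤ D) (hgood : TtgGood cls D₀ D)
    {P₀ : Place K F} {Q₀ : Place (ResidueField A) F₁} (hP₀ : cls P₀ = some (Sum.inl Q₀))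
    (x : F) (h₁ : x ∈ V₁) (h₂ : x ∈ V₂)
    (hx : x ∈ riemannRochSpace (D - Finsupp.single P₀ 1)) :
    (red₁ ⟨x, h₁⟩, red₂ ⟨x, h₂⟩) ∈ ttnkL ν₁ ν₂ (ttgPush₁ cls D₀ - Finsupp.single Q₀ 1)
      (ttgPush₂ cls D₀) := by
  classical
  have hDP : ∀ P : Place K F, 0 ≤ D P := fun P => hD P
  have hneg : ∀ P : Place K F, (D - Finsupp.single P₀ 1 : Divisor K F) P < 0 → P = P₀ := by
    intro P hP
    by_contra hne
    rw [Finsupp.sub_apply, Finsupp.single_apply, if_neg (fun h => hne h.symm), sub_zero] at hP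
    exact absurd hP (not_lt.mpr (hDP P))
  have := Mod.into (D - Finsupp.single P₀ 1)
    (fun P hP hcls => by
      apply hP
      have hne : P₀ ≠ P := fun h => by rw [← h, hP₀] at hcls; exact absurd hcls (by simp)
      rw [Finsupp.sub_apply, hgood.1 P hcls, Finsupp.single_apply, if_neg hne, sub_zero])
    (fun P => by
      rw [Finsupp.sub_apply, Finsupp.single_apply]
      have := hDP P
      split_ifs <;> omega)
    (fun P P' _ hP hP' => by rw [hneg P hP, hneg P' hP'])
    x h₁ h₂ hx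
  rwa [ttgPush₁_sub, ttgPush₂_sub, ttg_good_push₁ hgood, ttg_good_push₂ hgood,
    ttgPush₁_single_inl hP₀, ttgPush₂_single_inl hP₀, sub_zero] at this

/-- **(H2)** : a good effective divisor has `l(D) ≤ 1`. -/
theorem ttg_hsemi (Mod : TtgModel A V₁ V₂ red₁ red₂ ρ cls ν₁ ν₂ T₁ T₂ g g₁ g₂)
    (RR : V27RR K F g) (hdeg1 : ∀ v : Place K F, v.deg = 1)
    {D₀ D : Divisor K F} (hD : 0 ≤ D) (hgood : TtgGood cls D₀ D)
    {D₁ : Divisor (ResidueField A) F₁} {D₂ : Divisor (ResidueField A) F₂}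
    (hpush₁ : ttgPush₁ cls D₀ = D₁) (hpush₂ : ttgPush₂ cls D₀ = D₂)
    (hgen : ttnkL ν₁ ν₂ D₁ D₂ = Submodule.span (ResidueField A) {(1 : F₁ × F₂)})
    {P₀ : Place K F} {Q₀ : Place (ResidueField A) F₁} (hP₀ : cls P₀ = some (Sum.inl Q₀))
    (hQ₀ : D₁ Q₀ = 0) : finrank K (riemannRochSpace D) ≤ 1 := by
  classical
  refine ttch_hsemi RR hdeg1 Mod.toRed D P₀ fun x hx => ?_
  have hmem := ttg_into_pt Mod hD hgood hP₀ (x : F) x.2.1 x.2.2 hx
  rw [hpush₁, hpush₂] at hmem
  have hle : D₁ - Finsupp.single Q₀ 1 ≤ D₁ := by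
    intro Q
    rw [Finsupp.sub_apply, Finsupp.single_apply]
    split_ifs <;> omega
  have hmem' := ttnk_L_mono ν₁ ν₂ hle (le_refl D₂) hmem
  rw [hgen, Submodule.mem_span_singleton] at hmem'
  obtain ⟨c, hc⟩ := hmem'
  have hx1 : red₁ ⟨(x : F), x.2.1⟩ = algebraMap (ResidueField A) F₁ c := by
    have := congrArg Prod.fst hc
    rw [Algebra.algebraMap_eq_smul_one]
    exact this.symm
  have hc0 : c = 0 := by
    by_contra hc0
    have hne : algebraMap (ResidueField A) F₁ c ≠ 0 :=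
      (map_ne_zero_iff _ (algebraMap (ResidueField A) F₁).injective).mpr hc0
    have h1 := hmem.1
    simp only at h1
    rw [hx1, ffkm_mem_iff hne] at h1
    have h2 := h1 Q₀
    rw [PlaceOrd.ord_algebraMap, Finsupp.sub_apply, hQ₀, Finsupp.single_eq_same] at h2
    omega
  show ttgRed red₁ red₂ x = 0
  have e : ttgRed red₁ red₂ x = (red₁ ⟨(x : F), x.2.1⟩, red₂ ⟨(x : F), x.2.2⟩) := rfl
  rw [e, ← hc, hc0, zero_smul]

end IntoM

end Fermat.Agent.TT
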