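import Mathlib
import Fermat.Agent.TT.Geom.Spec
import Fermat.Agent.TT.Geom.OriginModel
import Fermat.Agent.FF.IntInst.Main

/-!
# Program TT (S33), assembly of (A): the model of the engine from the abstract two-valuation model

Owner: helper26.  Namespace `Fermat.Agent.TT`, prefix `ttgm`.

From helper24's `Mod : TtgModel A V₁ V₂ red₁ red₂ ρ cls ν₁ ν₂ T₁ T₂ g g₁ g₂` (TT/Geom/Spec.lean, bump #2:
the field `into` with the two side conditions of `ttri_into`) and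
Riemann-Roch on the three curves:

* `ttgmL₁ Mod P₀`, `ttgmL₂ Mod P₀` : the lift maps (a choice in `Mod.lift₁/₂`; `P₀` on `T_j`), with
  `cls (l₁ Q) = some (inl Q)`, inertia-fixed (`ttgm_L₁_spec`, `ttgm_L₂_spec`);
* `ttgm_push₁/₂` : `ttgPush_j cls (ttgrLift l₁ l₂ A₁ A₂) = A_j` for `A_j` off `T_j`;
* `ttgm_into` : THE UNIFORM (R-in) : `x ∈ O₂ ∩ L(ttgrLift l₁ l₂ A₁ A₂) ⟹ red x ∈ ttnkL ν₁ ν₂ A₁ A₂`;
* `ttgm_lift₁/₂` : (LIFT) `TtbLift_j` for the spaces `L(ttgrLift l₁ l₂ A₁ A₂)`, from `Mod.val₁/₂`;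
* `ttgm_hbas` : a `G`-fixed reduced basis of `L(ttgrLift l₁ l₂ A₁ A₂)` with reduction a basis of
  `ttnkL ν₁ ν₂ A₁ A₂`, as soon as `l̃(Ã) ≤ l(A)`;
* `ttgm_genus` : **the genus identity** `g + 1 = g₁ + g₂ + #S` (`≤` is `Mod.genus_le`, `≥` is the
  equality of the two ranks of an interpolation basis);
* `ttgm_model` : the origin data `C`, the lift maps and the two fibres of the engine
  (`fibK : FffmFib`, `fibk : TtnkFib` on ONE table `cW`), with `G`-fixed bases at the levels `1..5`: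
  the first arguments of `ttgc_chain`.
-/

set_option autoImplicit false
set_option linter.unusedSectionVars false
set_option linter.unusedVariables false
set_option linter.style.haveILetI false

noncomputable section

namespace Fermat.Agent.TT

open AlgebraicCurve IsLocalRing Module Fermat.Agent.G Fermat.Agent.FF Fermat.Agent.V.RR

variable {K : Type*} [Field K] {A : ValuationSubring K} {F : Type*} [Field F] [Algebra K F]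
variable {F₁ F₂ : Type*} [Field F₁] [Field F₂] [Algebra (ResidueField A) F₁]
  [Algebra (ResidueField A) F₂]
variable {G : Type*} [Group G] {S : Type*} [Fintype S]
variable {V₁ V₂ : ValuationSubring F} {red₁ : V₁ →+* F₁} {red₂ : V₂ →+* F₂}
  {ρ : G →* SemilinearAut K F}
  {cls : Place K F → Option (Place (ResidueField A) F₁ ⊕ Place (ResidueField A) F₂)}
  {ν₁ : S → Place (ResidueField A) F₁} {ν₂ : S → Place (ResidueField A) F₂}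
  {T₁ : Finset (Place (ResidueField A) F₁)} {T₂ : Finset (Place (ResidueField A) F₂)}
  {g g₁ g₂ : ℕ}

section LiftMaps

open Classical in
/-- the lift map of the first kind (a choice in `Mod.lift₁`; `P₀` over `T₁`) -/
def ttgmL₁ (Mod : TtgModel A V₁ V₂ red₁ red₂ ρ cls ν₁ ν₂ T₁ T₂ g g₁ g₂) (P₀ : Place K F)
    (Q : Place (ResidueField A) F₁) : Place K F :=
  if h : Q ∉ T₁ then Classical.choose (Mod.lift₁ Q h) else P₀

open Classical in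
/-- the lift map of the second kind (a choice in `Mod.lift₂`; `P₀` over `T₂`) -/
def ttgmL₂ (Mod : TtgModel A V₁ V₂ red₁ red₂ ρ cls ν₁ ν₂ T₁ T₂ g g₁ g₂) (P₀ : Place K F)
    (Q : Place (ResidueField A) F₂) : Place K F :=
  if h : Q ∉ T₂ then Classical.choose (Mod.lift₂ Q h) else P₀

theorem ttgm_L₁_spec (Mod : TtgModel A V₁ V₂ red₁ red₂ ρ cls ν₁ ν₂ T₁ T₂ g g₁ g₂)
    (P₀ : Place K F) {Q : Place (ResidueField A) F₁} (hQ : Q ∉ T₁) :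
    cls (ttgmL₁ Mod P₀ Q) = some (Sum.inl Q) ∧
      ∀ σ : G, ρ σ • ttgmL₁ Mod P₀ Q = ttgmL₁ Mod P₀ Q := by
  rw [ttgmL₁, dif_pos hQ]
  exact Classical.choose_spec (Mod.lift₁ Q hQ)

theorem ttgm_L₂_spec (Mod : TtgModel A V₁ V₂ red₁ red₂ ρ cls ν₁ ν₂ T₁ T₂ g g₁ g₂)
    (P₀ : Place K F) {Q : Place (ResidueField A) F₂} (hQ : Q ∉ T₂) :
    cls (ttgmL₂ Mod P₀ Q) = some (Sum.inr Q) ∧
      ∀ σ : G, ρ σ • ttgmL₂ Mod P₀ Q = ttgmL₂ Mod P₀ Q := by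
  rw [ttgmL₂, dif_pos hQ]
  exact Classical.choose_spec (Mod.lift₂ Q hQ)

end LiftMaps

section Abstract

variable (l₁ : Place (ResidueField A) F₁ → Place K F) (l₂ : Place (ResidueField A) F₂ → Place K F)
  (hl₁ : ∀ Q, Q ∉ T₁ → cls (l₁ Q) = some (Sum.inl Q))
  (hl₂ : ∀ Q, Q ∉ T₂ → cls (l₂ Q) = some (Sum.inr Q))
  {A₁ : Divisor (ResidueField A) F₁} {A₂ : Divisor (ResidueField A) F₂}
  (hA₁ : ∀ Q ∈ T₁, A₁ Q = 0) (hA₂ : ∀ Q ∈ T₂, A₂ Q = 0)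

include hl₁ hl₂ hA₁ hA₂

theorem ttgm_mapDomain_cls :
    Finsupp.mapDomain cls (ttgrLift l₁ l₂ A₁ A₂) =
      Finsupp.mapDomain (fun Q => (some (Sum.inl Q) :
        Option (Place (ResidueField A) F₁ ⊕ Place (ResidueField A) F₂))) A₁ +
      Finsupp.mapDomain (fun Q => (some (Sum.inr Q) :
        Option (Place (ResidueField A) F₁ ⊕ Place (ResidueField A) F₂))) A₂ := by
  rw [ttgrLift, Finsupp.mapDomain_add, ← Finsupp.mapDomain_comp, ← Finsupp.mapDomain_comp]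
  congr 1
  · exact Finsupp.mapDomain_congr fun Q' hQ' =>
      hl₁ Q' (fun hT => (Finsupp.mem_support_iff.mp hQ') (hA₁ Q' hT))
  · exact Finsupp.mapDomain_congr fun Q' hQ' =>
      hl₂ Q' (fun hT => (Finsupp.mem_support_iff.mp hQ') (hA₂ Q' hT))

/-- the first reduction of a lift is the first divisor -/
theorem ttgm_push₁ : ttgPush₁ cls (ttgrLift l₁ l₂ A₁ A₂) = A₁ := by
  ext Q
  rw [ttgPush₁, Finsupp.comapDomain_apply, ttgm_mapDomain_cls l₁ l₂ hl₁ hl₂ hA₁ hA₂,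
    Finsupp.add_apply]
  have e₁ : Finsupp.mapDomain (fun Q => (some (Sum.inl Q) :
      Option (Place (ResidueField A) F₁ ⊕ Place (ResidueField A) F₂))) A₁ (some (Sum.inl Q)) =
      A₁ Q :=
    Finsupp.mapDomain_apply (fun _ _ h => Sum.inl.inj (Option.some.inj h)) A₁ Q
  have e₂ : Finsupp.mapDomain (fun Q => (some (Sum.inr Q) :
      Option (Place (ResidueField A) F₁ ⊕ Place (ResidueField A) F₂))) A₂ (some (Sum.inl Q)) =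
      0 := by
    apply Finsupp.mapDomain_of_notMem_range _ _
    rintro ⟨Q', hQ'⟩
    cases Option.some.inj hQ'
  rw [e₁, e₂, add_zero]

/-- the second reduction of a lift is the second divisor -/
theorem ttgm_push₂ : ttgPush₂ cls (ttgrLift l₁ l₂ A₁ A₂) = A₂ := by
  ext Q
  rw [ttgPush₂, Finsupp.comapDomain_apply, ttgm_mapDomain_cls l₁ l₂ hl₁ hl₂ hA₁ hA₂,
    Finsupp.add_apply]
  have e₁ : Finsupp.mapDomain (fun Q => (some (Sum.inl Q) :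
      Option (Place (ResidueField A) F₁ ⊕ Place (ResidueField A) F₂))) A₁ (some (Sum.inr Q)) =
      0 := by
    apply Finsupp.mapDomain_of_notMem_range _ _
    rintro ⟨Q', hQ'⟩
    cases Option.some.inj hQ'
  have e₂ : Finsupp.mapDomain (fun Q => (some (Sum.inr Q) :
      Option (Place (ResidueField A) F₁ ⊕ Place (ResidueField A) F₂))) A₂ (some (Sum.inr Q)) =
      A₂ Q :=
    Finsupp.mapDomain_apply (fun _ _ h => Sum.inr.inj (Option.some.inj h)) A₂ Q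
  rw [e₁, e₂, zero_add]

/-- a lift is supported on good places -/
theorem ttgm_good (P : Place K F) (hP : ttgrLift l₁ l₂ A₁ A₂ P ≠ 0) : cls P ≠ none := by
  rcases ttgr_lift_support l₁ l₂ hP with ⟨Q, hQ, rfl⟩ | ⟨Q, hQ, rfl⟩
  · rw [hl₁ Q (fun hT => hQ (hA₁ Q hT))]
    exact Option.some_ne_none _
  · rw [hl₂ Q (fun hT => hQ (hA₂ Q hT))]
    exact Option.some_ne_none _

/-- the disc of a good point of the first component off the support carries no point of a lift -/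
theorem ttgm_lift_eq_zero₁ {Q : Place (ResidueField A) F₁} (hAQ : A₁ Q = 0) (P' : Place K F)
    (hP' : cls P' = some (Sum.inl Q)) : ttgrLift l₁ l₂ A₁ A₂ P' = 0 := by
  apply ttgr_lift_eq_zero
  · intro Q' hQ' hl
    have hQ'T : Q' ∉ T₁ := fun hT => hQ' (hA₁ Q' hT)
    rw [← hl, hl₁ Q' hQ'T] at hP'
    have : Q' = Q := Sum.inl.inj (Option.some.inj hP')
    exact hQ' (this ▸ hAQ)
  · intro Q' hQ' hl
    have hQ'T : Q' ∉ T₂ := fun hT => hQ' (hA₂ Q' hT)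
    rw [← hl, hl₂ Q' hQ'T] at hP'
    cases Option.some.inj hP'

/-- the disc of a good point of the second component off the support carries no point of a lift -/
theorem ttgm_lift_eq_zero₂ {Q : Place (ResidueField A) F₂} (hAQ : A₂ Q = 0) (P' : Place K F)
    (hP' : cls P' = some (Sum.inr Q)) : ttgrLift l₁ l₂ A₁ A₂ P' = 0 := by
  apply ttgr_lift_eq_zero
  · intro Q' hQ' hl
    have hQ'T : Q' ∉ T₁ := fun hT => hQ' (hA₁ Q' hT)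
    rw [← hl, hl₁ Q' hQ'T] at hP'
    cases Option.some.inj hP'
  · intro Q' hQ' hl
    have hQ'T : Q' ∉ T₂ := fun hT => hQ' (hA₂ Q' hT)
    rw [← hl, hl₂ Q' hQ'T] at hP'
    have : Q' = Q := Sum.inr.inj (Option.some.inj hP')
    exact hQ' (this ▸ hAQ)

/-- **THE UNIFORM (R-in)** : the reduction of `O₂ ∩ L(lift Ã)` lies in `L̃(Ã)`. -/
theorem ttgm_into (Mod : TtgModel A V₁ V₂ red₁ red₂ ρ cls ν₁ ν₂ T₁ T₂ g g₁ g₂)
    (hA₁0 : 0 ≤ A₁) (hA₂0 : 0 ≤ A₂)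
    (x : ↥(V₁.toSubring ⊓ V₂.toSubring))
    (hx : ((x : ↥(V₁.toSubring ⊓ V₂.toSubring)) : F) ∈
      riemannRochSpace (ttgrLift l₁ l₂ A₁ A₂)) :
    ttgRed red₁ red₂ x ∈ ttnkL ν₁ ν₂ A₁ A₂ := by
  have h0 : 0 ≤ ttgrLift l₁ l₂ A₁ A₂ := ttgr_lift_nonneg l₁ l₂ hA₁0 hA₂0
  have hge : ∀ P : Place K F, -1 ≤ ttgrLift l₁ l₂ A₁ A₂ P :=
    fun P => le_trans (by norm_num) (h0 P)
  have hone : ∀ P P' : Place K F, cls P = cls P' → ttgrLift l₁ l₂ A₁ A₂ P < 0 →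
      ttgrLift l₁ l₂ A₁ A₂ P' < 0 → P = P' :=
    fun P _ _ hneg _ => absurd (h0 P) (not_le.mpr hneg)
  have h := Mod.into (ttgrLift l₁ l₂ A₁ A₂) (ttgm_good l₁ l₂ hl₁ hl₂ hA₁ hA₂) hge hone
    (x : F) x.2.1 x.2.2 hx
  rw [ttgm_push₁ l₁ l₂ hl₁ hl₂ hA₁ hA₂, ttgm_push₂ l₁ l₂ hl₁ hl₂ hA₁ hA₂] at h
  exact h

/-- **(LIFT)** on the first component, from `Mod.val₁`. -/
theorem ttgm_lift₁ (Mod : TtgModel A V₁ V₂ red₁ red₂ ρ cls ν₁ ν₂ T₁ T₂ g g₁ g₂)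
    (hfix₁ : ∀ Q, Q ∉ T₁ → ∀ σ : G, ρ σ • l₁ Q = l₁ Q) :
    TtbLift₁ (ttgRed red₁ red₂) ρ (riemannRochSpace (ttgrLift l₁ l₂ A₁ A₂)) ν₁ A₁ T₁ := by
  intro Q hQT hQν hAQ
  refine ⟨l₁ Q, hfix₁ Q hQT, fun x hx => ?_⟩
  have hord : ∀ P' : Place K F, cls P' = some (Sum.inl Q) →
      0 ≤ P'.ord ((x : ↥(V₁.toSubring ⊓ V₂.toSubring)) : F) := by
    intro P' hP'
    have h0 := ttgm_lift_eq_zero₁ l₁ l₂ hl₁ hl₂ hA₁ hA₂ hAQ P' hP'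
    rcases (mem_riemannRochSpace_iff.mp hx) P' with h | h
    · rw [h, Place.ord_zero]
    · rw [h0, neg_zero] at h
      exact h
  exact Mod.val₁ (l₁ Q) Q (hl₁ Q hQT) (x : F) x.2.1 x.2.2 hord

/-- **(LIFT)** on the second component, from `Mod.val₂`. -/
theorem ttgm_lift₂ (Mod : TtgModel A V₁ V₂ red₁ red₂ ρ cls ν₁ ν₂ T₁ T₂ g g₁ g₂)
    (hfix₂ : ∀ Q, Q ∉ T₂ → ∀ σ : G, ρ σ • l₂ Q = l₂ Q) :
    TtbLift₂ (ttgRed red₁ red₂) ρ (riemannRochSpace (ttgrLift l₁ l₂ A₁ A₂)) ν₂ A₂ T₂ := by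
  intro Q hQT hQν hAQ
  refine ⟨l₂ Q, hfix₂ Q hQT, fun x hx => ?_⟩
  have hord : ∀ P' : Place K F, cls P' = some (Sum.inr Q) →
      0 ≤ P'.ord ((x : ↥(V₁.toSubring ⊓ V₂.toSubring)) : F) := by
    intro P' hP'
    have h0 := ttgm_lift_eq_zero₂ l₁ l₂ hl₁ hl₂ hA₁ hA₂ hAQ P' hP'
    rcases (mem_riemannRochSpace_iff.mp hx) P' with h | h
    · rw [h, Place.ord_zero]
    · rw [h0, neg_zero] at h
      exact h
  exact Mod.val₂ (l₂ Q) Q (hl₂ Q hQT) (x : F) x.2.1 x.2.2 hord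

/-- **a `G`-fixed reduced basis** of `L(lift Ã)` with reduction a basis of `L̃(Ã)`, as soon as
`l̃(Ã) ≤ l(lift Ã)`. -/
theorem ttgm_hbas (Mod : TtgModel A V₁ V₂ red₁ red₂ ρ cls ν₁ ν₂ T₁ T₂ g g₁ g₂)
    (hA₁0 : 0 ≤ A₁) (hA₂0 : 0 ≤ A₂) (hfix₁ : ∀ Q, Q ∉ T₁ → ∀ σ : G, ρ σ • l₁ Q = l₁ Q)
    (hfix₂ : ∀ Q, Q ∉ T₂ → ∀ σ : G, ρ σ • l₂ Q = l₂ Q)
    (RR : V27RR K F g) (RR₁ : V27RR (ResidueField A) F₁ g₁)
    (RR₂ : V27RR (ResidueField A) F₂ g₂) [Infinite (ResidueField A)]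
    (hdeg₁ : ∀ v : Place (ResidueField A) F₁, v.deg = 1)
    (hdeg₂ : ∀ v : Place (ResidueField A) F₂, v.deg = 1)
    (hdim : finrank (ResidueField A) (ttnkL ν₁ ν₂ A₁ A₂) ≤
      finrank K (riemannRochSpace (ttgrLift l₁ l₂ A₁ A₂))) :
    ∃ (n : ℕ) (b : Fin n → ↥(V₁.toSubring ⊓ V₂.toSubring)),
      TteBasis (ttgRed red₁ red₂) ρ (riemannRochSpace (ttgrLift l₁ l₂ A₁ A₂))
        (ttnkL ν₁ ν₂ A₁ A₂) b := by
  haveI : FiniteDimensional K (riemannRochSpace (ttgrLift l₁ l₂ A₁ A₂)) := RR.finL _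
  have hVfix : ∀ (σ : G), ∀ x ∈ riemannRochSpace (ttgrLift l₁ l₂ A₁ A₂),
      ρ σ • x ∈ riemannRochSpace (ttgrLift l₁ l₂ A₁ A₂) := by
    intro σ x hx
    refine ffin_rrSpace_smul (ρ σ) ?_ hx
    exact ttgr_lift_fixed l₁ l₂ (ρ σ)
      (fun Q hQ => hfix₁ Q (fun hT => hQ (hA₁ Q hT)) σ)
      (fun Q hQ => hfix₂ Q (fun hT => hQ (hA₂ Q hT)) σ)
  exact ttb_hbas_nodal Mod.toRed ρ RR₁ RR₂ hdeg₁ hdeg₂ ν₁ ν₂ _ hVfix A₁ A₂
    (ttgm_into l₁ l₂ hl₁ hl₂ hA₁ hA₂ Mod hA₁0 hA₂0) hdim T₁ T₂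
    (ttgm_lift₁ l₁ l₂ hl₁ hl₂ hA₁ hA₂ Mod hfix₁) (ttgm_lift₂ l₁ l₂ hl₁ hl₂ hA₁ hA₂ Mod hfix₂)

end Abstract

section Genus

/-- a curve with Riemann-Roch over an infinite field has infinitely many places -/
theorem ttgm_infinite_place {k' F' : Type*} [Field k'] [Field F'] [Algebra k' F'] {g' : ℕ}
    (R : V27RR k' F' g') [Infinite k'] : Infinite (Place k' F') :=
  ffii_infinite_of_forall_exists (fun T => ffg_exists_place_not_mem R T)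

/-- the divisor `i • 𝔡̃_j` vanishes on `T_j` -/
theorem ttgm_nsmul_T {k' F' : Type*} [Field k'] [Field F'] [Algebra k' F']
    {T : Finset (Place k' F')} {D : Divisor k' F'} (hD : ∀ Q ∈ T, D Q = 0) (i : ℕ) :
    ∀ Q ∈ T, (i • D) Q = 0 := by
  intro Q hQ
  rw [Finsupp.smul_apply, hD Q hQ, smul_zero]

/-- **THE GENUS IDENTITY** `g + 1 = g₁ + g₂ + #S` : `≤` is `Mod.genus_le`; `≥` is the equality of
the two ranks of an interpolation basis of `L(𝔡)` (a basis of `L(𝔡)` over `K` whose reduction is a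
basis of `L̃(𝔡̃)` over `k`), for the origin divisor `𝔡` of degree `≥ 10 (g₁ + g₂ + #S)`. -/
theorem ttgm_genus (Mod : TtgModel A V₁ V₂ red₁ red₂ ρ cls ν₁ ν₂ T₁ T₂ g g₁ g₂)
    (RR : V27RR K F g) (hdeg : ∀ P : Place K F, P.deg = 1)
    (RR₁ : V27RR (ResidueField A) F₁ g₁) (RR₂ : V27RR (ResidueField A) F₂ g₂)
    [Infinite (ResidueField A)]
    (hdeg₁ : ∀ v : Place (ResidueField A) F₁, v.deg = 1)
    (hdeg₂ : ∀ v : Place (ResidueField A) F₂, v.deg = 1) :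
    g + 1 = g₁ + g₂ + Fintype.card S := by
  classical
  haveI := ttgm_infinite_place RR₁
  haveI := ttgm_infinite_place RR₂
  have hs : 1 ≤ Fintype.card S := Fintype.card_pos_iff.mpr Mod.nodes
  obtain ⟨C⟩ := ttgr_exists_closed RR₁ RR₂ hdeg₁ hdeg₂ ν₁ ν₂ Mod.ν₁_inj Mod.ν₂_inj hs T₁ T₂
    (5 * (g₁ + g₂ + Fintype.card S))
  obtain ⟨P₀⟩ := RR.place
  have hl₁ : ∀ Q, Q ∉ T₁ → cls (ttgmL₁ Mod P₀ Q) = some (Sum.inl Q) :=
    fun Q hQ => (ttgm_L₁_spec Mod P₀ hQ).1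
  have hl₂ : ∀ Q, Q ∉ T₂ → cls (ttgmL₂ Mod P₀ Q) = some (Sum.inr Q) :=
    fun Q hQ => (ttgm_L₂_spec Mod P₀ hQ).1
  have hf₁ : ∀ Q, Q ∉ T₁ → ∀ σ : G, ρ σ • ttgmL₁ Mod P₀ Q = ttgmL₁ Mod P₀ Q :=
    fun Q hQ => (ttgm_L₁_spec Mod P₀ hQ).2
  have hf₂ : ∀ Q, Q ∉ T₂ → ∀ σ : G, ρ σ • ttgmL₂ Mod P₀ Q = ttgmL₂ Mod P₀ Q :=
    fun Q hQ => (ttgm_L₂_spec Mod P₀ hQ).2
  have hle := Mod.genus_le
  have hd := ttgr_dd_degree C (ttgmL₁ Mod P₀) (ttgmL₂ Mod P₀) hdeg hdeg₁ hdeg₂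
  have h1 := ttgr_five_gj_le₁ C le_rfl
  have h2 := ttgr_five_gj_le₂ C le_rfl
  have hsZ : (1 : ℤ) ≤ (Fintype.card S : ℤ) := by exact_mod_cast hs
  have hg₁0 : (0 : ℤ) ≤ (g₁ : ℤ) := Int.natCast_nonneg _
  have hg₂0 : (0 : ℤ) ≤ (g₂ : ℤ) := Int.natCast_nonneg _
  have hk := ttnk_finrank_deg ν₁ ν₂ hdeg₁ hdeg₂ C.dd₁ C.dd₂ C.hdd₁ν C.hdd₂ν RR₁ RR₂ Mod.ν₁_inj
    (by linarith) (by linarith)
  have hK := (RR.finrank_of_lt (D := C.dd (ttgmL₁ Mod P₀) (ttgmL₂ Mod P₀))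
    (by rw [hd]; linarith)).1
  rw [hd] at hK
  have hdim : finrank (ResidueField A) (ttnkL ν₁ ν₂ C.dd₁ C.dd₂) ≤
      finrank K (riemannRochSpace (ttgrLift (ttgmL₁ Mod P₀) (ttgmL₂ Mod P₀) C.dd₁ C.dd₂)) := by
    have : (finrank (ResidueField A) (ttnkL ν₁ ν₂ C.dd₁ C.dd₂) : ℤ) ≤
        (finrank K (riemannRochSpace (C.dd (ttgmL₁ Mod P₀) (ttgmL₂ Mod P₀))) : ℤ) := by
      rw [hk, hK]; linarith
    exact_mod_cast this
  obtain ⟨n, b, -, -, hlik, hspk, hliK, hspK⟩ :=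
    ttgm_hbas (ttgmL₁ Mod P₀) (ttgmL₂ Mod P₀) hl₁ hl₂ C.hdd₁T C.hdd₂T Mod
      (ttgr_dd₁_nonneg C) (ttgr_dd₂_nonneg C) hf₁ hf₂ RR RR₁ RR₂ hdeg₁ hdeg₂ hdim
  have ek : finrank (ResidueField A) (ttnkL ν₁ ν₂ C.dd₁ C.dd₂) = n := by
    rw [← hspk, finrank_span_eq_card hlik, Fintype.card_fin]
  have eK : finrank K (riemannRochSpace (C.dd (ttgmL₁ Mod P₀) (ttgmL₂ Mod P₀))) = n := by
    change finrank K (riemannRochSpace
      (ttgrLift (ttgmL₁ Mod P₀) (ttgmL₂ Mod P₀) C.dd₁ C.dd₂)) = n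
    rw [← hspK, finrank_span_eq_card hliK, Fintype.card_fin]
  rw [ek] at hk
  rw [eK] at hK
  have : (g : ℤ) + 1 = g₁ + g₂ + Fintype.card S := by linarith
  exact_mod_cast this

end Genus

section Model

/-- **THE MODEL OF THE ENGINE from the abstract two-valuation model** : the genus identity, the
closed origin data `C` (off `T₁`, `T₂`), the lift maps, and the two fibres of the engine on ONE table
`cW` with inertia-fixed bases at the levels `1..5` whose reductions are bases of the nodal spaces. -/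
theorem ttgm_model (Mod : TtgModel A V₁ V₂ red₁ red₂ ρ cls ν₁ ν₂ T₁ T₂ g g₁ g₂)
    (RR : V27RR K F g) (hdeg : ∀ P : Place K F, P.deg = 1) [Infinite K]
    (RR₁ : V27RR (ResidueField A) F₁ g₁) (RR₂ : V27RR (ResidueField A) F₂ g₂)
    [Infinite (ResidueField A)]
    (hdeg₁ : ∀ v : Place (ResidueField A) F₁, v.deg = 1)
    (hdeg₂ : ∀ v : Place (ResidueField A) F₂, v.deg = 1)
    {W : Type*} [CommRing W] [Algebra W ↥A]
    (hW : ∀ a : K, a ∈ ttbFix A ρ → ∃ w : W, ((algebraMap W ↥A w : ↥A) : K) = a) :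
    g + 1 = g₁ + g₂ + Fintype.card S ∧
    ∃ (l₁ : Place (ResidueField A) F₁ → Place K F) (l₂ : Place (ResidueField A) F₂ → Place K F)
      (m : ℕ) (C : TtgrClosed ν₁ ν₂ g₁ g₂ T₁ T₂ m)
      (n : ℕ → ℕ) (b : ∀ i, Fin (n i) → ↥(V₁.toSubring ⊓ V₂.toSubring))
      (cW : ∀ i j k : ℕ, Fin (n i) → Fin (n j) → Fin (n k) → W)
      (fibK : FffmFib (fun i => Fin (n i)) K F g
        (fun i j k p q s => ((algebraMap W ↥A (cW i j k p q s) : ↥A) : K)))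
      (fibk : TtnkFib (fun i => Fin (n i)) (ResidueField A) F₁ F₂ g₁ g₂ S
        (fun i j k p q s => residue ↥A (algebraMap W ↥A (cW i j k p q s)))),
      5 * (g₁ + g₂ + Fintype.card S) ≤ m ∧
      (∀ Q, Q ∉ T₁ → cls (l₁ Q) = some (Sum.inl Q)) ∧
      (∀ Q, Q ∉ T₂ → cls (l₂ Q) = some (Sum.inr Q)) ∧
      (∀ Q, Q ∉ T₁ → ∀ σ : G, ρ σ • l₁ Q = l₁ Q) ∧
      (∀ Q, Q ∉ T₂ → ∀ σ : G, ρ σ • l₂ Q = l₂ Q) ∧
      fibK.dd = C.dd l₁ l₂ ∧ fibk.dd₁ = C.dd₁ ∧ fibk.dd₂ = C.dd₂ ∧ fibk.ν₁ = ν₁ ∧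
      fibk.ν₂ = ν₂ ∧
      (∀ i, fibK.b i = fun p => ((b i p : ↥(V₁.toSubring ⊓ V₂.toSubring)) : F)) ∧
      (∀ i, fibk.coord.b i = fun p => ttgRed red₁ red₂ (b i p)) ∧
      ∀ i, 1 ≤ i → i ≤ 5 →
        TteBasis (ttgRed red₁ red₂) ρ (riemannRochSpace (i • C.dd l₁ l₂))
          (ttnkL ν₁ ν₂ (i • C.dd₁) (i • C.dd₂)) (b i) := by
  classical
  have hg := ttgm_genus Mod RR hdeg RR₁ RR₂ hdeg₁ hdeg₂
  refine ⟨hg, ?_⟩
  haveI := ttgm_infinite_place RR₁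
  haveI := ttgm_infinite_place RR₂
  have hs : 1 ≤ Fintype.card S := Fintype.card_pos_iff.mpr Mod.nodes
  obtain ⟨C⟩ := ttgr_exists_closed RR₁ RR₂ hdeg₁ hdeg₂ ν₁ ν₂ Mod.ν₁_inj Mod.ν₂_inj hs T₁ T₂
    (5 * (g₁ + g₂ + Fintype.card S))
  obtain ⟨P₀⟩ := RR.place
  have hl₁ : ∀ Q, Q ∉ T₁ → cls (ttgmL₁ Mod P₀ Q) = some (Sum.inl Q) :=
    fun Q hQ => (ttgm_L₁_spec Mod P₀ hQ).1
  have hl₂ : ∀ Q, Q ∉ T₂ → cls (ttgmL₂ Mod P₀ Q) = some (Sum.inr Q) :=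
    fun Q hQ => (ttgm_L₂_spec Mod P₀ hQ).1
  have hf₁ : ∀ Q, Q ∉ T₁ → ∀ σ : G, ρ σ • ttgmL₁ Mod P₀ Q = ttgmL₁ Mod P₀ Q :=
    fun Q hQ => (ttgm_L₁_spec Mod P₀ hQ).2
  have hf₂ : ∀ Q, Q ∉ T₂ → ∀ σ : G, ρ σ • ttgmL₂ Mod P₀ Q = ttgmL₂ Mod P₀ Q :=
    fun Q hQ => (ttgm_L₂_spec Mod P₀ hQ).2
  obtain ⟨n, b, cW, fibK, fibk, e1, e2, e3, e4, e5, e6, e7, hb⟩ :=
    ttgr_model Mod.toRed ρ RR hdeg RR₁ RR₂ hdeg₁ hdeg₂ Mod.ν₁_inj Mod.ν₂_inj hg le_rfl C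
      (ttgmL₁ Mod P₀) (ttgmL₂ Mod P₀) (fun Q hQ _ => hf₁ Q hQ) (fun Q hQ _ => hf₂ Q hQ)
      (fun i _ _ x hx => by
        rw [ttgr_nsmul_dd] at hx
        exact ttgm_into (ttgmL₁ Mod P₀) (ttgmL₂ Mod P₀) hl₁ hl₂ (ttgm_nsmul_T C.hdd₁T i)
          (ttgm_nsmul_T C.hdd₂T i) Mod (nsmul_nonneg (ttgr_dd₁_nonneg C) i)
          (nsmul_nonneg (ttgr_dd₂_nonneg C) i) x hx)
      T₁ T₂
      (fun i _ _ => by
        rw [ttgr_nsmul_dd]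
        exact ttgm_lift₁ (ttgmL₁ Mod P₀) (ttgmL₂ Mod P₀) hl₁ hl₂ (ttgm_nsmul_T C.hdd₁T i)
          (ttgm_nsmul_T C.hdd₂T i) Mod hf₁)
      (fun i _ _ => by
        rw [ttgr_nsmul_dd]
        exact ttgm_lift₂ (ttgmL₁ Mod P₀) (ttgmL₂ Mod P₀) hl₁ hl₂ (ttgm_nsmul_T C.hdd₁T i)
          (ttgm_nsmul_T C.hdd₂T i) Mod hf₂)
      hW
  exact ⟨ttgmL₁ Mod P₀, ttgmL₂ Mod P₀, _, C, n, b, cW, fibK, fibk, le_rfl, hl₁, hl₂, hf₁, hf₂,
    e1, e2, e3, e4, e5, e6, e7, hb⟩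

end Model

end Fermat.Agent.TT
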