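import Fermat.Agent.FF.Core.DeltaInst
import Fermat.Agent.TT.Eng.Two
import Fermat.Agent.TT.Spec

/-!
# Program TT (S33), ORIGIN-C5b: the junction `origin data + engine ⟹ TtConnOut`

Owner: helper10.  Namespace `Fermat.Agent.TT`, prefix `ttgo`.

`𝔸 ⊂ ℚ̄` a valuation ring, `W = 𝔸^I`, `k = 𝔸/𝔪`; `F / ℚ̄` a function field with the fibre
`fibK` of the integral model (tables `cW` over `W`); `M` a finite abelian group (the kernel of
reduction `Γ0`), `D : M → Div` the effective representatives, `Z m` the normalised graph matrix of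
`L(𝔡 - D m)` in ONE chart `J`, all with the same closed fibre `Uk ≤ k^{ι 1}`.  The closed fibre
of the model is ABSTRACT: only the ten dimensions `TteClosed` of the addition script at the
inputs `(Uk, Uk, UEk, UEDk, UED3k)` and the identification `S10 = Uk` ("0 + 0 = 0") are used.

* `ttgo_sum_mem` : `((m, m') ↦ Z (m + m') j i) ∈ R` for every residually constant ring `R` of
  functions on `M × M` containing the coordinates of both factors
  (`tte_add_two` + `ffci_graph_mem`);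
* `ttgo_conn_of_prod` : `TtConnOut` from coordinate functions `z` (values in `𝔸`, equivariant,
  injective, residually constant) with `z j (m + m') ∈ W[z] ⊗ W[z]`;
* `ttgo_out_abs` : both together;
* `ttgo_transport` : `TtConnOut` is invariant under equivariant additive equivalences.
-/

set_option autoImplicit false

noncomputable section

namespace Fermat.Agent.TT

open Fermat.Agent.FF AlgebraicCurve IsLocalRing Module Fermat.Agent.V.RR Matrix

/-! ### the sum in graph coordinates lies in the ring of the product -/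

section Sum

variable (𝔸 : ValuationSubring FfQb) {F : Type} [Field F] [Algebra FfQb F]
  {ι : ℕ → Type} [∀ i, Fintype (ι i)] [∀ i, DecidableEq (ι i)]
  (cW : ∀ i j k : ℕ, ι i → ι j → ι k → FfcoW 𝔸) {g : ℕ}
  (fibK : FffmFib ι FfQb F g
    (fun i j k p q s => ((algebraMap (FfcoW 𝔸) ↥𝔸 (cW i j k p q s) : ↥𝔸) : FfQb)))
  {M : Type} [AddCommGroup M] [Finite M]

/-- the closed tables -/
abbrev ttgoTabk : ∀ i j k : ℕ, ι i → ι j → ι k → ResidueField ↥𝔸 :=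
  fun i j k p q s => residue ↥𝔸 (algebraMap (FfcoW 𝔸) ↥𝔸 (cW i j k p q s))

/-- the closed fibre of a matrix over `W` -/
abbrev ttgoRangek {m n : Type*} [Fintype n] (G : Matrix m n (FfcoW 𝔸)) :
    Submodule (ResidueField ↥𝔸) (m → ResidueField ↥𝔸) :=
  LinearMap.range (G.map fun w => residue ↥𝔸 (algebraMap (FfcoW 𝔸) ↥𝔸 w)).mulVecLin

/-- a matrix over `W`, pushed to `R`, evaluated at a point -/
theorem ttgo_map_ptK {X : Type*} (R : Subalgebra (FfcoW 𝔸) (X → ↥𝔸)) {m n : Type*}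
    (G : Matrix m n (FfcoW 𝔸)) (x : X) :
    (G.map (algebraMap (FfcoW 𝔸) R)).map (fffrPtK R 𝔸.subtype x) =
      G.map fun w => ((algebraMap (FfcoW 𝔸) ↥𝔸 w : ↥𝔸) : FfQb) := by
  ext a b; rfl

/-- a matrix over `W`, pushed to `R`, at the closed point -/
theorem ttgo_map_closed {X : Type*} (R : Subalgebra (FfcoW 𝔸) (X → ↥𝔸)) (x₀ : X) {m n : Type*}
    (G : Matrix m n (FfcoW 𝔸)) :
    (G.map (algebraMap (FfcoW 𝔸) R)).map (fffrClosed R x₀).toRingHom =
      G.map fun w => residue ↥𝔸 (algebraMap (FfcoW 𝔸) ↥𝔸 w) := by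
  ext a b; rfl

/-- **the engine at the origin**: the graph coordinates of `D (m + m')` are functions of the
graph coordinates of `D m` and `D m'`. -/
theorem ttgo_sum_mem
    (R : Subalgebra (FfcoW 𝔸) (M × M → ↥𝔸)) (hR : FffrResConst R)
    (D : M → Divisor FfQb F) (E D0 : Divisor FfQb F)
    (hD : ∀ m, 0 ≤ D m) (hDdeg : ∀ m, Divisor.degree (D m) = g)
    (hE : 0 ≤ E) (hEdeg : Divisor.degree E = 2 * Divisor.degree fibK.dd - 3 * g)
    (hD0 : 0 ≤ D0) (hD0deg : Divisor.degree D0 = g)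
    (huniq : ∀ (m m' : M) (Δ : Divisor FfQb F), 0 ≤ Δ →
      (Δ - (D m + D m' - D0)).IsPrincipal → Δ = D (m + m'))
    (J : Finset (ι 1)) (Z : M → ι 1 → ι 1 → ↥𝔸)
    (hJ : (J.card : ℤ) = Divisor.degree fibK.dd + 1 - 2 * g)
    (hnorm : ∀ m, FfcdNorm J (Z m))
    (hRL : ∀ j i, (fun p : M × M => Z p.1 j i) ∈ R)
    (hRR : ∀ j i, (fun p : M × M => Z p.2 j i) ∈ R)
    (hZgen : ∀ m, (ffcdGraph J (fun j i => ((Z m j i : ↥𝔸) : FfQb))).map (fibK.real 1) =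
      riemannRochSpace (fibK.dd - D m))
    (Uk : Submodule (ResidueField ↥𝔸) (ι 1 → ResidueField ↥𝔸))
    (hZspec : ∀ m, ffcdGraph J (fun j i => residue ↥𝔸 (Z m j i)) = Uk)
    {σE σ2 σ3 : Type*} [Fintype σE] [Fintype σ2] [Fintype σ3]
    [DecidableEq σE] [DecidableEq σ2] [DecidableEq σ3]
    (GE : Matrix (ι 2) σE (FfcoW 𝔸)) (GED : Matrix (ι 2) σ2 (FfcoW 𝔸))
    (GED3 : Matrix (ι 3) σ3 (FfcoW 𝔸))
    (hGE : FffmRep fibK 2 (GE.map fun w => ((algebraMap (FfcoW 𝔸) ↥𝔸 w : ↥𝔸) : FfQb))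
      (2 • fibK.dd - E))
    (hGED : FffmRep fibK 2 (GED.map fun w => ((algebraMap (FfcoW 𝔸) ↥𝔸 w : ↥𝔸) : FfQb))
      (2 • fibK.dd - E - D0))
    (hGED3 : FffmRep fibK 3 (GED3.map fun w => ((algebraMap (FfcoW 𝔸) ↥𝔸 w : ↥𝔸) : FfQb))
      (3 • fibK.dd - E - D0))
    (hcl : TteClosed (ttgoTabk 𝔸 cW)
      ⟨Uk, Uk, ttgoRangek 𝔸 GE, ttgoRangek 𝔸 GED, ttgoRangek 𝔸 GED3⟩ g
      (Divisor.degree fibK.dd))
    (hN2 : tteS10 (ttgoTabk 𝔸 cW)
      ⟨Uk, Uk, ttgoRangek 𝔸 GE, ttgoRangek 𝔸 GED, ttgoRangek 𝔸 GED3⟩ = Uk)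
    (j i : ι 1) :
    (fun p : M × M => Z (p.1 + p.2) j i) ∈ R := by
  classical
  set x₀ : M × M := (0, 0) with hx₀
  set δ : ℤ := Divisor.degree fibK.dd with hδ
  have hloc : IsLocalHom (fffrClosed R x₀).toRingHom := fffrClosed_isLocalHom hR x₀
  set cR : ∀ i j k : ℕ, ι i → ι j → ι k → R :=
    fun i j k p q s => algebraMap (FfcoW 𝔸) R (cW i j k p q s) with hcR
  have hck : ttgoTabk 𝔸 cW = tteTabsOf cR (fffrClosed R x₀).toRingHom := rfl
  have hcK : ∀ pp : M × M,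
      (fun i j k p q s => ((algebraMap (FfcoW 𝔸) ↥𝔸 (cW i j k p q s) : ↥𝔸) : FfQb)) =
      tteTabsOf cR (fffrPtK R 𝔸.subtype pp) := fun pp => rfl
  -- the universal graph matrices over `R`
  set GD : Matrix (ι 1) J R := ffcdMat J (fun j i => (⟨_, hRL j i⟩ : R)) with hGDdef
  set GD' : Matrix (ι 1) J R := ffcdMat J (fun j i => (⟨_, hRR j i⟩ : R)) with hGD'def
  have hGDK : ∀ pp : M × M, GD.map (fffrPtK R 𝔸.subtype pp) =
      ffcdMat J (fun j i => ((Z pp.1 j i : ↥𝔸) : FfQb)) := fun pp => by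
    rw [hGDdef, ffcdMat_map]; rfl
  have hGD'K : ∀ pp : M × M, GD'.map (fffrPtK R 𝔸.subtype pp) =
      ffcdMat J (fun j i => ((Z pp.2 j i : ↥𝔸) : FfQb)) := fun pp => by
    rw [hGD'def, ffcdMat_map]; rfl
  have hGDk : GD.map (fffrClosed R x₀).toRingHom =
      ffcdMat J (fun j i => residue ↥𝔸 (Z 0 j i)) := by
    rw [hGDdef, ffcdMat_map]; rfl
  have hGD'k : GD'.map (fffrClosed R x₀).toRingHom =
      ffcdMat J (fun j i => residue ↥𝔸 (Z 0 j i)) := by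
    rw [hGD'def, ffcdMat_map]; rfl
  -- the closed inputs
  have hIn : tteInOf (fffrClosed R x₀).toRingHom GD GD' (GE.map (algebraMap (FfcoW 𝔸) R))
      (GED.map (algebraMap (FfcoW 𝔸) R)) (GED3.map (algebraMap (FfcoW 𝔸) R)) =
      ⟨Uk, Uk, ttgoRangek 𝔸 GE, ttgoRangek 𝔸 GED, ttgoRangek 𝔸 GED3⟩ := by
    unfold tteInOf
    rw [hGDk, hGD'k, ttgo_map_closed, ttgo_map_closed, ttgo_map_closed, ffcd_range_mat, hZspec 0]
  obtain ⟨P, hP, hPcl, hPgen⟩ := tte_add_two cR (fffrClosed R x₀).toRingHom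
    (fun pp => fffrPtK R 𝔸.subtype pp)
    (fun b hb => fffr_ptK_jointly_injective R 𝔸.subtype Subtype.val_injective b hb)
    (fun pp => fibK.cast (hcK pp)) δ
    (fun pp => D pp.1) (fun pp => D pp.2) (fun _ => E) (fun _ => D0)
    GD GD' (GE.map (algebraMap (FfcoW 𝔸) R)) (GED.map (algebraMap (FfcoW 𝔸) R))
    (GED3.map (algebraMap (FfcoW 𝔸) R))
    (fun pp => by
      refine ⟨by rw [FffmFib.cast_dd], hD pp.1, hDdeg pp.1, hD pp.2, hDdeg pp.2, hE, hEdeg,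
        hD0, hD0deg, ?_, ?_, ?_, ?_, ?_⟩
      · show TteRepS _ 1 (LinearMap.range (GD.map (fffrPtK R 𝔸.subtype pp)).mulVecLin) _
        rw [tteRepS_range, fffmRep_cast, FffmFib.cast_dd, hGDK]
        exact fffm_rep_of_graph fibK 1 J _ (hZgen pp.1)
      · show TteRepS _ 1 (LinearMap.range (GD'.map (fffrPtK R 𝔸.subtype pp)).mulVecLin) _
        rw [tteRepS_range, fffmRep_cast, FffmFib.cast_dd, hGD'K]
        exact fffm_rep_of_graph fibK 1 J _ (hZgen pp.2)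
      · show TteRepS _ 2 (LinearMap.range
          ((GE.map (algebraMap (FfcoW 𝔸) R)).map (fffrPtK R 𝔸.subtype pp)).mulVecLin) _
        rw [tteRepS_range, fffmRep_cast, FffmFib.cast_dd, ttgo_map_ptK]
        exact hGE
      · show TteRepS _ 2 (LinearMap.range
          ((GED.map (algebraMap (FfcoW 𝔸) R)).map (fffrPtK R 𝔸.subtype pp)).mulVecLin) _
        rw [tteRepS_range, fffmRep_cast, FffmFib.cast_dd, ttgo_map_ptK]
        exact hGED
      · show TteRepS _ 3 (LinearMap.range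
          ((GED3.map (algebraMap (FfcoW 𝔸) R)).map (fffrPtK R 𝔸.subtype pp)).mulVecLin) _
        rw [tteRepS_range, fffmRep_cast, FffmFib.cast_dd, ttgo_map_ptK]
        exact hGED3)
    (by rw [hIn, ← hck]; exact hcl)
  rw [hIn, ← hck, hN2] at hPcl
  -- identification
  refine ffci_graph_mem hR x₀ hP J ?_ ?_ 𝔸.subtype Subtype.val_injective
    (fun p => Z (p.1 + p.2)) (fun p => hnorm _) ?_ j i
  · -- closed rank
    have h1 : (P.map (fffrClosed R x₀).toRingHom).rank = finrank (ResidueField ↥𝔸) Uk := by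
      rw [Matrix.rank, hPcl]
    have h2 := hcl.h10
    rw [hN2] at h2
    have h5 := fibK.hdd
    rw [h1, h2]
    omega
  · -- separation
    intro v hv h0
    rw [hPcl, ← hZspec 0] at hv
    exact ffcd_graph_eq_zero hv h0
  · intro p
    obtain ⟨D'', h0, -, hprin, hrep⟩ := hPgen p
    have hD'' := huniq p.1 p.2 D'' h0 hprin
    rw [fffmRep_cast, FffmFib.cast_dd, hD''] at hrep
    have h1 := fffm_rep_of_graph fibK 1 J _ (hZgen (p.1 + p.2))
    rw [fffm_rep_range_eq fibK le_rfl (by norm_num) hrep h1, ffcd_range_mat]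
    rfl

end Sum

/-! ### `TtConnOut` from coordinate functions -/

section Conn

variable (𝔸 : ValuationSubring FfQb) {M : Type} [AddCommGroup M]

/-- an `𝔸`-valued function as a `ℚ̄`-valued function -/
def ttgoCoe (f : M → ↥𝔸) : M → FfQb := fun m => ((f m : ↥𝔸) : FfQb)

theorem ttgoCoe_apply (f : M → ↥𝔸) (m : M) : ttgoCoe 𝔸 f m = ((f m : ↥𝔸) : FfQb) := rfl

/-- `W[z]` inside the `𝔸`-valued functions maps to `W[z]` inside the `ℚ̄`-valued functions -/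
theorem ttgo_coe_mem_adjoin {Jt : Type} (z : Jt → M → ↥𝔸) {f : M → ↥𝔸}
    (hf : f ∈ Algebra.adjoin (FfcoW 𝔸) (Set.range z)) :
    ttgoCoe 𝔸 f ∈ Algebra.adjoin ↥(ffWI 𝔸) (Set.range fun j => ttgoCoe 𝔸 (z j)) := by
  induction hf using Algebra.adjoin_induction with
  | mem f hf =>
    obtain ⟨j, rfl⟩ := hf
    exact Algebra.subset_adjoin ⟨j, rfl⟩
  | algebraMap w =>
    have h : ttgoCoe 𝔸 (algebraMap (FfcoW 𝔸) (M → ↥𝔸) w) =
        algebraMap ↥(ffWI 𝔸) (M → FfQb) w := rfl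
    rw [h]
    exact Subalgebra.algebraMap_mem _ _
  | add f g _ _ hf hg =>
    have h : ttgoCoe 𝔸 (f + g) = ttgoCoe 𝔸 f + ttgoCoe 𝔸 g := rfl
    rw [h]
    exact Subalgebra.add_mem _ hf hg
  | mul f g _ _ hf hg =>
    have h : ttgoCoe 𝔸 (f * g) = ttgoCoe 𝔸 f * ttgoCoe 𝔸 g := rfl
    rw [h]
    exact Subalgebra.mul_mem _ hf hg

/-- **`TtConnOut` from coordinate functions.** -/
theorem ttgo_conn_of_prod (act : ↥(ffI 𝔸) → M → M) {Jt : Type} [Fintype Jt]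
    (z : Jt → M → ↥𝔸)
    (hequiv : ∀ j (σ : ↥(ffI 𝔸)) m,
      ((z j (act σ m) : ↥𝔸) : FfQb) = (σ : FfGal) ((z j m : ↥𝔸) : FfQb))
    (hinj : ∀ m m', (∀ j, z j m = z j m') → m = m')
    (hconn : ∀ j m, residue ↥𝔸 (z j m) = residue ↥𝔸 (z j 0))
    (hprod : ∀ j, (fun p : M × M => z j (p.1 + p.2)) ∈
      fffrProd (Algebra.adjoin (FfcoW 𝔸) (Set.range z))
        (Algebra.adjoin (FfcoW 𝔸) (Set.range z))) :
    TtConnOut 𝔸 M act := by
  classical
  have hcoe : ((Finset.univ.image fun j => ttgoCoe 𝔸 (z j) : Finset (M → FfQb)) :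
      Set (M → FfQb)) = Set.range fun j => ttgoCoe 𝔸 (z j) := by
    rw [Finset.coe_image, Finset.coe_univ, Set.image_univ]
  refine ⟨Finset.univ.image fun j => ttgoCoe 𝔸 (z j), ?_, ?_, ?_, ?_, ?_⟩
  · intro φ hφ m
    obtain ⟨j, -, rfl⟩ := Finset.mem_image.1 hφ
    exact (z j m).2
  · intro φ hφ σ m
    obtain ⟨j, -, rfl⟩ := Finset.mem_image.1 hφ
    exact hequiv j σ m
  · intro m m' hne
    by_contra hcon
    push Not at hcon
    refine hne (hinj m m' fun j => Subtype.ext ?_)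
    exact hcon _ (Finset.mem_image.2 ⟨j, Finset.mem_univ _, rfl⟩)
  · intro φ hφ
    obtain ⟨j, -, rfl⟩ := Finset.mem_image.1 hφ
    obtain ⟨n, a, b, hab⟩ := (fffr_mem_prod_iff _ _ _).1 (hprod j)
    rw [hcoe]
    refine ⟨n, fun i => ⟨ttgoCoe 𝔸 (a i).1, ttgo_coe_mem_adjoin 𝔸 z (a i).2⟩,
      fun i => ⟨ttgoCoe 𝔸 (b i).1, ttgo_coe_mem_adjoin 𝔸 z (b i).2⟩, fun m m' => ?_⟩
    have h1 := congrArg (fun t : 𝔸 => (t : FfQb)) (hab m m')
    simp only at h1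
    rw [ttgoCoe_apply, h1]
    push_cast
    rfl
  · intro φ hφ m
    obtain ⟨j, -, rfl⟩ := Finset.mem_image.1 hφ
    have h0 : residue ↥𝔸 (z j m - z j 0) = 0 := by rw [map_sub, hconn j m, sub_self]
    rw [residue_eq_zero_iff] at h0
    rw [ValuationSubring.mem_nonunits_iff_exists_mem_maximalIdeal]
    exact ⟨(z j m - z j 0).2, h0⟩

end Conn

/-! ### the junction -/

section Out

variable (𝔸 : ValuationSubring FfQb) {F : Type} [Field F] [Algebra FfQb F]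
  {ι : ℕ → Type} [∀ i, Fintype (ι i)] [∀ i, DecidableEq (ι i)]
  (cW : ∀ i j k : ℕ, ι i → ι j → ι k → FfcoW 𝔸) {g : ℕ}
  (fibK : FffmFib ι FfQb F g
    (fun i j k p q s => ((algebraMap (FfcoW 𝔸) ↥𝔸 (cW i j k p q s) : ↥𝔸) : FfQb)))
  {M : Type} [AddCommGroup M] [Finite M]

/-- **ORIGIN-C5b, abstract form**: the connected (CORE-OUT) for `M` from the divisor data at the
origin (one chart `J`, one closed fibre `Uk`), the generic fibre `fibK` and the ten dimensions of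
the abstract closed fibre. -/
theorem ttgo_out_abs (act : ↥(ffI 𝔸) → M → M)
    (D : M → Divisor FfQb F) (E D0 : Divisor FfQb F)
    (hD : ∀ m, 0 ≤ D m) (hDdeg : ∀ m, Divisor.degree (D m) = g)
    (hE : 0 ≤ E) (hEdeg : Divisor.degree E = 2 * Divisor.degree fibK.dd - 3 * g)
    (hD0 : 0 ≤ D0) (hD0deg : Divisor.degree D0 = g)
    (huniq : ∀ (m m' : M) (Δ : Divisor FfQb F), 0 ≤ Δ →
      (Δ - (D m + D m' - D0)).IsPrincipal → Δ = D (m + m'))
    (J : Finset (ι 1)) (Z : M → ι 1 → ι 1 → ↥𝔸)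
    (hJ : (J.card : ℤ) = Divisor.degree fibK.dd + 1 - 2 * g)
    (hnorm : ∀ m, FfcdNorm J (Z m))
    (hZgen : ∀ m, (ffcdGraph J (fun j i => ((Z m j i : ↥𝔸) : FfQb))).map (fibK.real 1) =
      riemannRochSpace (fibK.dd - D m))
    (Uk : Submodule (ResidueField ↥𝔸) (ι 1 → ResidueField ↥𝔸))
    (hZspec : ∀ m, ffcdGraph J (fun j i => residue ↥𝔸 (Z m j i)) = Uk)
    (hZequiv : ∀ (σ : ↥(ffI 𝔸)) m j i,
      ((Z (act σ m) j i : ↥𝔸) : FfQb) = (σ : FfGal) ((Z m j i : ↥𝔸) : FfQb))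
    (hZinj : ∀ m m', Z m = Z m' → m = m')
    {σE σ2 σ3 : Type*} [Fintype σE] [Fintype σ2] [Fintype σ3]
    [DecidableEq σE] [DecidableEq σ2] [DecidableEq σ3]
    (GE : Matrix (ι 2) σE (FfcoW 𝔸)) (GED : Matrix (ι 2) σ2 (FfcoW 𝔸))
    (GED3 : Matrix (ι 3) σ3 (FfcoW 𝔸))
    (hGE : FffmRep fibK 2 (GE.map fun w => ((algebraMap (FfcoW 𝔸) ↥𝔸 w : ↥𝔸) : FfQb))
      (2 • fibK.dd - E))
    (hGED : FffmRep fibK 2 (GED.map fun w => ((algebraMap (FfcoW 𝔸) ↥𝔸 w : ↥𝔸) : FfQb))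
      (2 • fibK.dd - E - D0))
    (hGED3 : FffmRep fibK 3 (GED3.map fun w => ((algebraMap (FfcoW 𝔸) ↥𝔸 w : ↥𝔸) : FfQb))
      (3 • fibK.dd - E - D0))
    (hcl : TteClosed (ttgoTabk 𝔸 cW)
      ⟨Uk, Uk, ttgoRangek 𝔸 GE, ttgoRangek 𝔸 GED, ttgoRangek 𝔸 GED3⟩ g
      (Divisor.degree fibK.dd))
    (hN2 : tteS10 (ttgoTabk 𝔸 cW)
      ⟨Uk, Uk, ttgoRangek 𝔸 GE, ttgoRangek 𝔸 GED, ttgoRangek 𝔸 GED3⟩ = Uk) :
    TtConnOut 𝔸 M act := by
  classical
  set z : ι 1 × ι 1 → M → ↥𝔸 := fun ji m => Z m ji.1 ji.2 with hz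
  have hres : ∀ m m', (fun j i => residue ↥𝔸 (Z m j i)) = fun j i => residue ↥𝔸 (Z m' j i) :=
    fun m m' => ffcd_graph_injective
      (fun j i h => by rw [hnorm m j i h, map_zero])
      (fun j i h => by rw [hnorm m' j i h, map_zero])
      ((hZspec m).trans (hZspec m').symm)
  have hconn : ∀ ji m, residue ↥𝔸 (z ji m) = residue ↥𝔸 (z ji 0) := fun ji m =>
    congrFun (congrFun (hres m 0) ji.1) ji.2
  set R₁ : Subalgebra (FfcoW 𝔸) (M → ↥𝔸) := Algebra.adjoin (FfcoW 𝔸) (Set.range z) with hR₁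
  have hR₁c : FffrResConst R₁ := by
    refine fffr_resConst_adjoin _ ?_
    rintro _ ⟨ji, rfl⟩ x y
    rw [hconn ji x, hconn ji y]
  refine ttgo_conn_of_prod 𝔸 act z (fun ji σ m => hZequiv σ m ji.1 ji.2)
    (fun m m' h => hZinj m m' (funext fun j => funext fun i => h (j, i))) hconn fun ji => ?_
  exact ttgo_sum_mem 𝔸 cW fibK (fffrProd R₁ R₁) (hR₁c.prod hR₁c) D E D0 hD hDdeg hE hEdeg hD0
    hD0deg huniq J Z hJ hnorm
    (fun j i => fffr_pullL_mem_prod R₁ R₁ (f := z (j, i))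
      (Algebra.subset_adjoin (Set.mem_range_self (j, i))))
    (fun j i => fffr_pullR_mem_prod R₁ R₁ (f := z (j, i))
      (Algebra.subset_adjoin (Set.mem_range_self (j, i))))
    hZgen Uk hZspec GE GED GED3 hGE hGED hGED3 hcl hN2 ji.1 ji.2

end Out

/-! ### transport along an equivariant additive equivalence -/

section Transport

variable (𝔸 : ValuationSubring FfQb) {M M' : Type} [AddCommGroup M] [AddCommGroup M']

/-- pull back of functions along a map, as an algebra homomorphism -/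
def ttgoPull (e : M' → M) : (M → FfQb) →ₐ[↥(ffWI 𝔸)] (M' → FfQb) where
  toFun f := fun m' => f (e m')
  map_one' := rfl
  map_mul' _ _ := rfl
  map_zero' := rfl
  map_add' _ _ := rfl
  commutes' _ := rfl

/-- **`TtConnOut` is invariant under equivariant additive equivalences.** -/
theorem ttgo_transport (e : M ≃+ M') (act : ↥(ffI 𝔸) → M → M) (act' : ↥(ffI 𝔸) → M' → M')
    (he : ∀ σ m, e (act σ m) = act' σ (e m)) (h : TtConnOut 𝔸 M act) : TtConnOut 𝔸 M' act' := by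
  classical
  obtain ⟨Gen, h1, h2, h3, h4, h5⟩ := h
  have hsymm : ∀ σ m', e.symm (act' σ m') = act σ (e.symm m') := by
    intro σ m'
    apply e.injective
    rw [e.apply_symm_apply, he, e.apply_symm_apply]
  have hmap : ∀ f ∈ Algebra.adjoin ↥(ffWI 𝔸) (↑Gen : Set (M → FfQb)),
      ttgoPull 𝔸 e.symm f ∈ Algebra.adjoin ↥(ffWI 𝔸)
        (↑(Gen.image (ttgoPull 𝔸 e.symm)) : Set (M' → FfQb)) := by
    intro f hf
    rw [Finset.coe_image, ← AlgHom.map_adjoin]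
    exact ⟨f, hf, rfl⟩
  refine ⟨Gen.image (ttgoPull 𝔸 e.symm), ?_, ?_, ?_, ?_, ?_⟩
  · intro φ hφ m'
    obtain ⟨ψ, hψ, rfl⟩ := Finset.mem_image.1 hφ
    exact h1 ψ hψ _
  · intro φ hφ σ m'
    obtain ⟨ψ, hψ, rfl⟩ := Finset.mem_image.1 hφ
    show ψ (e.symm (act' σ m')) = (σ : FfGal) (ψ (e.symm m'))
    rw [hsymm, h2 ψ hψ]
  · intro m m' hne
    obtain ⟨ψ, hψ, hψne⟩ := h3 (e.symm m) (e.symm m') fun h => hne (e.symm.injective h)
    exact ⟨_, Finset.mem_image.2 ⟨ψ, hψ, rfl⟩, hψne⟩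
  · intro φ hφ
    obtain ⟨ψ, hψ, rfl⟩ := Finset.mem_image.1 hφ
    obtain ⟨n, a, b, hab⟩ := h4 ψ hψ
    refine ⟨n, fun i => ⟨_, hmap _ (a i).2⟩, fun i => ⟨_, hmap _ (b i).2⟩, fun m m' => ?_⟩
    show ψ (e.symm (m + m')) = _
    rw [map_add, hab]
    rfl
  · intro φ hφ m'
    obtain ⟨ψ, hψ, rfl⟩ := Finset.mem_image.1 hφ
    show ψ (e.symm m') - ψ (e.symm 0) ∈ 𝔸.nonunits
    rw [map_zero]
    exact h5 ψ hψ _

end Transport

end Fermat.Agent.TT
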