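import Fermat.Agent.TT.Geom.Out
import Fermat.Agent.TT.C5a.Origin

/-!
# Program TT (S33), ORIGIN-C5b, part II: the junction in the literals of origin-C5a

Owner: helper10.  Namespace `Fermat.Agent.TT`, prefix `ttgo`.

* `ttgo_out` : `TtConnOut 𝔸 ↥X act` from helper1's `TtcoData` (level one: `D γ`, the chart `J`,
  the graph coordinates `Z γ`, all with closed fibre `Uk`), three fixed lattices in the output
  shape of `ttco_fixed` (`Gam`-fixed graph matrices of `L(2𝔡 - E)`, `L(2𝔡 - (E + D0))`,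
  `L(3𝔡 - (E + D0))` with closed fibres `UEk`, `UFk`, `UGk`), the generic fibre `fibK` and the
  abstract closed fibre: `TteClosed` + `S10 = Uk` at the inputs `(Uk, Uk, UEk, UFk, UGk)`.
-/

set_option autoImplicit false
set_option linter.unusedSectionVars false

noncomputable section

namespace Fermat.Agent.TT

open Fermat.Agent.FF AlgebraicCurve IsLocalRing Module Fermat.Agent.V.RR Matrix

section Out

variable (𝔸 : ValuationSubring FfQb) {F : Type} [Field F] [Algebra FfQb F]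
  {ι : ℕ → Type} [∀ i, Fintype (ι i)] [∀ i, DecidableEq (ι i)]
  (cW : ∀ i j k : ℕ, ι i → ι j → ι k → FfcoW 𝔸) {g : ℕ}
  (fibK : FffmFib ι FfQb F g
    (fun i j k p q s => ((algebraMap (FfcoW 𝔸) ↥𝔸 (cW i j k p q s) : ↥𝔸) : FfQb)))

/-- the closed fibre of the graph matrix of a `W`-valued normalised matrix -/
theorem ttgo_rangek_mat {ι' : Type} [Fintype ι'] [DecidableEq ι'] (J : Finset ι')
    (Z : ι' → ι' → FfcoW 𝔸) :
    ttgoRangek 𝔸 (ffcdMat J Z) =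
      ffcdGraph J (fun j i => residue ↥𝔸 (algebraMap (FfcoW 𝔸) ↥𝔸 (Z j i))) := by
  rw [ttgoRangek, ← ffcd_range_mat]
  congr 2
  exact ffcdMat_map ((residue ↥𝔸).comp (algebraMap (FfcoW 𝔸) ↥𝔸)) J Z

/-- **ORIGIN-C5b**: the connected (CORE-OUT) for the finite subgroup `X` of classes near the
origin. -/
theorem ttgo_out {Gam : Subgroup (SemilinearAut FfQb F)} (X : AddSubgroup (Pic0 FfQb F))
    [Finite X] (D0 E : Divisor FfQb F)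
    (hE : 0 ≤ E) (hEdeg : Divisor.degree E = 2 * Divisor.degree fibK.dd - 3 * g)
    (hD0 : 0 ≤ D0) (hD0deg : Divisor.degree D0 = g)
    (Uk : Submodule (ResidueField ↥𝔸) (ι 1 → ResidueField ↥𝔸))
    (dat : TtcoData 𝔸 Gam X g fibK.dd D0 (fibK.b 1) Uk)
    (act : ↥(ffI 𝔸) → ↥X → ↥X)
    (hact : ∀ σ : ↥(ffI 𝔸), ∃ τ ∈ Gam,
      (∀ a : FfQb, SemilinearAut.baseAut τ a = (σ : FfGal) a) ∧
      ∀ γ : X, ((act σ γ : X) : Pic0 FfQb F) = τ • (γ : Pic0 FfQb F))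
    -- the fixed lattice `L(2𝔡 - E)`
    (JE : Finset (ι 2)) (ZE : ι 2 → ι 2 → ↥𝔸)
    (hZEfix : ∀ σ ∈ Gam, ∀ j i,
      SemilinearAut.baseAut σ ((ZE j i : ↥𝔸) : FfQb) = ((ZE j i : ↥𝔸) : FfQb))
    (hZEgen : (ffcdGraph JE (fun j i => ((ZE j i : ↥𝔸) : FfQb))).map
      (ffcdReal FfQb (fibK.b 2)) = riemannRochSpace ((2 : ℕ) • fibK.dd - E))
    (UEk : Submodule (ResidueField ↥𝔸) (ι 2 → ResidueField ↥𝔸))
    (hZEspec : ffcdGraph JE (fun j i => residue ↥𝔸 (ZE j i)) = UEk)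
    -- the fixed lattice `L(2𝔡 - (E + D0))`
    (JF : Finset (ι 2)) (ZF : ι 2 → ι 2 → ↥𝔸)
    (hZFfix : ∀ σ ∈ Gam, ∀ j i,
      SemilinearAut.baseAut σ ((ZF j i : ↥𝔸) : FfQb) = ((ZF j i : ↥𝔸) : FfQb))
    (hZFgen : (ffcdGraph JF (fun j i => ((ZF j i : ↥𝔸) : FfQb))).map
      (ffcdReal FfQb (fibK.b 2)) = riemannRochSpace ((2 : ℕ) • fibK.dd - (E + D0)))
    (UFk : Submodule (ResidueField ↥𝔸) (ι 2 → ResidueField ↥𝔸))
    (hZFspec : ffcdGraph JF (fun j i => residue ↥𝔸 (ZF j i)) = UFk)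
    -- the fixed lattice `L(3𝔡 - (E + D0))`
    (JG : Finset (ι 3)) (ZG : ι 3 → ι 3 → ↥𝔸)
    (hZGfix : ∀ σ ∈ Gam, ∀ j i,
      SemilinearAut.baseAut σ ((ZG j i : ↥𝔸) : FfQb) = ((ZG j i : ↥𝔸) : FfQb))
    (hZGgen : (ffcdGraph JG (fun j i => ((ZG j i : ↥𝔸) : FfQb))).map
      (ffcdReal FfQb (fibK.b 3)) = riemannRochSpace ((3 : ℕ) • fibK.dd - (E + D0)))
    (UGk : Submodule (ResidueField ↥𝔸) (ι 3 → ResidueField ↥𝔸))
    (hZGspec : ffcdGraph JG (fun j i => residue ↥𝔸 (ZG j i)) = UGk)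
    -- the abstract closed fibre
    (hcl : TteClosed (ttgoTabk 𝔸 cW) ⟨Uk, Uk, UEk, UFk, UGk⟩ g (Divisor.degree fibK.dd))
    (hN2 : tteS10 (ttgoTabk 𝔸 cW) ⟨Uk, Uk, UEk, UFk, UGk⟩ = Uk) :
    TtConnOut 𝔸 ↥X act := by
  classical
  have hfixW : ∀ a : ↥𝔸, (∀ τ ∈ Gam, SemilinearAut.baseAut τ (a : FfQb) = a) →
      (a : FfQb) ∈ ffW 𝔸 (𝔸.inertiaSubgroupIn ℚ) := by
    intro a ha
    refine ⟨a.2, fun σ hσ => ?_⟩
    obtain ⟨τ, hτ, hτb, -⟩ := hact ⟨σ, hσ⟩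
    rw [← hτb]
    exact ha τ hτ
  set ZEW : ι 2 → ι 2 → FfcoW 𝔸 := fun j i =>
    ⟨((ZE j i : ↥𝔸) : FfQb), hfixW _ fun τ hτ => hZEfix τ hτ j i⟩ with hZEW
  set ZFW : ι 2 → ι 2 → FfcoW 𝔸 := fun j i =>
    ⟨((ZF j i : ↥𝔸) : FfQb), hfixW _ fun τ hτ => hZFfix τ hτ j i⟩ with hZFW
  set ZGW : ι 3 → ι 3 → FfcoW 𝔸 := fun j i =>
    ⟨((ZG j i : ↥𝔸) : FfQb), hfixW _ fun τ hτ => hZGfix τ hτ j i⟩ with hZGW
  have hmapK : ∀ {ι' : Type} [Fintype ι'] [DecidableEq ι'] (J : Finset ι')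
      (Z : ι' → ι' → FfcoW 𝔸),
      (ffcdMat J Z).map (fun w => ((algebraMap (FfcoW 𝔸) ↥𝔸 w : ↥𝔸) : FfQb)) =
        ffcdMat J (fun j i => ((algebraMap (FfcoW 𝔸) ↥𝔸 (Z j i) : ↥𝔸) : FfQb)) :=
    fun J Z => ffcdMat_map (𝔸.subtype.comp (algebraMap (FfcoW 𝔸) ↥𝔸)) J Z
  have hE' : ttgoRangek 𝔸 (ffcdMat JE ZEW) = UEk := by
    rw [ttgo_rangek_mat, ← hZEspec]; rfl
  have hF' : ttgoRangek 𝔸 (ffcdMat JF ZFW) = UFk := by
    rw [ttgo_rangek_mat, ← hZFspec]; rfl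
  have hG' : ttgoRangek 𝔸 (ffcdMat JG ZGW) = UGk := by
    rw [ttgo_rangek_mat, ← hZGspec]; rfl
  refine ttgo_out_abs 𝔸 cW fibK act dat.D E D0 dat.D_nonneg dat.D_deg hE hEdeg hD0 hD0deg
    (fun m m' Δ h0 hp => dat.D_unique m m' Δ h0 hp) dat.J dat.Z dat.J_card dat.Z_norm dat.Z_gen
    Uk dat.Z_spec ?_ dat.Z_inj (ffcdMat JE ZEW) (ffcdMat JF ZFW) (ffcdMat JG ZGW) ?_ ?_ ?_
    (by rw [hE', hF', hG']; exact hcl) (by rw [hE', hF', hG']; exact hN2)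
  · intro σ m j i
    obtain ⟨τ, hτ, hτb, hτm⟩ := hact σ
    rw [dat.Z_smul τ hτ m (act σ m) (hτm m) j i, hτb]
  · rw [hmapK]
    exact fffm_rep_of_graph fibK 2 JE _ hZEgen
  · rw [hmapK, sub_sub]
    exact fffm_rep_of_graph fibK 2 JF _ hZFgen
  · rw [hmapK, sub_sub]
    exact fffm_rep_of_graph fibK 3 JG _ hZGgen

end Out

end Fermat.Agent.TT
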