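import Fermat.Agent.TT.Geom.Spec

/-!
# PROGRAM TT (S33), arrow (A): the calculus of the two reductions `ttgPush₁`, `ttgPush₂`

Owner: helper24.  Namespace `Fermat.Agent.TT`, prefix `ttg`.

Additivity of `ttgPush₁`, `ttgPush₂` (the reduction of a divisor of the generic fibre to the two
components of the closed fibre, through the class map `cls`), their values on divisors lifted along
a section of `cls`, and the elementary facts on `Finsupp.mapDomain` used with them.
-/

set_option autoImplicit false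
set_option linter.unusedSectionVars false
set_option linter.unusedVariables false
set_option linter.style.haveILetI false

noncomputable section

namespace Fermat.Agent.TT

open AlgebraicCurve IsLocalRing Module Fermat.Agent.G Fermat.Agent.FF Fermat.Agent.V.RR

section PushCalc

variable {K : Type*} [Field K] {F : Type*} [Field F] [Algebra K F]
variable {k : Type*} [Field k] {F₁ F₂ : Type*} [Field F₁] [Field F₂] [Algebra k F₁] [Algebra k F₂]
variable (cls : Place K F → Option (Place k F₁ ⊕ Place k F₂))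

theorem ttgPush₁_apply (D : Divisor K F) (Q : Place k F₁) :
    ttgPush₁ cls D Q = Finsupp.mapDomain cls D (some (Sum.inl Q)) :=
  Finsupp.comapDomain_apply _ _ _ _

theorem ttgPush₂_apply (D : Divisor K F) (Q : Place k F₂) :
    ttgPush₂ cls D Q = Finsupp.mapDomain cls D (some (Sum.inr Q)) :=
  Finsupp.comapDomain_apply _ _ _ _

theorem ttgPush₁_zero : ttgPush₁ cls (0 : Divisor K F) = 0 := by
  ext Q; rw [ttgPush₁_apply, Finsupp.mapDomain_zero]; rfl

theorem ttgPush₂_zero : ttgPush₂ cls (0 : Divisor K F) = 0 := by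
  ext Q; rw [ttgPush₂_apply, Finsupp.mapDomain_zero]; rfl

theorem ttgPush₁_add (D D' : Divisor K F) :
    ttgPush₁ cls (D + D') = ttgPush₁ cls D + ttgPush₁ cls D' := by
  ext Q
  rw [Finsupp.add_apply, ttgPush₁_apply, ttgPush₁_apply, ttgPush₁_apply, Finsupp.mapDomain_add,
    Finsupp.add_apply]

theorem ttgPush₂_add (D D' : Divisor K F) :
    ttgPush₂ cls (D + D') = ttgPush₂ cls D + ttgPush₂ cls D' := by
  ext Q
  rw [Finsupp.add_apply, ttgPush₂_apply, ttgPush₂_apply, ttgPush₂_apply, Finsupp.mapDomain_add,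
    Finsupp.add_apply]

/-- `ttgPush₁` as an additive homomorphism. -/
def ttgPush₁Hom : Divisor K F →+ Divisor k F₁ where
  toFun := ttgPush₁ cls
  map_zero' := ttgPush₁_zero cls
  map_add' := ttgPush₁_add cls

/-- `ttgPush₂` as an additive homomorphism. -/
def ttgPush₂Hom : Divisor K F →+ Divisor k F₂ where
  toFun := ttgPush₂ cls
  map_zero' := ttgPush₂_zero cls
  map_add' := ttgPush₂_add cls

theorem ttgPush₁_sub (D D' : Divisor K F) :
    ttgPush₁ cls (D - D') = ttgPush₁ cls D - ttgPush₁ cls D' :=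
  map_sub (ttgPush₁Hom cls) D D'

theorem ttgPush₂_sub (D D' : Divisor K F) :
    ttgPush₂ cls (D - D') = ttgPush₂ cls D - ttgPush₂ cls D' :=
  map_sub (ttgPush₂Hom cls) D D'

theorem ttgPush₁_nsmul (n : ℕ) (D : Divisor K F) :
    ttgPush₁ cls (n • D) = n • ttgPush₁ cls D :=
  map_nsmul (ttgPush₁Hom cls) n D

theorem ttgPush₂_nsmul (n : ℕ) (D : Divisor K F) :
    ttgPush₂ cls (n • D) = n • ttgPush₂ cls D :=
  map_nsmul (ttgPush₂Hom cls) n D

/-- two divisors with the same classes have the same reductions. -/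
theorem ttgPush₁_congr {D D' : Divisor K F}
    (h : Finsupp.mapDomain cls D = Finsupp.mapDomain cls D') : ttgPush₁ cls D = ttgPush₁ cls D' := by
  ext Q; rw [ttgPush₁_apply, ttgPush₁_apply, h]

theorem ttgPush₂_congr {D D' : Divisor K F}
    (h : Finsupp.mapDomain cls D = Finsupp.mapDomain cls D') : ttgPush₂ cls D = ttgPush₂ cls D' := by
  ext Q; rw [ttgPush₂_apply, ttgPush₂_apply, h]

variable {cls}

/-- the classes of a divisor lifted along a section of the first kind. -/
theorem ttg_mapDomain_lift₁ (ℓ : Place k F₁ → Place K F) (E : Divisor k F₁)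
    (h : ∀ Q ∈ E.support, cls (ℓ Q) = some (Sum.inl Q)) :
    Finsupp.mapDomain cls (Finsupp.mapDomain ℓ E) =
      Finsupp.mapDomain (fun Q : Place k F₁ => (some (Sum.inl Q) : Option (Place k F₁ ⊕ Place k F₂)))
        E := by
  rw [← Finsupp.mapDomain_comp]
  exact Finsupp.mapDomain_congr fun Q hQ => h Q hQ

/-- the classes of a divisor lifted along a section of the second kind. -/
theorem ttg_mapDomain_lift₂ (ℓ : Place k F₂ → Place K F) (E : Divisor k F₂)
    (h : ∀ Q ∈ E.support, cls (ℓ Q) = some (Sum.inr Q)) :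
    Finsupp.mapDomain cls (Finsupp.mapDomain ℓ E) =
      Finsupp.mapDomain (fun Q : Place k F₂ => (some (Sum.inr Q) : Option (Place k F₁ ⊕ Place k F₂)))
        E := by
  rw [← Finsupp.mapDomain_comp]
  exact Finsupp.mapDomain_congr fun Q hQ => h Q hQ

theorem ttg_inl_injective : Function.Injective
    (fun Q : Place k F₁ => (some (Sum.inl Q) : Option (Place k F₁ ⊕ Place k F₂))) :=
  fun _ _ h => Sum.inl.inj (Option.some.inj h)

theorem ttg_inr_injective : Function.Injective
    (fun Q : Place k F₂ => (some (Sum.inr Q) : Option (Place k F₁ ⊕ Place k F₂))) :=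
  fun _ _ h => Sum.inr.inj (Option.some.inj h)

theorem ttgPush₁_lift₁ (ℓ : Place k F₁ → Place K F) (E : Divisor k F₁)
    (h : ∀ Q ∈ E.support, cls (ℓ Q) = some (Sum.inl Q)) :
    ttgPush₁ cls (Finsupp.mapDomain ℓ E) = E := by
  ext Q
  rw [ttgPush₁_apply, ttg_mapDomain_lift₁ ℓ E h]
  exact Finsupp.mapDomain_apply ttg_inl_injective E Q

theorem ttgPush₂_lift₁ (ℓ : Place k F₁ → Place K F) (E : Divisor k F₁)
    (h : ∀ Q ∈ E.support, cls (ℓ Q) = some (Sum.inl Q)) :
    ttgPush₂ cls (Finsupp.mapDomain ℓ E) = 0 := by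
  ext Q
  rw [ttgPush₂_apply, ttg_mapDomain_lift₁ ℓ E h]
  refine Finsupp.mapDomain_of_notMem_range _ _ ?_
  rintro ⟨Q', hQ'⟩
  exact Sum.inl_ne_inr (Option.some.inj hQ')

theorem ttgPush₂_lift₂ (ℓ : Place k F₂ → Place K F) (E : Divisor k F₂)
    (h : ∀ Q ∈ E.support, cls (ℓ Q) = some (Sum.inr Q)) :
    ttgPush₂ cls (Finsupp.mapDomain ℓ E) = E := by
  ext Q
  rw [ttgPush₂_apply, ttg_mapDomain_lift₂ ℓ E h]
  exact Finsupp.mapDomain_apply ttg_inr_injective E Q

theorem ttgPush₁_lift₂ (ℓ : Place k F₂ → Place K F) (E : Divisor k F₂)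
    (h : ∀ Q ∈ E.support, cls (ℓ Q) = some (Sum.inr Q)) :
    ttgPush₁ cls (Finsupp.mapDomain ℓ E) = 0 := by
  ext Q
  rw [ttgPush₁_apply, ttg_mapDomain_lift₂ ℓ E h]
  refine Finsupp.mapDomain_of_notMem_range _ _ ?_
  rintro ⟨Q', hQ'⟩
  exact Sum.inr_ne_inl (Option.some.inj hQ')

/-- a place in the support of a lifted divisor is a lift. -/
theorem ttg_exists_of_mapDomain_ne {α β : Type*} (ℓ : α → β) (E : α →₀ ℤ) {P : β}
    (hP : Finsupp.mapDomain ℓ E P ≠ 0) : ∃ Q ∈ E.support, ℓ Q = P := by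
  classical
  have h1 : P ∈ (Finsupp.mapDomain ℓ E).support := Finsupp.mem_support_iff.mpr hP
  have h2 := Finsupp.mapDomain_support h1
  obtain ⟨Q, hQ, rfl⟩ := Finset.mem_image.mp h2
  exact ⟨Q, hQ, rfl⟩

/-- the degree of a lifted divisor (all places of degree one). -/
theorem ttg_degree_mapDomain {K' F' : Type*} [Field K'] [Field F'] [Algebra K' F']
    (ℓ : Place k F₁ → Place K' F') (hdeg : ∀ P : Place K' F', P.deg = 1)
    (hdegk : ∀ Q : Place k F₁, Q.deg = 1) (E : Divisor k F₁) :
    Divisor.degree (Finsupp.mapDomain ℓ E) = Divisor.degree E := by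
  induction E using Finsupp.induction with
  | zero => simp
  | single_add Q n E _ _ ih =>
    rw [Finsupp.mapDomain_add, map_add, map_add, ih, Finsupp.mapDomain_single,
      Divisor.degree_single, Divisor.degree_single, hdeg, hdegk]

/-- a divisor lifted along fixed places is fixed. -/
theorem ttg_smul_mapDomain {α : Type*} (s : SemilinearAut K F) (ℓ : α → Place K F) (E : α →₀ ℤ)
    (h : ∀ Q ∈ E.support, s • ℓ Q = ℓ Q) : s • (Finsupp.mapDomain ℓ E : Divisor K F) =
      Finsupp.mapDomain ℓ E := by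
  rw [SemilinearAut.divisor_smul_def, ← Finsupp.mapDomain_comp]
  exact Finsupp.mapDomain_congr fun Q hQ => h Q hQ

/-- a lifted effective divisor is effective. -/
theorem ttg_mapDomain_nonneg {α β : Type*} (ℓ : α → β) {E : α →₀ ℤ} (hE : 0 ≤ E) :
    0 ≤ Finsupp.mapDomain ℓ E := by
  classical
  intro P
  rw [Finsupp.mapDomain, Finsupp.sum_apply]
  refine Finset.sum_nonneg fun Q _ => ?_
  show 0 ≤ (Finsupp.single (ℓ Q) (E Q)) P
  rw [Finsupp.single_apply]
  split_ifs
  · exact hE Q
  · exact le_refl _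

theorem ttg_mapDomain_mono {α β : Type*} (ℓ : α → β) {E E' : α →₀ ℤ} (h : E ≤ E') :
    Finsupp.mapDomain ℓ E ≤ Finsupp.mapDomain ℓ E' := by
  have h0 : 0 ≤ E' - E := sub_nonneg.mpr h
  have := ttg_mapDomain_nonneg ℓ h0
  rw [Finsupp.mapDomain_sub] at this
  exact sub_nonneg.mp this

end PushCalc

end Fermat.Agent.TT
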